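import Fermat.Agent.CarE.Phi
import Fermat.Agent.Car.Model

/-!
# Galois descent for modular function fields
-/

set_option autoImplicit false
set_option linter.style.haveILetI false
set_option linter.unusedSectionVars false

noncomputable section

namespace Fermat.Agent.CarE

open ModularCurve Polynomial IntermediateField Fermat.Agent.ModPoly Fermat.Agent.Cusp AlgebraicCurve
open Fermat.Agent.SemiSt

variable {K Ω : Type*} [Field K] [Field Ω] [Algebra K Ω] {N : ℕ} [NeZero N]

variable (K Ω N) in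
/-- the embedding of the function field over the small field -/
def emb : FF K N →+* FF Ω N := actH N (algebraMap K Ω)

theorem coe_emb (x : FF K N) : (emb K Ω N x : LaurentSeries Ω) =
    coeffMap (algebraMap K Ω) (x : LaurentSeries K) := rfl

theorem emb_algebraMap (c : K) : emb K Ω N (algebraMap K (FF K N) c) =
    algebraMap Ω (FF Ω N) (algebraMap K Ω c) := by
  apply Subtype.ext
  rw [coe_emb]
  change coeffMap (algebraMap K Ω) (algebraMap K (LaurentSeries K) c) =
    algebraMap Ω (LaurentSeries Ω) (algebraMap K Ω c)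
  rw [algebraMap_eq_C, coeffMap_C, ← algebraMap_eq_C]

theorem emb_jm {m : ℕ+} (hm : (m : ℕ) ∣ N) : emb K Ω N (jm K m hm) = jm Ω m hm :=
  Subtype.ext (coeffMap_Jc_one _ m)

theorem emb_injective : Function.Injective (emb K Ω N) := (emb K Ω N).injective

theorem emb_incl {M : ℕ} [NeZero M] (h : M ∣ N) (x : FF K M) :
    emb K Ω N (incl K h x) = incl Ω h (emb K Ω M x) := by
  apply Subtype.ext
  rw [coe_emb, coe_incl, coe_incl, coe_emb]

/-- the function field over `Ω` is spanned by the function field over `K` -/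
theorem span_emb [Algebra.IsAlgebraic K Ω] (y : FF Ω N) :
    ∃ (n : ℕ) (ω : Fin n → Ω) (x : Fin n → FF K N),
      y = ∑ i, algebraMap Ω (FF Ω N) (ω i) * emb K Ω N (x i) := by
  letI : Algebra (FF K N) (FF Ω N) := (emb K Ω N).toAlgebra
  have hint : ∀ c : Ω, IsIntegral (FF K N) (algebraMap Ω (FF Ω N) c) := by
    intro c
    obtain ⟨p, hp, hpc⟩ := Algebra.IsIntegral.isIntegral (R := K) c
    refine ⟨p.map (algebraMap K (FF K N)), hp.map _, ?_⟩
    rw [eval₂_map]
    have h1 : (algebraMap (FF K N) (FF Ω N)).comp (algebraMap K (FF K N)) =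
        (algebraMap Ω (FF Ω N)).comp (algebraMap K Ω) := by
      apply RingHom.ext
      intro a
      exact emb_algebraMap (K := K) (Ω := Ω) (N := N) a
    rw [h1, ← Polynomial.hom_eval₂, hpc, map_zero]
  let B : Subalgebra (FF K N) (FF Ω N) := Algebra.adjoin (FF K N) (Set.range (algebraMap Ω (FF Ω N)))
  have hBint : ∀ x ∈ B, IsAlgebraic (FF K N) x := by
    intro x hx
    have h1 : B ≤ integralClosure (FF K N) (FF Ω N) := by
      apply Algebra.adjoin_le
      rintro _ ⟨c, rfl⟩
      exact hint c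
    exact (h1 hx).isAlgebraic
  have hB : ∀ y : FF Ω N, y ∈ B := by
    intro y
    have h4 : y ∈ IntermediateField.adjoin Ω
        {x : FF Ω N | ∃ (m : ℕ+) (hm : (m : ℕ) ∣ N), x = jm Ω m hm} := by
      rw [adjoin_jm_eq_top]; exact IntermediateField.mem_top
    induction h4 using IntermediateField.adjoin_induction with
    | mem x hx =>
      obtain ⟨m, hm, rfl⟩ := hx
      rw [← emb_jm (K := K) hm]
      exact B.algebraMap_mem (jm K m hm)
    | algebraMap x => exact Algebra.subset_adjoin ⟨x, rfl⟩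
    | add x y _ _ hx hy => exact add_mem hx hy
    | inv x _ hx => exact B.inv_mem_of_algebraic (x := ⟨x, hx⟩) (hBint x hx)
    | mul x y _ _ hx hy => exact mul_mem hx hy
  have h2 := hB y
  have h3 : (B : Set (FF Ω N)) ⊆ {y | ∃ (n : ℕ) (ω : Fin n → Ω) (x : Fin n → FF K N),
      y = ∑ i, algebraMap Ω (FF Ω N) (ω i) * emb K Ω N (x i)} := by
    intro y hy
    have h5 : y ∈ Submodule.span (FF K N)
        ((Submonoid.closure (Set.range (algebraMap Ω (FF Ω N))) : Submonoid (FF Ω N)) :
          Set (FF Ω N)) := by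
      rw [← Algebra.adjoin_eq_span]; exact hy
    have h6 : (Submonoid.closure (Set.range (algebraMap Ω (FF Ω N))) : Submonoid (FF Ω N)) =
        MonoidHom.mrange (algebraMap Ω (FF Ω N) : Ω →* FF Ω N) := by
      apply le_antisymm
      · rw [Submonoid.closure_le]
        rintro _ ⟨c, rfl⟩
        exact ⟨c, rfl⟩
      · rintro _ ⟨c, rfl⟩
        exact Submonoid.subset_closure ⟨c, rfl⟩
    rw [h6] at h5
    obtain ⟨c, t, ht, -, ht'⟩ := (Submodule.mem_span_iff_exists_finset_subset.1 h5)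
    have h7 : ∀ a ∈ t, ∃ ω : Ω, algebraMap Ω (FF Ω N) ω = a := fun a ha => ht ha
    classical
    choose! ω hω using h7
    let e := t.equivFin.symm
    refine ⟨t.card, fun i => ω (e i), fun i => c (e i), ?_⟩
    rw [← ht', ← Finset.sum_coe_sort, ← e.sum_comp]
    refine Finset.sum_congr rfl fun i _ => ?_
    rw [hω _ (e i).2, Algebra.smul_def, mul_comm]
    rfl
  exact h3 h2

/-- coefficients of sums -/
theorem coeff_sum_emb (n : ℕ) (ω : Fin n → Ω) (x : Fin n → FF K N) (m : ℤ) :
    ((∑ i, algebraMap Ω (FF Ω N) (ω i) * emb K Ω N (x i) : FF Ω N) : LaurentSeries Ω).coeff m =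
      ∑ i, ω i * algebraMap K Ω ((x i : LaurentSeries K).coeff m) := by
  have h1 : ((∑ i, algebraMap Ω (FF Ω N) (ω i) * emb K Ω N (x i) : FF Ω N) : LaurentSeries Ω) =
      ∑ i, HahnSeries.C (ω i) * coeffMap (algebraMap K Ω) (x i : LaurentSeries K) := by
    rw [AddSubmonoidClass.coe_finsetSum]
    refine Finset.sum_congr rfl fun i _ => ?_
    rw [MulMemClass.coe_mul, coe_emb, ← algebraMap_eq_C]
    rfl
  rw [h1, HahnSeries.coeff_sum]
  refine Finset.sum_congr rfl fun i _ => ?_
  rw [HahnSeries.C_mul_eq_smul, HahnSeries.coeff_smul, coeffMap_coeff, smul_eq_mul]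

theorem coeff_sum_FF (n : ℕ) (c : Fin n → K) (x : Fin n → FF K N) (m : ℤ) :
    ((∑ i, c i • x i : FF K N) : LaurentSeries K).coeff m =
      ∑ i, c i * (x i : LaurentSeries K).coeff m := by
  have h1 : ((∑ i, c i • x i : FF K N) : LaurentSeries K) =
      ∑ i, HahnSeries.C (c i) * (x i : LaurentSeries K) := by
    rw [AddSubmonoidClass.coe_finsetSum]
    refine Finset.sum_congr rfl fun i _ => ?_
    rw [Algebra.smul_def, MulMemClass.coe_mul, ← algebraMap_eq_C]
    rfl
  rw [h1, HahnSeries.coeff_sum]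
  refine Finset.sum_congr rfl fun i _ => ?_
  rw [HahnSeries.C_mul_eq_smul, HahnSeries.coeff_smul, smul_eq_mul]

/-- linear independence is preserved -/
theorem emb_indep (n : ℕ) (x : Fin n → FF K N) (hx : LinearIndependent K x) :
    LinearIndependent Ω (fun i => emb K Ω N (x i)) := by
  rw [Fintype.linearIndependent_iff] at hx ⊢
  intro c hc i₀
  by_contra hne
  obtain ⟨l, hl⟩ := Module.Projective.exists_dual_ne_zero K hne
  apply hl
  refine hx (fun i => l (c i)) ?_ i₀
  apply Subtype.ext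
  ext m
  rw [coeff_sum_FF]
  have h1 := coeff_sum_emb n c x m
  have h2 : (∑ i, algebraMap Ω (FF Ω N) (c i) * emb K Ω N (x i) : FF Ω N) = 0 := by
    rw [← hc]
    exact Finset.sum_congr rfl fun i _ => (Algebra.smul_def _ _).symm
  rw [h2] at h1
  have h3 := congrArg l h1
  have h4 : (((0 : FF Ω N) : LaurentSeries Ω).coeff m) = 0 := rfl
  rw [h4, map_zero, map_sum] at h3
  change _ = (0 : K)
  rw [h3]
  refine Finset.sum_congr rfl fun i _ => ?_
  rw [mul_comm (c i), ← Algebra.smul_def, map_smul, smul_eq_mul, mul_comm]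

theorem exists_retraction (K Ω : Type*) [Field K] [Field Ω] [Algebra K Ω] :
    ∃ l : Ω →ₗ[K] K, ∀ c : K, l (algebraMap K Ω c) = c := by
  obtain ⟨l, hl⟩ := Module.Projective.exists_dual_ne_zero K (one_ne_zero : (1 : Ω) ≠ 0)
  refine ⟨(l 1)⁻¹ • l, fun c => ?_⟩
  rw [LinearMap.smul_apply, Algebra.algebraMap_eq_smul_one, map_smul, smul_eq_mul, smul_eq_mul,
    mul_comm c, ← mul_assoc, inv_mul_cancel₀ hl, one_mul]

/-- functions with coefficients in the small field descend -/
theorem exists_of_coeff [Algebra.IsAlgebraic K Ω] {y : FF Ω N}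
    (hy : ∀ m : ℤ, (y : LaurentSeries Ω).coeff m ∈ Set.range (algebraMap K Ω)) :
    ∃ x : FF K N, emb K Ω N x = y := by
  obtain ⟨n, ω, x, rfl⟩ := span_emb (K := K) y
  obtain ⟨l, hl⟩ := exists_retraction K Ω
  refine ⟨∑ i, l (ω i) • x i, ?_⟩
  apply Subtype.ext
  ext m
  rw [coe_emb, coeffMap_coeff, coeff_sum_FF]
  obtain ⟨c, hc⟩ := hy m
  rw [← hc]
  rw [coeff_sum_emb] at hc
  congr 1
  have h1 := congrArg l hc
  rw [hl, map_sum] at h1
  rw [h1]
  refine Finset.sum_congr rfl fun i _ => ?_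
  rw [mul_comm (ω i), ← Algebra.smul_def, map_smul, smul_eq_mul, mul_comm]

/-- separating functionals contain a dual pair of bases -/
theorem exists_dual_pair {V I : Type*} [AddCommGroup V] [Module Ω V] [FiniteDimensional Ω V]
    (f : I → Module.Dual Ω V) (hf : ∀ v, (∀ i, f i v = 0) → v = 0) :
    ∃ (n : ℕ) (j : Fin n → I) (b : Module.Basis (Fin n) Ω V),
      (∀ a c, f (j a) (b c) = if a = c then 1 else 0) ∧ ∀ v, (∀ a, f (j a) v = 0) → v = 0 := by
  classical
  -- the functionals span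
  have hspan : Submodule.span Ω (Set.range f) = ⊤ := by
    have h1 : (Submodule.span Ω (Set.range f)).dualCoannihilator = ⊥ := by
      rw [eq_bot_iff]
      intro v hv
      rw [Submodule.mem_dualCoannihilator] at hv
      exact hf v fun i => hv _ (Submodule.subset_span ⟨i, rfl⟩)
    rw [← Subspace.dualCoannihilator_dualAnnihilator_eq (W := Submodule.span Ω (Set.range f)), h1,
      Submodule.dualAnnihilator_bot]
  obtain ⟨s, hs, hs', hli⟩ := exists_linearIndependent Ω (Set.range f)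
  rw [hspan] at hs'
  haveI : Finite s := hli.finite
  letI := Fintype.ofFinite s
  let F₀ : Module.Basis s Ω (Module.Dual Ω V) := Module.Basis.mk hli (by
    rw [Subtype.range_coe, hs'])
  let e := Fintype.equivFin s
  let F : Module.Basis (Fin (Fintype.card s)) Ω (Module.Dual Ω V) := F₀.reindex e
  have hF : ∀ a, F a = (e.symm a : Module.Dual Ω V) := by
    intro a
    simp [F, F₀]
  choose j hj using fun a : Fin (Fintype.card s) => hs (e.symm a).2
  have hjF : ∀ a, f (j a) = F a := fun a => (hj a).trans (hF a).symm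
  let b : Module.Basis (Fin (Fintype.card s)) Ω V := F.dualBasis.map (Module.evalEquiv Ω V).symm
  refine ⟨_, j, b, ?_, ?_⟩
  · intro a c
    rw [hjF]
    have h1 : (Module.evalEquiv Ω V) (b c) = F.dualBasis c := by
      simp [b]
    have h2 : F a (b c) = (Module.evalEquiv Ω V) (b c) (F a) := rfl
    rw [h2, h1, Module.Basis.dualBasis_apply, Module.Basis.repr_self, Finsupp.single_apply]
  · intro v hv
    apply (Module.evalEquiv Ω V).injective
    rw [map_zero]
    apply F.ext
    intro a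
    rw [← hjF]
    exact hv a

variable (N) in
/-- the coefficientwise action of the Galois group -/
def gal (σ : Ω ≃ₐ[K] Ω) : FF Ω N →+* FF Ω N := (act N σ.toRingEquiv : FF Ω N →+* FF Ω N)

theorem coe_gal (σ : Ω ≃ₐ[K] Ω) (x : FF Ω N) : (gal N σ x : LaurentSeries Ω) =
    coeffMap (σ.toRingEquiv : Ω →+* Ω) (x : LaurentSeries Ω) := rfl

theorem gal_coeff (σ : Ω ≃ₐ[K] Ω) (x : FF Ω N) (m : ℤ) :
    (gal N σ x : LaurentSeries Ω).coeff m = σ ((x : LaurentSeries Ω).coeff m) := by
  rw [coe_gal, coeffMap_coeff]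
  rfl

theorem gal_emb (σ : Ω ≃ₐ[K] Ω) (x : FF K N) : gal N σ (emb K Ω N x) = emb K Ω N x := by
  apply Subtype.ext
  ext m
  rw [gal_coeff, coe_emb, coeffMap_coeff, AlgEquiv.commutes]

theorem gal_algebraMap (σ : Ω ≃ₐ[K] Ω) (c : Ω) :
    gal N σ (algebraMap Ω (FF Ω N) c) = algebraMap Ω (FF Ω N) (σ c) :=
  act_algebraMap σ.toRingEquiv c

/-- elements fixed by the Galois group descend -/
theorem exists_of_fixed [Algebra.IsAlgebraic K Ω]
    (hfix : ∀ x : Ω, (∀ σ : Ω ≃ₐ[K] Ω, σ x = x) → x ∈ Set.range (algebraMap K Ω))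
    {y : FF Ω N} (hy : ∀ σ : Ω ≃ₐ[K] Ω, gal N σ y = y) : ∃ x : FF K N, emb K Ω N x = y := by
  apply exists_of_coeff
  intro m
  apply hfix
  intro σ
  rw [← gal_coeff, hy]

set_option synthInstance.maxHeartbeats 400000 in
/-- **Galois descent** -/
theorem galois_desc [Algebra.IsAlgebraic K Ω]
    (hfix : ∀ x : Ω, (∀ σ : Ω ≃ₐ[K] Ω, σ x = x) → x ∈ Set.range (algebraMap K Ω))
    (V : Submodule Ω (FF Ω N)) (hV : FiniteDimensional Ω V)
    (hst : ∀ σ ∈ Set.range (fun σ : Ω ≃ₐ[K] Ω => gal N σ), ∀ x ∈ V, σ x ∈ V) :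
    V ≤ Submodule.span Ω (emb K Ω N '' {x | emb K Ω N x ∈ V}) := by
  classical
  let f : ℤ → Module.Dual Ω V := fun m =>
    { toFun := fun v => ((v : FF Ω N) : LaurentSeries Ω).coeff m
      map_add' := fun v w => rfl
      map_smul' := fun c v => by
        change (((c • (v : FF Ω N) : FF Ω N)) : LaurentSeries Ω).coeff m = _
        rw [Algebra.smul_def]
        change (algebraMap Ω (LaurentSeries Ω) c * ((v : FF Ω N) : LaurentSeries Ω)).coeff m = _
        rw [algebraMap_eq_C, HahnSeries.C_mul_eq_smul, HahnSeries.coeff_smul]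
        rfl }
  have hf0 : ∀ v : V, (∀ i, f i v = 0) → v = 0 := by
    intro v hv
    apply Subtype.ext
    apply Subtype.ext
    ext m
    exact hv m
  obtain ⟨n, j, b, hb, hsep⟩ := exists_dual_pair f hf0
  have hfixb : ∀ (c : Fin n) (σ : Ω ≃ₐ[K] Ω), gal N σ (b c : FF Ω N) = b c := by
    intro c σ
    have hmem : gal N σ (b c : FF Ω N) ∈ V := hst _ ⟨σ, rfl⟩ _ (b c).2
    have h1 : (⟨_, hmem⟩ - b c : V) = 0 := by
      apply hsep
      intro a
      rw [map_sub, sub_eq_zero]
      have h2 : f (j a) (⟨_, hmem⟩ : V) = σ (f (j a) (b c)) := gal_coeff σ _ _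
      rw [h2, hb]
      split_ifs
      · exact map_one σ
      · exact map_zero σ
    exact congrArg Subtype.val (sub_eq_zero.1 h1)
  intro v hv
  have h1 := congrArg V.subtype (b.sum_repr ⟨v, hv⟩)
  rw [map_sum] at h1
  have h2 : v = ∑ c, V.subtype (b.repr ⟨v, hv⟩ c • b c) := h1.symm
  rw [h2]
  simp only [map_smul]
  refine Submodule.sum_mem _ fun c _ => Submodule.smul_mem _ _ ?_
  obtain ⟨x, hx⟩ := exists_of_fixed hfix (hfixb c)
  exact Submodule.subset_span ⟨x, by rw [Set.mem_ofPred_eq, hx]; exact (b c).2, hx⟩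

variable (N) in
/-- the descent data -/
def desc [Algebra.IsAlgebraic K Ω]
    (hfix : ∀ x : Ω, (∀ σ : Ω ≃ₐ[K] Ω, σ x = x) → x ∈ Set.range (algebraMap K Ω)) :
    Car.Desc K (FF K N) Ω (FF Ω N) where
  emb := emb K Ω N
  hemb := emb_algebraMap
  Γ := Set.range (fun σ : Ω ≃ₐ[K] Ω => gal N σ)
  Γ_emb := by
    rintro _ ⟨σ, rfl⟩ x
    exact gal_emb σ x
  Γ_semi := by
    rintro _ ⟨σ, rfl⟩ c
    exact ⟨σ c, gal_algebraMap σ c⟩
  desc := galois_desc hfix
  indep := emb_indep

end Fermat.Agent.CarE
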