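import Fermat.Agent.CarE.Emb1

/-!
# The three embeddings of the modular function field of level `q ^ 2 M`
-/

set_option autoImplicit false
set_option linter.style.haveILetI false
set_option linter.unusedSectionVars false

noncomputable section

namespace Fermat.Agent.CarE

open ModularCurve Polynomial IntermediateField Fermat.Agent.ModPoly Fermat.Agent.Cusp AlgebraicCurve
open Fermat.Agent.SemiSt

section Main

variable {Ω : Type*} [Field Ω] [IsAlgClosed Ω] [CharZero Ω] {q M : ℕ} [hq : Fact q.Prime] [NeZero M]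
  (hco : q.Coprime M)

theorem cast_ne (Ω : Type*) [Field Ω] [CharZero Ω] (N : ℕ) [NeZero N] : (N : Ω) ≠ 0 :=
  Nat.cast_ne_zero.2 (NeZero.ne N)

variable (Ω) in
/-- the Atkin-Lehner involution at `q ^ 2` -/
def w2 : FF Ω (q ^ 2 * M) ≃ₐ[Ω] FF Ω (q ^ 2 * M) :=
  wq (Q := q ^ 2) (cast_ne Ω (q ^ 2 * M)) (hco.pow_left 2)

theorem w2_w2 (x : FF Ω (q ^ 2 * M)) : w2 Ω hco (w2 Ω hco x) = x := wq_wq _ _ x

theorem dvd_a {d : ℕ+} (hd : (d : ℕ) ∣ M) : (d : ℕ) ∣ q ^ 2 * M := hd.trans (dvd_mul_left _ _)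

theorem dvd_b {d : ℕ+} (hd : (d : ℕ) ∣ M) : ((pp q * d : ℕ+) : ℕ) ∣ q ^ 2 * M := by
  rw [PNat.mul_coe, coe_pp, pow_two]
  exact mul_dvd_mul (dvd_mul_left _ _) hd

theorem dvd_c {d : ℕ+} (hd : (d : ℕ) ∣ M) : ((pp q * pp q * d : ℕ+) : ℕ) ∣ q ^ 2 * M := by
  rw [PNat.mul_coe, PNat.mul_coe, coe_pp, pow_two]
  exact mul_dvd_mul dvd_rfl hd

theorem jm_congr {k : Type*} [Field k] {N : ℕ} {m m' : ℕ+} (h : m = m') (hm : (m : ℕ) ∣ N)
    (hm' : (m' : ℕ) ∣ N) : jm k m hm = jm k m' hm' := by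
  subst h; rfl

theorem w2_a {d : ℕ+} (hd : (d : ℕ) ∣ M) :
    w2 Ω hco (jm Ω d (dvd_a hd)) = jm Ω (pp q * pp q * d) (dvd_c hd) := by
  have h1 : ((1 * d : ℕ+) : ℕ) ∣ q ^ 2 * M := by rw [one_mul]; exact dvd_a hd
  have h := wq_jm (Q := q ^ 2) (cast_ne Ω (q ^ 2 * M)) (hco.pow_left 2) (r := 1) (r' := pp q * pp q)
    (d := d) (by rw [PNat.one_coe, one_mul, PNat.mul_coe, coe_pp, pow_two]) hd h1 (dvd_c hd)
  rw [← h, w2]
  congr 1
  exact jm_congr (one_mul d).symm _ _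

theorem w2_b {d : ℕ+} (hd : (d : ℕ) ∣ M) :
    w2 Ω hco (jm Ω (pp q * d) (dvd_b hd)) = jm Ω (pp q * d) (dvd_b hd) :=
  wq_jm (Q := q ^ 2) (cast_ne Ω (q ^ 2 * M)) (hco.pow_left 2) (r := pp q) (r' := pp q)
    (d := d) (by rw [coe_pp, pow_two]) hd (dvd_b hd) (dvd_b hd)

theorem w2_c {d : ℕ+} (hd : (d : ℕ) ∣ M) :
    w2 Ω hco (jm Ω (pp q * pp q * d) (dvd_c hd)) = jm Ω d (dvd_a hd) := by
  rw [← w2_a hco hd, w2_w2]

/-- homomorphisms agreeing on the three kinds of generators agree -/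
theorem hom_ext3 (hco : q.Coprime M) {k : Type*} [Field k] [IsAlgClosed k] {B : Type*} [Semiring B]
    [Algebra k B] {σ τ : FF k (q ^ 2 * M) →ₐ[k] B}
    (ha : ∀ (d : ℕ+) (hd : (d : ℕ) ∣ M), σ (jm k d (dvd_a hd)) = τ (jm k d (dvd_a hd)))
    (hb : ∀ (d : ℕ+) (hd : (d : ℕ) ∣ M),
      σ (jm k (pp q * d) (dvd_b hd)) = τ (jm k (pp q * d) (dvd_b hd)))
    (hc : ∀ (d : ℕ+) (hd : (d : ℕ) ∣ M),
      σ (jm k (pp q * pp q * d) (dvd_c hd)) = τ (jm k (pp q * pp q * d) (dvd_c hd))) : σ = τ := by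
  apply hom_ext
  intro m hm
  obtain ⟨d, hd, rfl | rfl | rfl⟩ := div_cases hco hm
  · exact ha m hd
  · exact hb d hd
  · exact hc d hd

variable (Ω) in
/-- the embedding at the cusp `∞` -/
def phi0 : FF Ω (q ^ 2 * M) →ₐ[Ω] LaurentSeries Ω := (FF Ω (q ^ 2 * M)).val

/-- the embedding at the cusp `0` -/
def phi2 : FF Ω (q ^ 2 * M) →ₐ[Ω] LaurentSeries Ω :=
  (FF Ω (q ^ 2 * M)).val.comp (w2 Ω hco : FF Ω (q ^ 2 * M) →ₐ[Ω] FF Ω (q ^ 2 * M))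

theorem phi0_apply (x : FF Ω (q ^ 2 * M)) : phi0 Ω x = (x : LaurentSeries Ω) := rfl

theorem phi2_apply (x : FF Ω (q ^ 2 * M)) : phi2 hco x = (w2 Ω hco x : LaurentSeries Ω) := rfl

variable {z : Ωˣ} (hz : z ^ q = 1 ∧ z ≠ 1)

/-- the middle embedding -/
def phi1 : FF Ω (q ^ 2 * M) →ₐ[Ω] LaurentSeries Ω :=
  (exists_phi1 (cast_ne Ω (q ^ 2 * M)) hco hz.1 hz.2).choose

theorem phi1_a {d : ℕ+} (hd : (d : ℕ) ∣ M) : phi1 hco hz (jm Ω d (dvd_a hd)) = Jc 1 d :=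
  ((exists_phi1 (cast_ne Ω (q ^ 2 * M)) hco hz.1 hz.2).choose_spec d hd).1 _

theorem phi1_b {d : ℕ+} (hd : (d : ℕ) ∣ M) :
    phi1 hco hz (jm Ω (pp q * d) (dvd_b hd)) = Jc 1 (pp q * d) :=
  ((exists_phi1 (cast_ne Ω (q ^ 2 * M)) hco hz.1 hz.2).choose_spec d hd).2.1 _

theorem phi1_c {d : ℕ+} (hd : (d : ℕ) ∣ M) :
    phi1 hco hz (jm Ω (pp q * pp q * d) (dvd_c hd)) = Jc (z ^ (d : ℕ)) d :=
  ((exists_phi1 (cast_ne Ω (q ^ 2 * M)) hco hz.1 hz.2).choose_spec d hd).2.2 _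

theorem hz_inv (hz : z ^ q = 1 ∧ z ≠ 1) : (z⁻¹) ^ q = 1 ∧ z⁻¹ ≠ 1 := by
  refine ⟨by rw [inv_pow, hz.1, inv_one], fun h => hz.2 ?_⟩
  rw [← inv_inv z, h, inv_one]

theorem z_pow_q (hz : z ^ q = 1 ∧ z ≠ 1) (d : ℕ+) : z ^ ((pp q * d : ℕ+) : ℕ) = 1 := by
  rw [PNat.mul_coe, coe_pp, pow_mul, hz.1, one_pow]

/-- symmetry under the Atkin-Lehner involution -/
theorem phi1_w2 (x : FF Ω (q ^ 2 * M)) :
    phi1 hco hz (w2 Ω hco x) = SbA z 1 (phi1 hco (hz_inv hz) x) := by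
  have h : (phi1 hco hz).comp (w2 Ω hco : FF Ω (q ^ 2 * M) →ₐ[Ω] FF Ω (q ^ 2 * M)) =
      (SbA z 1).comp (phi1 hco (hz_inv hz)) := by
    apply hom_ext3 hco
    · intro d hd
      change phi1 hco hz (w2 Ω hco (jm Ω d (dvd_a hd))) = SbA z 1 (phi1 hco _ (jm Ω d (dvd_a hd)))
      rw [w2_a hco hd, phi1_c hco hz hd, phi1_a hco _ hd, SbA_one_Jc, mul_one]
    · intro d hd
      change phi1 hco hz (w2 Ω hco (jm Ω _ (dvd_b hd))) = SbA z 1 (phi1 hco _ (jm Ω _ (dvd_b hd)))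
      rw [w2_b hco hd, phi1_b hco hz hd, phi1_b hco _ hd, SbA_one_Jc, z_pow_q hz, mul_one]
    · intro d hd
      change phi1 hco hz (w2 Ω hco (jm Ω _ (dvd_c hd))) = SbA z 1 (phi1 hco _ (jm Ω _ (dvd_c hd)))
      rw [w2_c hco hd, phi1_a hco hz hd, phi1_c hco _ hd, SbA_one_Jc, inv_pow, mul_inv_cancel]
  exact AlgHom.congr_fun h x

theorem hz_map (hz : z ^ q = 1 ∧ z ≠ 1) {Ω' : Type*} [Field Ω'] (σ : Ω ≃+* Ω') :
    (Units.map ((σ : Ω →+* Ω') : Ω →* Ω') z) ^ q = 1 ∧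
      Units.map ((σ : Ω →+* Ω') : Ω →* Ω') z ≠ 1 := by
  refine ⟨by rw [← map_pow, hz.1, map_one], fun h => hz.2 ?_⟩
  apply Units.ext
  apply σ.injective
  have := congrArg (fun u : Ω'ˣ => (u : Ω')) h
  simpa using this

theorem coeffMap_Jc {k k' : Type*} [Field k] [Field k'] (σ : k →+* k') (c : kˣ) (e : ℕ+) :
    coeffMap σ (Jc c e) = Jc (Units.map (σ : k →* k') c) e := by
  ext n
  by_cases hn : ((e : ℕ) : ℤ) ∣ n
  · obtain ⟨m, rfl⟩ := hn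
    rw [coeffMap_coeff, Jc, Jc, Sb_coeff_mul, Sb_coeff_mul, map_mul]
    congr 1
    · simp
    · have := congrArg (fun x => HahnSeries.coeff x m) (coeffMap_jqModC σ)
      simpa [coeffMap_coeff] using this
  · rw [coeffMap_coeff, Jc, Jc, Sb_coeff_of_not_dvd _ _ _ hn, Sb_coeff_of_not_dvd _ _ _ hn,
      map_zero]

/-- Galois conjugation of the middle embedding -/
theorem phi1_act {Ω' : Type*} [Field Ω'] [IsAlgClosed Ω'] [CharZero Ω'] (σ : Ω ≃+* Ω')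
    (x : FF Ω (q ^ 2 * M)) : coeffMap (σ : Ω →+* Ω') (phi1 hco hz x) =
      phi1 hco (hz_map hz σ) (act (q ^ 2 * M) σ x) := by
  -- conjugate the right hand side back
  let ψ : FF Ω (q ^ 2 * M) →ₐ[Ω] LaurentSeries Ω :=
    { ((coeffMap (σ.symm : Ω' →+* Ω)).comp
        (phi1 hco (hz_map hz σ)).toRingHom).comp (act (q ^ 2 * M) σ).toRingHom with
      commutes' := by
        intro c
        change coeffMap (σ.symm : Ω' →+* Ω) (phi1 hco (hz_map hz σ)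
          (act (q ^ 2 * M) σ (algebraMap Ω (FF Ω (q ^ 2 * M)) c))) = _
        rw [act_algebraMap, AlgHom.commutes, algebraMap_eq_C, coeffMap_C, algebraMap_eq_C]
        simp }
  have hψ : ∀ x, ψ x = coeffMap (σ.symm : Ω' →+* Ω) (phi1 hco (hz_map hz σ)
    (act (q ^ 2 * M) σ x)) := fun _ => rfl
  have hinv : ∀ c : Ωˣ, Units.map ((σ.symm : Ω' →+* Ω) : Ω' →* Ω)
      (Units.map ((σ : Ω →+* Ω') : Ω →* Ω') c) = c := fun c => Units.ext (by simp)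
  have h : phi1 hco hz = ψ := by
    apply hom_ext3 hco
    · intro d hd
      rw [hψ, act_jm, phi1_a hco hz hd, phi1_a hco _ hd, coeffMap_Jc, map_one]
    · intro d hd
      rw [hψ, act_jm, phi1_b hco hz hd, phi1_b hco _ hd, coeffMap_Jc, map_one]
    · intro d hd
      rw [hψ, act_jm, phi1_c hco hz hd, phi1_c hco _ hd, coeffMap_Jc, map_pow]
      congr 2
      exact (hinv z).symm
  rw [h, hψ, coeffMap_coeffMap]
  have : (σ : Ω →+* Ω').comp (σ.symm : Ω' →+* Ω) = RingHom.id Ω' := by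
    ext x; simp
  rw [this]
  ext n
  rfl

/-- the middle embedding extends the embedding of level `M` -/
theorem phi1_incl (x : FF Ω M) :
    phi1 hco hz (incl Ω (dvd_mul_left M (q ^ 2)) x) = (x : LaurentSeries Ω) := by
  have h : (phi1 hco hz).comp (incl Ω (dvd_mul_left M (q ^ 2))) = (FF Ω M).val := by
    apply hom_ext
    intro d hd
    rw [AlgHom.comp_apply, incl_jm, phi1_a hco hz hd]
    rfl
  exact AlgHom.congr_fun h x

end Main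

end Fermat.Agent.CarE
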