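import Fermat.Agent.CarE.VW0
import Fermat.Agent.ThmC.LiftK0
import Fermat.Agent.Flat.Limit

/-!
# The arithmetic base in `ℚ̄`
-/

set_option autoImplicit false
set_option linter.style.haveILetI false
set_option linter.unusedSectionVars false

noncomputable section

namespace Fermat.Agent.CarE

open ModularCurve Polynomial IntermediateField Fermat.Agent.ModPoly
open Fermat.Agent.SemiSt Fermat.Agent.RedMod Fermat.Agent.Car Fermat.Agent.Flat

attribute [local instance] ThmC.algRK

local notation "Qb" => AlgebraicClosure ℚ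

variable {A : ValuationSubring (AlgebraicClosure ℚ)} {q : ℕ} [hq : Fact q.Prime]

theorem algebraic_K0 : Algebra.IsAlgebraic (K0 A) (AlgebraicClosure ℚ) := by
  haveI : Algebra.IsAlgebraic ℚ (AlgebraicClosure ℚ) := AlgebraicClosure.isAlgebraic ℚ
  exact Algebra.IsAlgebraic.tower_top (K := ℚ) (K0 A)

/-- **the arithmetic base** -/
theorem base_inst (hA : A.LiesOverPrime q) :
    haveI := ThmC.isFractionRing_RK (A := A)
    Base q (R0 A) (K0 A) A Qb (kk A) := by
  haveI := ThmC.isFractionRing_RK (A := A)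
  refine
    { comm := fun a => rfl
      commk := fun a => rfl
      pu := ?_
      surj := algebraMap_kk_surjective hA
      fixed := fun x hx => ⟨⟨x, mem_K0_of_fixed A hx⟩, rfl⟩
      alg := algebraic_K0
      inert := ?_ }
  · intro a ha
    obtain ⟨n, u, hu⟩ := exists_pow_mul hA ha
    refine ⟨n, u, ?_, hu.symm⟩
    exact (u.isUnit.map (algebraMap (R0 A) (kk A))).ne_zero
  · intro σ a
    refine ⟨⟨σ (a : Qb), aut_mem A σ a.2⟩, rfl, ?_⟩
    change IsLocalRing.residue A _ = IsLocalRing.residue A _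
    rw [← sub_eq_zero, ← map_sub]
    exact (mem_nonunits_iff_residue (A.sub_mem (aut_mem A σ a.2) a.2)).1 (aut_sub_mem A σ a.2)

/-- roots of unity of order `q` in `A` -/
theorem exists_root_of_unity (A : ValuationSubring (AlgebraicClosure ℚ)) :
    ∃ z : Aˣ, z ^ q = 1 ∧ z ≠ 1 := by
  haveI : NeZero (q : Qb) := ⟨Nat.cast_ne_zero.2 hq.out.ne_zero⟩
  obtain ⟨ζ, hζ⟩ := HasEnoughRootsOfUnity.exists_primitiveRoot Qb q
  have hmem : ζ ∈ A := by
    rcases A.mem_or_inv_mem ζ with h | h
    · exact h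
    · have h1 : ζ = (ζ⁻¹) ^ (q - 1) := by
        have h2 := hζ.pow_eq_one
        have h3 : ζ ^ (q - 1) * ζ = 1 := by
          rw [← pow_succ, Nat.sub_add_cancel hq.out.one_le, h2]
        rw [inv_pow, eq_comm, inv_eq_iff_eq_inv, eq_comm]
        exact (eq_inv_of_mul_eq_one_left h3).symm
      rw [h1]
      exact pow_mem h _
  have h1 : (⟨ζ, hmem⟩ : A) ^ q = 1 := Subtype.ext hζ.pow_eq_one
  let z : Aˣ := Units.ofPowEqOne ⟨ζ, hmem⟩ q h1 hq.out.ne_zero
  refine ⟨z, Units.pow_ofPowEqOne h1 hq.out.ne_zero, fun h => ?_⟩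
  have h2 : (⟨ζ, hmem⟩ : A) = 1 := congrArg Units.val h
  exact hζ.ne_one hq.out.one_lt (congrArg Subtype.val h2)

end Fermat.Agent.CarE
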