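import Fermat.Agent.CarE.CM

/-!
# The model of the modular function field of level `q ^ 2 M`, continued
-/

set_option autoImplicit false
set_option linter.style.haveILetI false
set_option linter.unusedSectionVars false

noncomputable section

namespace Fermat.Agent.CarE

open Module ModularCurve Polynomial IntermediateField Fermat.Agent.ModPoly Fermat.Agent.Cusp
open Fermat.Agent.SemiSt Fermat.Agent.RedMod Fermat.Agent.Car Fermat.Agent.Red

variable {R0 K0 A Ω k : Type*} [CommRing R0] [IsDomain R0] [IsDiscreteValuationRing R0]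
  [Field K0] [Algebra R0 K0]
  [IsFractionRing R0 K0] [CommRing A] [IsDomain A] [ValuationRing A] [Field Ω]
  [IsAlgClosed Ω] [CharZero Ω]
  [Algebra A Ω] [IsFractionRing A Ω] [Field k] [Algebra A k] [Algebra K0 Ω] [Algebra R0 A]
  [Algebra R0 k] {q M : ℕ} [hq : Fact q.Prime] [NeZero M] [CharP k q]
  (B : Base q R0 K0 A Ω k) (hco : q.Coprime M)
  {z : Aˣ} (hz : z ^ q = 1 ∧ z ≠ 1) (hM : (M : k) ≠ 0)

section R

variable (κ : IntermediateField k (LaurentSeries k))
  (hκ : ∀ j (x : FF K0 (q ^ 2 * M)) (h : x ∈ (E3 B hco hz j).W),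
    (E3 B hco hz j).πW ⟨x, h⟩ ∈ κ)

theorem w0_mem_iff (x : FF K0 (q ^ 2 * M)) :
    (w0 hco B.alg B.fixed x ∈ (E3 B hco hz 2).W ↔ x ∈ (E3 B hco hz 0).W) ∧
    (w0 hco B.alg B.fixed x ∈ (E3 B hco hz 1).W ↔ x ∈ (E3 B hco hz 1).W) ∧
    (w0 hco B.alg B.fixed x ∈ (E3 B hco hz 0).W ↔ x ∈ (E3 B hco hz 2).W) := by
  refine ⟨?_, ?_, ?_⟩
  · change mphi (phi2 hco) (w0 hco B.alg B.fixed x) ∈ WL A Ω k ↔ _
    rw [mphi2_w0]
    rfl
  · constructor
    · intro h
      have h1 := (w0_mem_W1 B hco hz h).1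
      rw [w0_w0] at h1
      exact h1
    · intro h
      exact (w0_mem_W1 B hco hz h).1
  · change mphi (phi0 Ω) (w0 hco B.alg B.fixed x) ∈ WL A Ω k ↔ _
    rw [mphi0_w0]
    rfl

theorem r_w0_2 (x : FF K0 (q ^ 2 * M)) :
    (C3 B hco hz κ hκ 2).r (w0 hco B.alg B.fixed x) = (C3 B hco hz κ hκ 0).r x :=
  Subtype.ext (coe_r_w0 B hco hz κ hκ x)

theorem r_w0_0 (x : FF K0 (q ^ 2 * M)) :
    (C3 B hco hz κ hκ 0).r (w0 hco B.alg B.fixed x) = (C3 B hco hz κ hκ 2).r x := by
  rw [← r_w0_2, w0_w0]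

theorem r_w0_1 (x : FF K0 (q ^ 2 * M)) :
    (C3 B hco hz κ hκ 1).r (w0 hco B.alg B.fixed x) = (C3 B hco hz κ hκ 1).r x := by
  apply Subtype.ext
  by_cases h : x ∈ (E3 B hco hz 1).W
  · obtain ⟨h', h''⟩ := w0_mem_W1 B hco hz h
    have e1 := (E3 B hco hz 1).coe_r κ (hκ 1) h
    have e2 := (E3 B hco hz 1).coe_r κ (hκ 1) (x := w0 hco B.alg B.fixed x) h'
    exact e2.trans (h''.trans e1.symm)
  · have h' : w0 hco B.alg B.fixed x ∉ (E3 B hco hz 1).W :=
      fun hc => h ((w0_mem_iff B hco hz x).2.1.1 hc)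
    have e1 : (C3 B hco hz κ hκ 1).r x = 0 := dif_neg h
    have e2 : (C3 B hco hz κ hκ 1).r (w0 hco B.alg B.fixed x) = 0 := dif_neg h'
    rw [e1, e2]

end R

section Mem

theorem J_mem : jqModC k ∈ FF k M :=
  (Jc_one_one (k := k)) ▸ Jc_one_mem (one_dvd M)

theorem qExpand_cst_sq (s : LaurentSeries ℤ) :
    qExpand k (q ^ 2) (cst k s) = cst k s ^ (q * q) := by
  have h1 : qExpand k (q ^ 2) (cst k s) = qExpand k q (qExpand k q (cst k s)) := by
    rw [qExpand_eq_Sb (q ^ 2) (pp q * pp q) (by rw [PNat.mul_coe, coe_pp, pow_two]),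
      qExpand_eq_Sb q (pp q) (coe_pp q), qExpand_eq_Sb q (pp q) (coe_pp q), Sb_Sb, one_pow,
      one_mul]
  rw [h1, qExpand_cst, map_pow, qExpand_cst, pow_mul]

theorem red_sj_mem (j : Fin 3) : redL A k (sj A q j) ∈ FF k M := by
  match j with
  | 0 => rw [red_sj0]; exact J_mem
  | 1 => rw [red_sj1]; exact J_mem
  | 2 => rw [red_sj2]; exact pow_mem J_mem _

include hz in
theorem red_sC_mem (j : Fin 3) : redL A k (sC q z j) ∈ FF k M := by
  match j with
  | 0 => rw [red_sC0]; exact pow_mem J_mem _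
  | 1 => rw [red_sC1 hz]; exact J_mem
  | 2 => rw [red_sC2]; exact J_mem

theorem red_st_mem (j : Fin 3) : redL A k (st A q j) ∈ FF k M := by
  rw [red_st]; exact pow_mem J_mem _

theorem red_mul_mem {f g : Fin 3 → LaurentSeries A} (j : Fin 3) (hf : redL A k (f j) ∈ FF k M)
    (hg : redL A k (g j) ∈ FF k M) : redL A k ((f * g) j) ∈ FF k M := by
  rw [spL_mul]; exact mul_mem hf hg

theorem red_sub_mem {f g : Fin 3 → LaurentSeries A} (j : Fin 3) (hf : redL A k (f j) ∈ FF k M)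
    (hg : redL A k (g j) ∈ FF k M) : redL A k ((f - g) j) ∈ FF k M := by
  rw [spL_sub]; exact sub_mem hf hg

theorem red_pow_mem {f : Fin 3 → LaurentSeries A} (j : Fin 3) (hf : redL A k (f j) ∈ FF k M)
    (n : ℕ) : redL A k ((f ^ n) j) ∈ FF k M := by
  rw [Pi.pow_apply, map_pow]; exact pow_mem hf n

include hz in
theorem red_sp_mem (i j : Fin 3) : redL A k (spL q z i j) ∈ FF k M := by
  have h1 := red_sj_mem (A := A) (k := k) (q := q) (M := M) j
  have h2 := red_sC_mem (A := A) (k := k) (M := M) hz j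
  have h3 := red_pow_mem j (red_st_mem (A := A) (k := k) (q := q) (M := M) j) q
  match i with
  | 0 => exact red_mul_mem j (red_sub_mem j h1 h2) (red_sub_mem j h1 h3)
  | 1 => exact red_mul_mem j (red_sub_mem j h2 h3) (red_sub_mem j h1 h3)
  | 2 => exact red_mul_mem j (red_sub_mem j h1 h2) (red_sub_mem j h2 h3)

theorem red_slow_mem (i : Fin (dedekindPsi M)) (j : Fin 3) :
    redL A k (slow q (cst A (monos hM i)) j) ∈ FF k M := by
  have h2 : redL A k (cst A (monos hM i)) = cst k (monos hM i) := coeffMap_cst _ _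
  have h3 : cst k (monos hM i) ∈ FF k M := cst_mem_FF (monos_mem hM i)
  match j with
  | 0 =>
    change redL A k (cst A (monos hM i)) ∈ _
    rw [h2]; exact h3
  | 1 =>
    change redL A k (cst A (monos hM i)) ∈ _
    rw [h2]; exact h3
  | 2 =>
    change redL A k (qExpand A (q ^ 2) (cst A (monos hM i))) ∈ _
    rw [redL, coeffMap_qExpand]
    rw [redL] at h2
    rw [h2, qExpand_cst_sq]
    exact pow_mem h3 _

theorem red_b0_mem (x : Fin (dedekindPsi M) × Fin q) (j : Fin 3) :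
    redL A k ((slow q (cst A (monos hM x.1)) * sj A q ^ (x.2 : ℕ)) j) ∈ FF k M :=
  red_mul_mem j (red_slow_mem hM _ j) (red_pow_mem j (red_sj_mem j) _)

/-- all Laurent series -/
abbrev kT (k : Type*) [Field k] : IntermediateField k (LaurentSeries k) := ⊤

theorem hT (j : Fin 3) (x : FF K0 (q ^ 2 * M)) (h : x ∈ (E3 B hco hz j).W) :
    (E3 B hco hz j).πW ⟨x, h⟩ ∈ kT k := IntermediateField.mem_top

include hM in
/-- **the residues have level `M`** -/
theorem res_mem (j : Fin 3) (x : FF K0 (q ^ 2 * M)) (h : x ∈ (E3 B hco hz j).W) :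
    (E3 B hco hz j).πW ⟨x, h⟩ ∈ FF k M := by
  let κ := kT k
  let E : IntermediateField k κ := (FF k M).comap κ.val
  have hE : ∀ {x : FF K0 (q ^ 2 * M)} {s : Fin 3 → LaurentSeries A} (_ : HasL B hco hz x s)
      (j : Fin 3), redL A k (s j) ∈ FF k M → (C3 B hco hz κ (hT B hco hz) j).r x ∈ E := by
    intro x s hx j hj
    change ((C3 B hco hz κ (hT B hco hz) j).r x : LaurentSeries k) ∈ FF k M
    rw [coe_r_hasL _ _ hx]
    exact hj
  have hb : ∀ (i : Fin 3) (x : Fin (dedekindPsi M) × Fin q) (j : Fin 3),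
      (C3 B hco hz κ (hT B hco hz) j).r (bb B hco hM i x) ∈ E := by
    intro i x j
    have h1 : ∀ j, (C3 B hco hz κ (hT B hco hz) j).r (b0 hM K0 x) ∈ E :=
      fun j => hE (hasL_b0 B hco hz hM x) j (red_b0_mem hM x j)
    match i with
    | 0 => exact h1 j
    | 1 => exact h1 j
    | 2 =>
      change (C3 B hco hz κ (hT B hco hz) j).r (w0 hco B.alg B.fixed (b0 hM K0 x)) ∈ E
      match j with
      | 0 => rw [r_w0_0]; exact h1 2
      | 1 => rw [r_w0_1]; exact h1 1
      | 2 => rw [r_w0_2]; exact h1 0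
  have hϖ : ∀ i j : Fin 3, (C3 B hco hz κ (hT B hco hz) j).r (E3 B hco hz i).ϖ ∈ E := by
    intro i j
    have h1 : (C3 B hco hz κ (hT B hco hz) j).r ((q : FF K0 (q ^ 2 * M))) ∈ E := by
      have h2 := hasL_const B hco hz (M := M) (q : R0)
      rw [map_natCast] at h2
      refine hE h2 j ?_
      rw [map_natCast, coeffMap_C, map_natCast, CharP.cast_eq_zero, map_zero]
      exact zero_mem _
    have h2 : (C3 B hco hz κ (hT B hco hz) j).r (uu2 K0 q M) ∈ E :=
      hE (x := j1 K0 q M - jC K0 q M) ((hasL_j1 B hco hz).sub (hasL_jC B hco hz)) j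
        (red_sub_mem j (red_sj_mem j) (red_sC_mem hz j))
    match i with
    | 0 => exact h1
    | 1 => exact h2
    | 2 => exact h1
  have h1 := (pm B hco hz hM κ (hT B hco hz)).r_mem (K := K0) (pm_span B hco hz hM κ (hT B hco hz))
    E (fun j => hE (hasL_tt B hco hz) j (red_st_mem j)) hb hϖ
    (fun i j => hE ((hasL_sp B hco hz i).pow q) j (red_pow_mem j (red_sp_mem hz i j) q))
    (x := x) (j := j) h
  have h2 : ((C3 B hco hz κ (hT B hco hz) j).r x : LaurentSeries k) ∈ FF k M := h1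
  have h3 := (E3 B hco hz j).coe_r κ (hT B hco hz j) h
  exact h3 ▸ h2

end Mem

/-- the model data with residue fields of level `M` -/
def PMF : PreM R0 (FF K0 (q ^ 2 * M)) k (FF k M) (Fin (dedekindPsi M) × Fin q) (Fin 3) :=
  pm B hco hz hM (FF k M) (res_mem B hco hz hM)

set_option synthInstance.maxHeartbeats 400000 in
/-- **the model of the modular function field of level `q ^ 2 M`** -/
def cm : CModel R0 K0 (FF K0 (q ^ 2 * M)) k (PMF B hco hz hM).R (FF k M) Ω (FF Ω (q ^ 2 * M))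
    (PreM.IX (Fin (dedekindPsi M) × Fin q) (PMF B hco hz hM).e) (Fin 3) :=
  haveI := B.alg
  (PMF B hco hz hM).toCModel (desc (q ^ 2 * M) B.fixed)
    (pm_span B hco hz hM (FF k M) (res_mem B hco hz hM))

end Fermat.Agent.CarE
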