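import Fermat.Agent.CarE.Pre

/-!
# Residue fields of the components
-/

set_option autoImplicit false
set_option linter.style.haveILetI false
set_option linter.unusedSectionVars false

noncomputable section

namespace Fermat.Agent.CarE

open Module Polynomial IntermediateField Fermat.Agent.Red Fermat.Agent.Car

namespace PreM

variable {A K F k κ : Type*} [CommRing A] [IsDomain A] [ValuationRing A]
    [Field K] [Algebra A K] [IsFractionRing A K] [Field F] [Algebra K F] [Algebra A F]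
    [IsScalarTower A K F] [Field k] [Algebra A k]
    [Field κ] [Algebra k κ] {I J : Type*} [Fintype I] [Fintype J] [Nonempty J]
    (M : PreM A F k κ I J)
    (hspan : ∀ x : F, ∃ q : K[X], q ≠ 0 ∧ ∃ P : PreM.IX I M.e → K[X],
      aeval M.t q * x = (M.gauss K).comb P)
    (E : IntermediateField k κ) (ht : ∀ j, (M.comp j).r M.t ∈ E)
    (hb : ∀ i x j, (M.comp j).r (M.b i x) ∈ E) (hϖ : ∀ i j, (M.comp j).r (M.ϖ i) ∈ E)
    (hc : ∀ i j, (M.comp j).r (M.c i) ∈ E)

include ht in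
theorem aeval_mem_E (j : J) (P : k[X]) : aeval ((M.comp j).r M.t) P ∈ E := by
  rw [aeval_eq_sum_range]
  refine sum_mem fun i _ => ?_
  rw [Algebra.smul_def]
  exact mul_mem (E.algebraMap_mem _) (pow_mem (ht j) i)

include hspan ht hb hϖ hc in
theorem r_mem_of_W0 {x : F} (hx : x ∈ M.W0) (j : J) : (M.comp j).r x ∈ E := by
  obtain ⟨P, hP, Q, hQ⟩ := (M.gauss K).π_repr M.hk hspan ⟨x, hx⟩
  have h1 := congrArg (M.ρ j) hQ
  rw [map_mul, map_sum] at h1
  have e1 : ∀ P : k[X], M.ρ j (aeval ((M.gauss K).π ⟨(M.gauss K).t, (M.gauss K).ht⟩) P) =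
      aeval ((M.comp j).r M.t) P := by
    intro P
    rw [← aeval_algHom_apply]
    congr 2
    exact M.ρ_qt j ⟨M.t, M.ht⟩
  have e2 : M.ρ j ((M.gauss K).π ⟨x, hx⟩) = (M.comp j).r x := M.ρ_qt j ⟨x, hx⟩
  rw [e1, e2] at h1
  have h0 : aeval ((M.comp j).r M.t) P ≠ 0 := fun h0 =>
    hP ((transcendental_iff.1 (M.trans j)) P h0)
  have h2 : (M.comp j).r x = (aeval ((M.comp j).r M.t) P)⁻¹ *
      ∑ i, M.ρ j (aeval ((M.gauss K).π ⟨(M.gauss K).t, (M.gauss K).ht⟩) (Q i) *
        (M.gauss K).π ⟨(M.gauss K).y i, (M.gauss K).hy i⟩) := by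
    rw [← h1, inv_mul_cancel_left₀ h0]
  rw [h2]
  refine mul_mem (inv_mem (M.aeval_mem_E E ht j P)) (sum_mem fun i _ => ?_)
  rw [map_mul, e1]
  refine mul_mem (M.aeval_mem_E E ht j _) ?_
  have e3 : M.ρ j ((M.gauss K).π ⟨(M.gauss K).y i, (M.gauss K).hy i⟩) = (M.comp j).r (M.y i) :=
    M.ρ_qt j ⟨_, M.y_mem i⟩
  rw [e3, y, Comp.r_mul (mul_mem (M.hc _ _) (pow_mem (M.hϖ _ _) _)) (M.hb _ _ _),
    Comp.r_mul (M.hc _ _) (pow_mem (M.hϖ _ _) _), Comp.r_pow (M.hϖ _ _)]
  exact mul_mem (mul_mem (hc _ _) (pow_mem (hϖ _ _) _)) (hb _ _ _)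

include hspan ht hb hϖ hc in
/-- **all residues lie in the subfield** -/
theorem r_mem {x : F} {j : J} (hx : x ∈ (M.comp j).W) : (M.comp j).r x ∈ E := by
  classical
  set n : ℕ := ∑ i, ((M.comp i).v x).natAbs with hn
  have h1 : x * M.c j ^ n ∈ M.W0 := by
    intro i
    by_cases hij : i = j
    · subst hij
      exact mul_mem hx (pow_mem (M.hc _ _) _)
    · rcases eq_or_ne x 0 with rfl | hx0
      · rw [zero_mul]; exact zero_mem _
      have h2 : (M.comp i).Ge 1 (M.c j) := (M.c_ge j i (fun h => hij h.symm)).mono (by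
        exact_mod_cast M.e_pos i)
      have h3 := h2.pow n
      have h4 : (M.comp i).Ge ((M.comp i).v x) x := Comp.ge_of_le le_rfl
      refine Comp.ge_zero_iff.1 ((h4.mul h3).mono ?_)
      have h5 : ((M.comp i).v x).natAbs ≤ n := by
        rw [hn]
        exact Finset.single_le_sum (f := fun i => ((M.comp i).v x).natAbs)
          (fun _ _ => Nat.zero_le _) (Finset.mem_univ i)
      have h6 : -((M.comp i).v x) ≤ (((M.comp i).v x).natAbs : ℤ) := by omega
      have h7 : ((((M.comp i).v x).natAbs : ℕ) : ℤ) ≤ (n : ℤ) := by exact_mod_cast h5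
      linarith
  have h2 := M.r_mem_of_W0 (K := K) hspan E ht hb hϖ hc h1 j
  rw [Comp.r_mul hx (pow_mem (M.hc _ _) _), Comp.r_pow (M.hc _ _)] at h2
  have h3 : (M.comp j).r (M.c j) ^ n ≠ 0 := pow_ne_zero _ (M.r_c j)
  have h4 : (M.comp j).r x = ((M.comp j).r x * (M.comp j).r (M.c j) ^ n) *
      ((M.comp j).r (M.c j) ^ n)⁻¹ := by
    rw [mul_assoc, mul_inv_cancel₀ h3, mul_one]
  rw [h4]
  exact mul_mem h2 (inv_mem (pow_mem (hc _ _) _))

end PreM

end Fermat.Agent.CarE
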