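import Fermat.Agent.CarE.Inv
import Fermat.Agent.CarE.Pre2

/-!
# Gauss data for the modular function field of level `q ^ 2 M`
-/

set_option autoImplicit false
set_option linter.style.haveILetI false
set_option linter.unusedSectionVars false

noncomputable section

namespace Fermat.Agent.CarE

open ModularCurve Polynomial IntermediateField Fermat.Agent.ModPoly Fermat.Agent.Cusp
open Fermat.Agent.SemiSt Fermat.Agent.RedMod Fermat.Agent.Car

section Inst

variable {R0 K0 : Type*} [CommRing R0] [Field K0] [Algebra R0 K0] {N : ℕ}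

/-- the function field as an algebra over the integers of the small field -/
scoped instance (priority := 50) instAlgR0 : Algebra R0 (FF K0 N) :=
  ((algebraMap K0 (FF K0 N)).comp (algebraMap R0 K0)).toAlgebra

scoped instance (priority := 50) instTowR0 : IsScalarTower R0 K0 (FF K0 N) :=
  IsScalarTower.of_algebraMap_eq fun _ => rfl

theorem algebraMap_R0 (a : R0) : algebraMap R0 (FF K0 N) a =
    algebraMap K0 (FF K0 N) (algebraMap R0 K0 a) := rfl

end Inst

section Chark

variable {k : Type*} [Field k] {q : ℕ} [hq : Fact q.Prime] [CharP k q]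

theorem Jc_pp_mul (e : ℕ+) : (Jc 1 (pp q * e) : LaurentSeries k) = (Jc 1 e) ^ q := by
  rw [HeckeProd.pow_eq_qExpand q, HeckeProd.Fr, coeffMap_Jc_one, qExpand_eq_Sb q (pp q) (coe_pp q),
    Sb_Jc, one_pow, mul_one]

theorem Jc_q : (Jc 1 (pp q * 1) : LaurentSeries k) = jqModC k ^ q := by
  rw [Jc_pp_mul, Jc_one_one]

theorem Jc_qq : (Jc 1 (pp q * pp q * 1) : LaurentSeries k) = jqModC k ^ (q * q) := by
  rw [mul_assoc, Jc_pp_mul, Jc_pp_mul, Jc_one_one, pow_mul]

end Chark

section G3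

variable {R0 K0 A Ω k : Type*} [CommRing R0] [IsDomain R0] [Field K0] [Algebra R0 K0]
  [IsFractionRing R0 K0] [CommRing A] [IsDomain A] [ValuationRing A] [Field Ω]
  [IsAlgClosed Ω] [CharZero Ω]
  [Algebra A Ω] [IsFractionRing A Ω] [Field k] [Algebra A k] [Algebra K0 Ω] [Algebra R0 A]
  [Algebra R0 k] {q M : ℕ} [hq : Fact q.Prime] [NeZero M] [CharP k q]
  (B : Base q R0 K0 A Ω k) (hco : q.Coprime M)
  {z : Aˣ} (hz : z ^ q = 1 ∧ z ≠ 1)

/-- the three Gauss valuations -/
def E3 : Fin 3 → EData A Ω k (FF K0 (q ^ 2 * M))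
  | 0 => E0 B
  | 1 => E1 B hco hz
  | 2 => E2 B hco

/-- integral expansions at the three cusps -/
def HasL (x : FF K0 (q ^ 2 * M)) (s : Fin 3 → LaurentSeries A) : Prop :=
  ∀ j, (E3 B hco hz j).φ x = incL A Ω (s j)

variable {B hco hz}

theorem HasL.mul {x y : FF K0 (q ^ 2 * M)} {s s' : Fin 3 → LaurentSeries A}
    (h : HasL B hco hz x s) (h' : HasL B hco hz y s') : HasL B hco hz (x * y) (s * s') := by
  intro j
  rw [map_mul, h j, h' j, ← map_mul]
  rfl

theorem HasL.sub {x y : FF K0 (q ^ 2 * M)} {s s' : Fin 3 → LaurentSeries A}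
    (h : HasL B hco hz x s) (h' : HasL B hco hz y s') : HasL B hco hz (x - y) (s - s') := by
  intro j
  rw [map_sub, h j, h' j, ← map_sub]
  rfl

theorem HasL.pow {x : FF K0 (q ^ 2 * M)} {s : Fin 3 → LaurentSeries A}
    (h : HasL B hco hz x s) (n : ℕ) : HasL B hco hz (x ^ n) (s ^ n) := by
  intro j
  rw [map_pow, h j, ← map_pow]
  rfl

theorem HasL.mem {x : FF K0 (q ^ 2 * M)} {s : Fin 3 → LaurentSeries A}
    (h : HasL B hco hz x s) (j : Fin 3) : x ∈ (E3 B hco hz j).W := by
  rw [EData.mem_W, h j]; exact incL_mem _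

variable (B hco hz)

theorem hasL_const (a : R0) : HasL B hco hz (algebraMap R0 (FF K0 (q ^ 2 * M)) a)
    (fun _ => HahnSeries.C (algebraMap R0 A a)) := by
  intro j
  rw [algebraMap_R0, coeffMap_C, B.comm]
  match j with
  | 0 => exact mphi_algebraMap _ _
  | 1 => exact mphi_algebraMap _ _
  | 2 => exact mphi_algebraMap _ _

/-- the parameter `t = j (q^q)` -/
def tt (k : Type*) [Field k] (q M : ℕ) [Fact q.Prime] [NeZero M] : FF k (q ^ 2 * M) :=
  jm k (pp q * 1) (dvd_b (d1M M))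

/-- the function `j` -/
def j1 (k : Type*) [Field k] (q M : ℕ) [Fact q.Prime] [NeZero M] : FF k (q ^ 2 * M) :=
  jm k 1 (dvd_a (d1M M))

/-- the function `j (q ^ (q ^ 2))` -/
def jC (k : Type*) [Field k] (q M : ℕ) [Fact q.Prime] [NeZero M] : FF k (q ^ 2 * M) :=
  jm k (pp q * pp q * 1) (dvd_c (d1M M))

theorem uu2_eq : uu2 K0 q M = j1 K0 q M - jC K0 q M := rfl

theorem hasL_tt : HasL B hco hz (tt K0 q M) (fun _ => JA 1 (pp q * 1)) := by
  intro j
  rw [JA_incL_one]
  match j with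
  | 0 => exact mphi_jm _ _
  | 1 => exact (mphi_jm _ _).trans (phi1_b hco _ (d1M M))
  | 2 =>
    refine (mphi_jm _ _).trans ?_
    rw [phi2_apply, w2_b hco (d1M M)]
    rfl

/-- expansions of `j` -/
def sj (A : Type*) [CommRing A] (q : ℕ) [Fact q.Prime] : Fin 3 → LaurentSeries A
  | 0 => JA 1 1
  | 1 => JA 1 1
  | 2 => JA 1 (pp q * pp q * 1)

/-- expansions of `j (q ^ (q ^ 2))` -/
def sC (q : ℕ) [Fact q.Prime] (z : Aˣ) : Fin 3 → LaurentSeries A
  | 0 => JA 1 (pp q * pp q * 1)
  | 1 => JA z 1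
  | 2 => JA 1 1

theorem hasL_j1 : HasL B hco hz (j1 K0 q M) (sj A q) := by
  intro j
  match j with
  | 0 =>
    change _ = incL A Ω (JA 1 1)
    rw [JA_incL_one]
    exact mphi_jm _ _
  | 1 =>
    change _ = incL A Ω (JA 1 1)
    rw [JA_incL_one]
    exact (mphi_jm _ _).trans (phi1_a hco _ (d1M M))
  | 2 =>
    change _ = incL A Ω (JA 1 (pp q * pp q * 1))
    rw [JA_incL_one]
    refine (mphi_jm _ _).trans ?_
    rw [phi2_apply, w2_a hco (d1M M)]
    rfl

theorem hasL_jC : HasL B hco hz (jC K0 q M) (sC q z) := by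
  intro j
  match j with
  | 0 =>
    change _ = incL A Ω (JA 1 (pp q * pp q * 1))
    rw [JA_incL_one]
    exact mphi_jm _ _
  | 1 =>
    change _ = incL A Ω (JA z 1)
    rw [JA_incL]
    refine ((mphi_jm _ _).trans (phi1_c hco _ (d1M M))).trans ?_
    rw [PNat.one_coe, pow_one]
  | 2 =>
    change _ = incL A Ω (JA 1 1)
    rw [JA_incL_one]
    refine (mphi_jm _ _).trans ?_
    rw [phi2_apply, w2_c hco (d1M M)]
    rfl

theorem redL_JA_one (e : ℕ+) : redL A k (JA 1 e) = Jc 1 e := by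
  rw [redL, coeffMap_JA, map_one]
  rfl

include hz in
theorem redL_JA_z (e : ℕ+) : redL A k (JA z e) = Jc 1 e := by
  rw [redL, coeffMap_JA]
  have h2 : Units.map (algebraMap A k : A →* k) z = 1 := by
    apply Units.ext
    exact red_z (hz_val hz)
  rw [h2]
  rfl

/-! ### the monomials of level `M` -/

variable (hM : (M : k) ≠ 0)

/-- the monomials at level `M` -/
def mi0 (K : Type*) [Field K] (i : Fin (dedekindPsi M)) : FF K M :=
  ⟨cst K (monos hM i), cst_mem_FF (monos_mem hM i)⟩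

/-- the monomials of level `M` in level `q ^ 2 M` -/
def mm (K : Type*) [Field K] (q : ℕ) [Fact q.Prime] (i : Fin (dedekindPsi M)) :
    FF K (q ^ 2 * M) := incl K (dvd_mul_left M (q ^ 2)) (mi0 hM K i)

/-- expansions of the elements of level `M` -/
def slow (q : ℕ) [Fact q.Prime] (s : LaurentSeries A) : Fin 3 → LaurentSeries A
  | 0 => s
  | 1 => s
  | 2 => qExpand A (q ^ 2) s

theorem w2_incl (x : FF Ω M) : w2 Ω hco (incl Ω (dvd_mul_left M (q ^ 2)) x) = qe Ω (q ^ 2) M x :=
  wq_incl _ _ x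

theorem hasL_incl {x : FF K0 M} {s : LaurentSeries A}
    (h : coeffMap (algebraMap K0 Ω) (x : LaurentSeries K0) = incL A Ω s) :
    HasL B hco hz (incl K0 (dvd_mul_left M (q ^ 2)) x) (slow q s) := by
  have h0 : (emb K0 Ω M x : LaurentSeries Ω) = incL A Ω s := h
  intro j
  match j with
  | 0 =>
    refine (mphi_apply _ _).trans ?_
    rw [emb_incl, phi0_apply, coe_incl]
    exact h
  | 1 =>
    refine (mphi_apply _ _).trans ?_
    rw [emb_incl, phi1_incl]
    exact h
  | 2 =>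
    refine (mphi_apply _ _).trans ?_
    rw [emb_incl, phi2_apply, w2_incl, coe_qe, h0]
    exact (coeffMap_qExpand (algebraMap A Ω) (q ^ 2) s).symm

theorem hasL_mm (i : Fin (dedekindPsi M)) :
    HasL B hco hz (mm hM K0 q i) (slow q (cst A (monos hM i))) := by
  apply hasL_incl
  rw [coeffMap_cst]
  change coeffMap (algebraMap K0 Ω) (cst K0 (monos hM i)) = _
  rw [coeffMap_cst]

end G3

end Fermat.Agent.CarE
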