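import Fermat.Agent.CarE.Three

/-!
# The Atkin-Lehner involution over the small field
-/

set_option autoImplicit false
set_option linter.style.haveILetI false
set_option linter.unusedSectionVars false

noncomputable section

namespace Fermat.Agent.CarE

open ModularCurve Polynomial IntermediateField Fermat.Agent.ModPoly Fermat.Agent.Cusp
open Fermat.Agent.SemiSt Fermat.Agent.RedMod

section W0

variable {K Ω : Type*} [Field K] [Field Ω] [Algebra K Ω] [IsAlgClosed Ω] [CharZero Ω]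
  {q M : ℕ} [hq : Fact q.Prime] [NeZero M] (hco : q.Coprime M)
  (halg : Algebra.IsAlgebraic K Ω)
  (hfix : ∀ x : Ω, (∀ σ : Ω ≃ₐ[K] Ω, σ x = x) → x ∈ Set.range (algebraMap K Ω))

theorem gal_w2 (σ : Ω ≃ₐ[K] Ω) (x : FF Ω (q ^ 2 * M)) :
    gal (q ^ 2 * M) σ (w2 Ω hco x) = w2 Ω hco (gal (q ^ 2 * M) σ x) :=
  act_wq _ _ _ σ.toRingEquiv x

include halg hfix in
theorem exists_w0 (x : FF K (q ^ 2 * M)) : ∃ y : FF K (q ^ 2 * M),
    emb K Ω (q ^ 2 * M) y = w2 Ω hco (emb K Ω (q ^ 2 * M) x) := by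
  apply exists_of_fixed hfix
  intro σ
  rw [gal_w2, gal_emb]

/-- the involution, as a function -/
def w0fun (x : FF K (q ^ 2 * M)) : FF K (q ^ 2 * M) := (exists_w0 hco halg hfix x).choose

theorem emb_w0fun (x : FF K (q ^ 2 * M)) :
    emb K Ω (q ^ 2 * M) (w0fun hco halg hfix x) = w2 Ω hco (emb K Ω (q ^ 2 * M) x) :=
  (exists_w0 hco halg hfix x).choose_spec

theorem w0fun_w0fun (x : FF K (q ^ 2 * M)) :
    w0fun hco halg hfix (w0fun hco halg hfix x) = x := by
  apply emb_injective (K := K) (Ω := Ω)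
  rw [emb_w0fun, emb_w0fun, w2_w2]

/-- **the Atkin-Lehner involution over the small field** -/
def w0 : FF K (q ^ 2 * M) ≃ₐ[K] FF K (q ^ 2 * M) where
  toFun := w0fun hco halg hfix
  invFun := w0fun hco halg hfix
  left_inv := w0fun_w0fun hco halg hfix
  right_inv := w0fun_w0fun hco halg hfix
  map_mul' x y := by
    apply emb_injective (K := K) (Ω := Ω)
    rw [emb_w0fun, map_mul, map_mul, map_mul, emb_w0fun, emb_w0fun]
  map_add' x y := by
    apply emb_injective (K := K) (Ω := Ω)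
    have h1 := (w2 Ω hco).toRingEquiv.toRingHom.map_add (emb K Ω (q ^ 2 * M) x)
      (emb K Ω (q ^ 2 * M) y)
    rw [emb_w0fun, (emb K Ω (q ^ 2 * M)).map_add x y,
      (emb K Ω (q ^ 2 * M)).map_add (w0fun hco halg hfix x), emb_w0fun, emb_w0fun]
    exact h1
  commutes' c := by
    apply emb_injective (K := K) (Ω := Ω)
    rw [emb_w0fun, emb_algebraMap, AlgEquiv.commutes]

theorem emb_w0 (x : FF K (q ^ 2 * M)) :
    emb K Ω (q ^ 2 * M) (w0 hco halg hfix x) = w2 Ω hco (emb K Ω (q ^ 2 * M) x) :=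
  emb_w0fun hco halg hfix x

theorem w0_w0 (x : FF K (q ^ 2 * M)) : w0 hco halg hfix (w0 hco halg hfix x) = x :=
  w0fun_w0fun hco halg hfix x

theorem w0_a {d : ℕ+} (hd : (d : ℕ) ∣ M) :
    w0 hco halg hfix (jm K d (dvd_a hd)) = jm K (pp q * pp q * d) (dvd_c hd) := by
  apply emb_injective (K := K) (Ω := Ω)
  rw [emb_w0, emb_jm, emb_jm, w2_a hco hd]

theorem w0_b {d : ℕ+} (hd : (d : ℕ) ∣ M) :
    w0 hco halg hfix (jm K (pp q * d) (dvd_b hd)) = jm K (pp q * d) (dvd_b hd) := by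
  apply emb_injective (K := K) (Ω := Ω)
  rw [emb_w0, emb_jm, w2_b hco hd]

theorem w0_c {d : ℕ+} (hd : (d : ℕ) ∣ M) :
    w0 hco halg hfix (jm K (pp q * pp q * d) (dvd_c hd)) = jm K d (dvd_a hd) := by
  apply emb_injective (K := K) (Ω := Ω)
  rw [emb_w0, emb_jm, emb_jm, w2_c hco hd]

theorem mphi0_w0 (x : FF K (q ^ 2 * M)) :
    mphi (phi0 Ω) (w0 hco halg hfix x) = mphi (phi2 hco) x := by
  rw [mphi_apply, emb_w0]
  rfl

theorem mphi2_w0 (x : FF K (q ^ 2 * M)) :
    mphi (phi2 hco) (w0 hco halg hfix x) = mphi (phi0 Ω) x := by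
  rw [← mphi0_w0 hco halg hfix, w0_w0]

variable {z : Ωˣ} (hz : z ^ q = 1 ∧ z ≠ 1)

theorem mphi1_w0 (x : FF K (q ^ 2 * M)) :
    mphi (phi1 hco hz) (w0 hco halg hfix x) = SbA z 1 (mphi (phi1 hco (hz_inv hz)) x) := by
  rw [mphi_apply, emb_w0, phi1_w2]
  rfl

/-- conjugation of the middle embedding of the small field -/
theorem mphi1_conj (σ : Ω ≃ₐ[K] Ω) (x : FF K (q ^ 2 * M)) :
    coeffMap (σ.toRingEquiv : Ω →+* Ω) (mphi (phi1 hco hz) x) =
      mphi (phi1 hco (hz_map hz σ.toRingEquiv)) x := by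
  rw [mphi_apply, phi1_act, mphi_apply]
  congr 1
  exact gal_emb σ x

end W0

section Conj

variable {R0 K0 A Ω k : Type*} [CommRing R0] [IsDomain R0] [Field K0] [Algebra R0 K0]
  [IsFractionRing R0 K0] [CommRing A] [IsDomain A] [ValuationRing A] [Field Ω]
  [IsAlgClosed Ω] [CharZero Ω]
  [Algebra A Ω] [IsFractionRing A Ω] [Field k] [Algebra A k] [Algebra K0 Ω] [Algebra R0 A]
  [Algebra R0 k] {q M : ℕ} [hq : Fact q.Prime] [NeZero M] [CharP k q]
  (B : Base q R0 K0 A Ω k) (hco : q.Coprime M)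
  {z : Aˣ} (hz : z ^ q = 1 ∧ z ≠ 1)

include B hz in
/-- complex conjugation on the root of unity -/
theorem exists_conj : ∃ σ : Ω ≃ₐ[K0] Ω, σ (algebraMap A Ω z) = (algebraMap A Ω z)⁻¹ := by
  haveI := B.alg
  haveI : IsAlgClosure K0 Ω := ⟨inferInstance, inferInstance⟩
  haveI : Normal K0 Ω := IsAlgClosure.normal K0 Ω
  set ζ : Ω := algebraMap A Ω z with hζ
  have hζ0 : ζ ≠ 0 := by
    rw [hζ, Ne, map_eq_zero_iff _ (IsFractionRing.injective A Ω)]
    exact z.ne_zero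
  have hζq : ζ ^ q = 1 := by rw [hζ, ← map_pow, (hz_val hz).1, map_one]
  have hζ1 : ζ ≠ 1 := by
    intro h
    apply (hz_val hz).2
    apply IsFractionRing.injective A Ω
    rw [map_one]; exact h
  -- the minimal polynomial has degree `q - 1`
  have hint : IsIntegral K0 ζ := Algebra.IsIntegral.isIntegral ζ
  have hzi : (ζ⁻¹) ^ q = 1 ∧ ζ⁻¹ ≠ 1 := by
    refine ⟨by rw [inv_pow, hζq, inv_one], fun h => hζ1 ?_⟩
    rw [← inv_inv ζ, h, inv_one]
  have hdvd : minpoly K0 ζ ∣ ∑ i ∈ Finset.range q, (X : K0[X]) ^ i := by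
    apply minpoly.dvd
    exact aeval_geom_z (R0 := K0) ⟨hζq, hζ1⟩
  have hdeg : q - 1 ≤ (minpoly K0 ζ).natDegree := by
    by_contra hlt
    push Not at hlt
    -- clear denominators
    obtain ⟨b, hb, hb'⟩ := IsLocalization.integerNormalization_spec
      (nonZeroDivisors R0) (minpoly K0 ζ)
    set P := IsLocalization.integerNormalization (nonZeroDivisors R0) (minpoly K0 ζ) with hP
    have hb0 : algebraMap R0 K0 b ≠ 0 := by
      rw [Ne, map_eq_zero_iff _ (IsFractionRing.injective R0 K0)]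
      exact nonZeroDivisors.ne_zero hb
    have hPm : P.map (algebraMap R0 K0) = C (algebraMap R0 K0 b) * minpoly K0 ζ := by
      rw [hb', ← algebraMap_smul K0 b, smul_eq_C_mul]
    have hPd : P.natDegree < q - 1 := by
      rw [← natDegree_map_eq_of_injective (IsFractionRing.injective R0 K0), hPm,
        natDegree_C_mul hb0]
      exact hlt
    have hPz : aeval (z : A) P = 0 := by
      apply IsFractionRing.injective A Ω
      rw [map_zero]
      have h1 : algebraMap A Ω (aeval (z : A) P) = aeval ζ (P.map (algebraMap R0 K0)) := by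
        rw [aeval_def, hom_eval₂, aeval_def, eval₂_map]
        congr 1
        exact RingHom.ext B.comm
      rw [h1, hPm, map_mul, minpoly.aeval, mul_zero]
    have h2 := eq_zero_of_aeval_z (k := k) (hz_val hz) B.pu' hPd hPz
    have h3 : P.map (algebraMap R0 K0) = 0 := by rw [h2, Polynomial.map_zero]
    rw [hPm] at h3
    rcases mul_eq_zero.1 h3 with h4 | h4
    · exact hb0 (C_eq_zero.1 h4)
    · exact minpoly.ne_zero hint h4
  have heq : minpoly K0 ζ = ∑ i ∈ Finset.range q, (X : K0[X]) ^ i := by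
    refine (eq_of_monic_of_dvd_of_natDegree_le (minpoly.monic hint)
      (monic_geom_sum_X hq.out.ne_zero) hdvd ?_).symm
    rw [natDegree_geom]
    exact hdeg
  have hroot : aeval ζ⁻¹ (minpoly K0 ζ) = 0 := by
    rw [heq]
    exact aeval_geom_z (R0 := K0) hzi
  obtain ⟨σ, hσ⟩ := minpoly.exists_algEquiv_of_root (Algebra.IsAlgebraic.isAlgebraic ζ) hroot
  exact ⟨σ.symm, by rw [AlgEquiv.symm_apply_eq]; exact hσ.symm⟩

theorem phi1_congr {z z' : Ωˣ} (h : z = z') (hz : z ^ q = 1 ∧ z ≠ 1) (hz' : z' ^ q = 1 ∧ z' ≠ 1) :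
    phi1 hco hz = phi1 hco hz' := by subst h; rfl

include B hz in
/-- conjugating the middle embedding by an automorphism inverting the root of unity -/
theorem exists_conj_mphi : ∃ (τ : A →+* A) (σ : Ω →+* Ω),
    (∀ a, σ (algebraMap A Ω a) = algebraMap A Ω (τ a)) ∧
    (∀ a, algebraMap A k (τ a) = algebraMap A k a) ∧
    ∀ x : FF K0 (q ^ 2 * M), mphi (phi1 hco (hz_inv (hzΩ Ω hz))) x =
      coeffMap σ (mphi (phi1 hco (hzΩ Ω hz)) x) := by
  obtain ⟨σ, hσ⟩ := exists_conj B hz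
  choose f hf hf' using B.inert σ
  have hinj := IsFractionRing.injective A Ω
  let τ : A →+* A :=
    { toFun := f
      map_one' := hinj (by rw [← hf, map_one, map_one])
      map_zero' := hinj (by rw [← hf, map_zero, map_zero])
      map_mul' := fun a b => hinj (by rw [← hf, map_mul, map_mul, hf, hf, map_mul])
      map_add' := fun a b => hinj (by rw [← hf, map_add, map_add, hf, hf, map_add]) }
  refine ⟨τ, (σ.toRingEquiv : Ω →+* Ω), hf, hf', fun x => ?_⟩
  rw [mphi1_conj]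
  congr 1
  rw [phi1_congr hco _ (hz_inv (hzΩ Ω hz)) (hz_map (hzΩ Ω hz) σ.toRingEquiv)]
  apply Units.ext
  rw [Units.val_inv_eq_inv_val]
  exact hσ.symm

section Tw

/-- twisting by a root of unity does not change reductions -/
theorem twist_mem_WL (hz : z ^ q = 1 ∧ z ≠ 1) {x : LaurentSeries Ω} (hx : x ∈ WL A Ω k) :
    ∃ h : SbA (Units.map (algebraMap A Ω : A →* Ω) z) 1 x ∈ WL A Ω k,
      πL A Ω k ⟨_, h⟩ = πL A Ω k ⟨x, hx⟩ := by
  obtain ⟨u, v, hv, h⟩ := mem_WL.1 hx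
  have hred : ∀ w : LaurentSeries A, redL A k (twist z w) = redL A k w := by
    intro w
    ext n
    rw [coeffMap_coeff, twist_coeff, map_mul, coeffMap_coeff]
    have h1 : algebraMap A k ((z ^ n : Aˣ) : A) = 1 := by
      have h2 : Units.map (algebraMap A k : A →* k) z = 1 := by
        apply Units.ext
        exact red_z (hz_val hz)
      have h3 : Units.map (algebraMap A k : A →* k) (z ^ n) = 1 := by
        rw [map_zpow, h2, one_zpow]
      exact congrArg Units.val h3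
    rw [h1, one_mul]
  have htw : ∀ w : LaurentSeries A, SbA (Units.map (algebraMap A Ω : A →* Ω) z) 1 (incL A Ω w) =
      incL A Ω (twist z w) := by
    intro w
    ext n
    have h1 := Sb_coeff_mul (Units.map (algebraMap A Ω : A →* Ω) z) 1 (incL A Ω w) n
    rw [PNat.one_coe, Nat.cast_one, one_mul] at h1
    refine h1.trans ?_
    rw [coeffMap_coeff, coeffMap_coeff, twist_coeff, map_mul, ← map_zpow]
    rfl
  have hv' : redL A k (twist z v) ≠ 0 := by rw [hred]; exact hv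
  have h3 : incL A Ω (twist z v) * SbA (Units.map (algebraMap A Ω : A →* Ω) z) 1 x =
      incL A Ω (twist z u) := by rw [← htw, ← htw, ← h, map_mul]
  refine ⟨⟨_, _, hv', h3⟩, ?_⟩
  rw [πL_eq ⟨_, ⟨_, _, hv', h3⟩⟩ hv' h3, πL_eq ⟨x, hx⟩ hv h, hred, hred]

include B in
theorem w0_mem_W1 (hz : z ^ q = 1 ∧ z ≠ 1) {x : FF K0 (q ^ 2 * M)}
    (hx : mphi (phi1 hco (hzΩ Ω hz)) x ∈ WL A Ω k) :
    ∃ h : mphi (phi1 hco (hzΩ Ω hz)) (w0 hco B.alg B.fixed x) ∈ WL A Ω k,
      πL A Ω k ⟨_, h⟩ = πL A Ω k ⟨_, hx⟩ := by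
  obtain ⟨τ, σ, h1, h2, h3⟩ := exists_conj_mphi B hco hz
  obtain ⟨h4, h5⟩ := coeffMap_mem_WL τ σ (RingHom.id k) h1 (fun a => (h2 a).symm) hx
  obtain ⟨h6, h7⟩ := twist_mem_WL hz h4
  have h8 : mphi (phi1 hco (hzΩ Ω hz)) (w0 hco B.alg B.fixed x) =
      SbA (Units.map (algebraMap A Ω : A →* Ω) z) 1
        (coeffMap σ (mphi (phi1 hco (hzΩ Ω hz)) x)) := by
    rw [mphi1_w0, h3]
  have h9 : mphi (phi1 hco (hzΩ Ω hz)) (w0 hco B.alg B.fixed x) ∈ WL A Ω k := by
    rw [h8]; exact h6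
  refine ⟨h9, ?_⟩
  have h10 : (⟨_, h9⟩ : WL A Ω k) = ⟨_, h6⟩ := Subtype.ext h8
  rw [h10, h7, h5]
  exact coeffMap_id _

end Tw

end Conj

end Fermat.Agent.CarE
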