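import Fermat.Agent.Spec.Ext
import Fermat.Agent.Nod.Classify
import Fermat.Agent.MW.Ram

/-!
# Regularity of norms
-/

set_option autoImplicit false
set_option linter.style.haveILetI false
set_option linter.unusedSectionVars false

namespace Fermat.Agent.CarE

open AlgebraicCurve Fermat.Agent.RR Fermat.Agent.Curve Fermat.Agent.Nod

/-- norms of functions regular where `s` is finite -/
theorem reg_norm {K F F' : Type*} [Field K] [IsAlgClosed K] [Field F] [Field F'] [Algebra K F]
    [Algebra K F'] [Algebra F F'] [IsScalarTower K F F'] [FunField K F] [FunField K F']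
    [FiniteDimensional F F'] [Algebra.IsSeparable F F'] {s : F} {y : F'} (hy0 : y ≠ 0)
    (hy : Reg K (algebraMap F F' s) y) :
    Reg K (algebraMap F F' s) (algebraMap F F' (Algebra.norm F y)) := by
  haveI : HasPrincipalDivisors K F' := hasPrincipalDivisors'
  intro v hv
  refine Ge.of_le ?_
  rw [v.ord_restrict, Spec.ord_norm (v.restrict F) hy0]
  refine mul_nonneg (Int.natCast_nonneg _) (Finset.sum_nonneg fun w hw => ?_)
  have h1 : w.restrict F = v.restrict F := Place.mem_fiber.1 hw
  have h2 : 0 ≤ w.ord (algebraMap F F' s) := by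
    rw [w.ord_restrict, h1]
    have h3 := hv
    rw [v.ord_restrict] at h3
    have h4 : 0 ≤ (v.restrict F).ord s := by
      by_contra h5
      push Not at h5
      have h6 : (0 : ℤ) < (v.ramificationIndex F : ℤ) := by
        exact_mod_cast Place.ramificationIndex_pos v
      nlinarith
    exact mul_nonneg (Int.natCast_nonneg _) h4
  exact (hy w h2).le_ord hy0

/-- regularity is preserved by automorphisms fixing the parameter -/
theorem reg_aut {K F : Type*} [Field K] [IsAlgClosed K] [Field F] [Algebra K F] [FunField K F]
    (φ : F →ₐ[K] F) {s y : F} (hs : φ s = s) (hy : Reg K s y) : Reg K s (φ y) := by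
  intro v hv
  rcases eq_or_ne y 0 with rfl | hy0
  · rw [map_zero]; exact Ge.zero v 0
  refine Ge.of_le ?_
  rw [MW.ord_map φ v y]
  have h1 : 0 ≤ (MW.rs φ v).ord s := by
    rw [← MW.le_zero_iff φ v s, hs]
    exact hv
  exact mul_nonneg (MW.re_pos φ v).le ((hy _ h1).le_ord hy0)

end Fermat.Agent.CarE
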