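import Fermat.Agent.CarE.Nm3
import Fermat.Agent.CarE.RegN
import Fermat.Agent.RR.LevelH

/-!
# Stability of the affine rings under the degeneracy operators
-/

set_option autoImplicit false
set_option linter.style.haveILetI false
set_option linter.unusedSectionVars false

noncomputable section

namespace Fermat.Agent.CarE

open Module ModularCurve Polynomial IntermediateField Fermat.Agent.ModPoly Fermat.Agent.Cusp
open Fermat.Agent.SemiSt Fermat.Agent.RedMod Fermat.Agent.Car Fermat.Agent.Red Fermat.Agent.CarM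
open Fermat.Agent.HeckeProd Fermat.Agent.Nod Fermat.Agent.RR AlgebraicCurve Fermat.Agent.Spec

section Geo

variable {Ω : Type*} [Field Ω] [IsAlgClosed Ω] [CharZero Ω] {q M : ℕ} [hq : Fact q.Prime]
  [NeZero M]

theorem dvd_t' (q M : ℕ) [hq : Fact q.Prime] : ((pp q * 1 : ℕ+) : ℕ) ∣ q * M := by
  rw [PNat.mul_coe, coe_pp, PNat.one_coe, mul_one]
  exact dvd_mul_right q M

theorem incl_t' : incl Ω (dvd_low q M) (jm Ω (pp q * 1) (dvd_t' q M)) = tt Ω q M := incl_jm _ _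

variable (hco : q.Coprime M)

include hco in
theorem NL_zero : NL Ω q M 0 = 0 := by
  obtain ⟨ζ, hζ⟩ := exists_zeta (k := Ω) (N := q) (natCast_ne_zero_K Ω q)
  apply Subtype.ext
  rw [phi0_NL hco hζ]
  refine Finset.prod_eq_zero (Finset.mem_univ (⟨0, hq.out.pos⟩ : Fin q)) ?_
  exact map_zero _

include hco in
set_option synthInstance.maxHeartbeats 400000 in
theorem reg_NL {s : FF Ω (q * M)} {y : FF Ω (q ^ 2 * M)}
    (hy : Reg Ω (incl Ω (dvd_low q M) s) y) : Reg Ω (incl Ω (dvd_low q M) s) (NL Ω q M y) := by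
  rcases eq_or_ne y 0 with rfl | hy0
  · rw [NL_zero hco]; exact hy
  haveI := funField_FF (k := Ω) (M := q * M) (natCast_ne_zero_K Ω (q * M))
  haveI := funField_FF (k := Ω) (M := q ^ 2 * M) (natCast_ne_zero_K Ω (q ^ 2 * M))
  letI := inclAlg (k := Ω) (dvd_low q M)
  haveI : IsScalarTower Ω (FF Ω (q * M)) (FF Ω (q ^ 2 * M)) :=
    IsScalarTower.of_algebraMap_eq fun a => ((incl Ω (dvd_low q M)).commutes a).symm
  haveI := finiteDimensional_incl (k := Ω) (dvd_low q M) (natCast_ne_zero_K Ω (q ^ 2 * M))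
  haveI := isSeparable_incl (k := Ω) (dvd_low q M) (natCast_ne_zero_K Ω (q ^ 2 * M))
  exact reg_norm (K := Ω) (F := FF Ω (q * M)) (F' := FF Ω (q ^ 2 * M)) (s := s) hy0 hy

theorem reg_w2 {s y : FF Ω (q ^ 2 * M)} (hs : w2 Ω hco s = s) (hy : Reg Ω s y) :
    Reg Ω s (w2 Ω hco y) := by
  haveI := funField_FF (k := Ω) (M := q ^ 2 * M) (natCast_ne_zero_K Ω (q ^ 2 * M))
  exact reg_aut (w2 Ω hco : FF Ω (q ^ 2 * M) →ₐ[Ω] FF Ω (q ^ 2 * M)) hs hy

theorem w2_tt : w2 Ω hco (tt Ω q M) = tt Ω q M := w2_b hco (d1M M)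

end Geo

variable {R0 K0 A Ω k : Type*} [CommRing R0] [IsDomain R0] [IsDiscreteValuationRing R0]
  [Field K0] [Algebra R0 K0]
  [IsFractionRing R0 K0] [CommRing A] [IsDomain A] [ValuationRing A] [Field Ω]
  [IsAlgClosed Ω] [CharZero Ω]
  [Algebra A Ω] [IsFractionRing A Ω] [Field k] [Algebra A k] [Algebra K0 Ω] [Algebra R0 A]
  [Algebra R0 k] {q M : ℕ} [hq : Fact q.Prime] [NeZero M] [CharP k q]
  (B : Base q R0 K0 A Ω k) (hco : q.Coprime M)
  {z : Aˣ} (hz : z ^ q = 1 ∧ z ≠ 1) (hM : (M : k) ≠ 0)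

theorem phi1_NN (x : FF K0 (q ^ 2 * M)) :
    mphi (phi1 hco (hzΩ Ω hz)) (NN0 hco B.alg B.fixed x) =
      mphi (phi0 Ω) (NN0 hco B.alg B.fixed x) := by
  rw [mphi_apply, mphi_apply, emb_NN0, NL_apply, phi1_low, phi0_apply, coe_incl]

theorem NN0_mem {x : FF K0 (q ^ 2 * M)} (h : ∀ j, x ∈ (E3 B hco hz j).W) (j : Fin 3) :
    NN0 hco B.alg B.fixed x ∈ (E3 B hco hz j).W := by
  rcases eq_or_ne x 0 with rfl | hx
  · have h0 : NN0 hco B.alg B.fixed (0 : FF K0 (q ^ 2 * M)) = 0 := by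
      apply emb_injective (K := K0) (Ω := Ω)
      rw [emb_NN0, map_zero, NL_zero hco]
    rw [h0]; exact zero_mem _
  have key : ∀ i, 0 ≤ (C3 B hco hz (kT k) (hT B hco hz) i).v x := by
    intro i
    exact (Comp.mem_iff (C3 B hco hz (kT k) (hT B hco hz) i)).1 (h i) |>.resolve_left hx
  have h0 : NN0 hco B.alg B.fixed x ∈ (E3 B hco hz 0).W := by
    have h1 := v_NN_0 B hco hz (kT k) (hT B hco hz) hx
    exact Comp.mem_of_v (C := C3 B hco hz (kT k) (hT B hco hz) 0)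
      (by rw [h1]; exact add_nonneg (key 0) (key 1))
  match j with
  | 0 => exact h0
  | 1 =>
    change mphi (phi1 hco (hzΩ Ω hz)) (NN0 hco B.alg B.fixed x) ∈ WL A Ω k
    rw [phi1_NN B hco hz]
    exact h0
  | 2 =>
    have h1 := v_NN_2 B hco hz (kT k) (hT B hco hz) hx
    exact Comp.mem_of_v (C := C3 B hco hz (kT k) (hT B hco hz) 2)
      (by rw [h1]; exact mul_nonneg (Int.natCast_nonneg _) (key 2))

set_option synthInstance.maxHeartbeats 400000 in
theorem emb_cm_t : (cm B hco hz hM).emb (cm B hco hz hM).t = tt Ω q M := emb_jm _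

set_option synthInstance.maxHeartbeats 400000 in
theorem emb_cm_inv_t : (cm B hco hz hM).inv.emb (cm B hco hz hM).inv.t = (tt Ω q M)⁻¹ := by
  have h : (cm B hco hz hM).inv.emb (cm B hco hz hM).inv.t =
      ((cm B hco hz hM).emb (cm B hco hz hM).t)⁻¹ := by
    rw [← map_inv₀]
    rfl
  rw [h, emb_cm_t]

set_option synthInstance.maxHeartbeats 400000 in
theorem stab_nm : (nm B hco hz hM).Stab where
  NN_B x hx := by
    refine ⟨fun j => NN0_mem B hco hz hx.1 j, ?_⟩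
    have h1 := hx.2
    change Reg Ω _ (emb K0 Ω (q ^ 2 * M) (NN0 hco B.alg B.fixed x))
    rw [emb_cm_t, emb_NN0]
    rw [emb_cm_t, ← incl_t'] at h1
    rw [← incl_t']
    exact reg_NL hco h1
  w_B x hx := by
    refine ⟨fun j => w0_mem B hco hz hx.1 j, ?_⟩
    have h1 := hx.2
    change Reg Ω _ (emb K0 Ω (q ^ 2 * M) (w0 hco B.alg B.fixed x))
    rw [emb_cm_t, emb_w0]
    rw [emb_cm_t] at h1
    exact reg_w2 hco (w2_tt hco) h1

set_option synthInstance.maxHeartbeats 400000 in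
theorem stab_nm_inv : (nm B hco hz hM).inv.Stab where
  NN_B x hx := by
    refine ⟨fun j => NN0_mem B hco hz hx.1 j, ?_⟩
    have h1 := hx.2
    change Reg Ω _ (emb K0 Ω (q ^ 2 * M) (NN0 hco B.alg B.fixed x))
    rw [emb_cm_inv_t, emb_NN0]
    rw [emb_cm_inv_t, ← incl_t', ← map_inv₀] at h1
    rw [← incl_t', ← map_inv₀]
    exact reg_NL hco h1
  w_B x hx := by
    refine ⟨fun j => w0_mem B hco hz hx.1 j, ?_⟩
    have h1 := hx.2
    change Reg Ω _ (emb K0 Ω (q ^ 2 * M) (w0 hco B.alg B.fixed x))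
    rw [emb_cm_inv_t, emb_w0]
    rw [emb_cm_inv_t] at h1
    exact reg_w2 hco (by rw [map_inv₀, w2_tt]) h1

end Fermat.Agent.CarE
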