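import Fermat.Agent.CarE.Sinf2

/-!
# Surjectivity of the residues for the chart at infinity
-/

set_option autoImplicit false
set_option linter.style.haveILetI false
set_option linter.unusedSectionVars false

noncomputable section

namespace Fermat.Agent.CarE

open Module ModularCurve Polynomial IntermediateField Fermat.Agent.ModPoly Fermat.Agent.Cusp
open Fermat.Agent.SemiSt Fermat.Agent.RedMod Fermat.Agent.Car Fermat.Agent.Red Fermat.Agent.CarM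
open Fermat.Agent.HeckeProd Fermat.Agent.Nod Fermat.Agent.RR AlgebraicCurve
open Fermat.Agent.Curve

variable {R0 K0 A Ω k : Type*} [CommRing R0] [IsDomain R0] [IsDiscreteValuationRing R0]
  [Field K0] [Algebra R0 K0]
  [IsFractionRing R0 K0] [CommRing A] [IsDomain A] [ValuationRing A] [Field Ω]
  [IsAlgClosed Ω] [CharZero Ω]
  [Algebra A Ω] [IsFractionRing A Ω] [Field k] [Algebra A k] [Algebra K0 Ω]
  [Algebra R0 A]
  [Algebra R0 k] {q M : ℕ} [hq : Fact q.Prime] [NeZero M] [CharP k q]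
  (B : Base q R0 K0 A Ω k) (hco : q.Coprime M)
  {z : Aˣ} (hz : z ^ q = 1 ∧ z ≠ 1) (hM : (M : k) ≠ 0)

section Incl

theorem phi_incl0 (x : FF K0 M) : (E3 B hco hz 0).φ (incl K0 (dvd_mul_left M (q ^ 2)) x) =
    (emb K0 Ω M x : LaurentSeries Ω) := by
  refine (mphi_apply _ _).trans ?_
  rw [emb_incl, phi0_apply, coe_incl]

theorem phi_incl1 (x : FF K0 M) : (E3 B hco hz 1).φ (incl K0 (dvd_mul_left M (q ^ 2)) x) =
    (emb K0 Ω M x : LaurentSeries Ω) := by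
  refine (mphi_apply _ _).trans ?_
  rw [emb_incl, phi1_incl]

theorem phi_incl2 (x : FF K0 M) : (E3 B hco hz 2).φ (incl K0 (dvd_mul_left M (q ^ 2)) x) =
    qExpand Ω (q ^ 2) (emb K0 Ω M x : LaurentSeries Ω) := by
  refine (mphi_apply _ _).trans ?_
  rw [emb_incl, phi2_apply, w2_incl, coe_qe]

theorem incl_mem {y : FF K0 M} (h : (emb K0 Ω M y : LaurentSeries Ω) ∈ WL A Ω k) (j : Fin 3) :
    incl K0 (dvd_mul_left M (q ^ 2)) y ∈ (E3 B hco hz j).W := by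
  match j with
  | 0 =>
    change (E3 B hco hz 0).φ _ ∈ WL A Ω k
    rw [phi_incl0]; exact h
  | 1 =>
    change (E3 B hco hz 1).φ _ ∈ WL A Ω k
    rw [phi_incl1]; exact h
  | 2 =>
    change (E3 B hco hz 2).φ _ ∈ WL A Ω k
    rw [phi_incl2]; exact qExpand_mem_WL h

end Incl

section R

variable (κ : IntermediateField k (LaurentSeries k))
  (hκ : ∀ j (x : FF K0 (q ^ 2 * M)) (h : x ∈ (E3 B hco hz j).W),
    (E3 B hco hz j).πW ⟨x, h⟩ ∈ κ)

theorem r_incl {y : FF K0 M} (h : (emb K0 Ω M y : LaurentSeries Ω) ∈ WL A Ω k) {j : Fin 3}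
    (hj : j = 0 ∨ j = 1) :
    ((C3 B hco hz κ hκ j).r (incl K0 (dvd_mul_left M (q ^ 2)) y) : LaurentSeries k) =
      πL A Ω k ⟨emb K0 Ω M y, h⟩ := by
  have h1 := incl_mem B hco hz h j
  have h2 := (E3 B hco hz j).coe_r κ (hκ j) h1
  refine h2.trans (congrArg (πL A Ω k) (Subtype.ext ?_))
  rcases hj with rfl | rfl
  · exact phi_incl0 B hco hz y
  · exact phi_incl1 B hco hz y

theorem J_ne : jqModC k ≠ 0 := by
  intro h
  have h2 := order_Jc (k := k) 1 1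
  rw [Jc_one_one, h, HahnSeries.order_zero] at h2
  simp at h2

theorem v_tt (j : Fin 3) : (C3 B hco hz κ hκ j).v (tt K0 q M) = 0 := by
  have h0 : (C3 B hco hz κ hκ j).r (tt K0 q M) ≠ 0 := by
    intro h
    have h1 := coe_r_tt (M := M) B hco hz κ hκ j
    rw [h] at h1
    exact pow_ne_zero q J_ne h1.symm
  have h1 : tt K0 q M ≠ 0 := by
    rintro h
    rw [h, Comp.r_zero] at h0
    exact h0 rfl
  exact (Comp.r_ne_zero_iff h1).1 h0

theorem tt_inv_mem (j : Fin 3) : (tt K0 q M)⁻¹ ∈ (C3 B hco hz κ hκ j).W :=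
  Comp.mem_of_v (by rw [Comp.v_inv, v_tt, neg_zero])

theorem r_tt_inv (j : Fin 3) : ((C3 B hco hz κ hκ j).r (tt K0 q M)⁻¹ : LaurentSeries k) =
    (jqModC k ^ q)⁻¹ := by
  rw [Comp.r_inv (v_tt B hco hz κ hκ j)]
  have := coe_r_tt (M := M) B hco hz κ hκ j
  exact congrArg (·⁻¹) this

theorem j1_mem (j : Fin 3) : j1 K0 q M ∈ (C3 B hco hz κ hκ j).W := (hasL_j1 B hco hz).mem j

theorem jC_mem (j : Fin 3) : jC K0 q M ∈ (C3 B hco hz κ hκ j).W := (hasL_jC B hco hz).mem j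

theorem s1_mem (j : Fin 3) : s1 K0 q M ∈ (C3 B hco hz κ hκ j).W :=
  mul_mem (jC_mem B hco hz κ hκ j) (pow_mem (tt_inv_mem B hco hz κ hκ j) q)

theorem s3_mem (j : Fin 3) : s3 K0 q M ∈ (C3 B hco hz κ hκ j).W :=
  mul_mem (j1_mem B hco hz κ hκ j) (pow_mem (tt_inv_mem B hco hz κ hκ j) q)

theorem two_mem (j : Fin 3) : (2 : FF K0 (q ^ 2 * M)) ∈ (C3 B hco hz κ hκ j).W := by
  have : (2 : FF K0 (q ^ 2 * M)) = 1 + 1 := by norm_num
  rw [this]
  exact add_mem (one_mem _) (one_mem _)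

theorem s2_mem (j : Fin 3) : s2 K0 q M ∈ (C3 B hco hz κ hκ j).W :=
  add_mem (sub_mem (one_mem _) (pow_mem (add_mem (s1_mem B hco hz κ hκ j)
    (s3_mem B hco hz κ hκ j)) q)) (mul_mem (pow_mem (two_mem B hco hz κ hκ j) q)
    (pow_mem (tt_inv_mem B hco hz κ hκ j) _))

theorem r_s1_0 : (C3 B hco hz κ hκ 0).r (s1 K0 q M) = 1 := by
  apply Subtype.ext
  have h1 := r_tt_inv (M := M) B hco hz κ hκ 0
  have h2 := coe_r_hasL κ hκ (hasL_jC (M := M) B hco hz) 0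
  rw [red_sC0] at h2
  rw [s1, Comp.r_mul (jC_mem B hco hz κ hκ 0) (pow_mem (tt_inv_mem B hco hz κ hκ 0) q),
    Comp.r_pow (tt_inv_mem B hco hz κ hκ 0)]
  change ((C3 B hco hz κ hκ 0).r (jC K0 q M) : LaurentSeries k) *
    ((C3 B hco hz κ hκ 0).r (tt K0 q M)⁻¹ : LaurentSeries k) ^ q = 1
  rw [h1, h2, inv_pow, ← pow_mul]
  exact mul_inv_cancel₀ (pow_ne_zero _ J_ne)

theorem r_s2_1 : (C3 B hco hz κ hκ 1).r (s2 K0 q M) = 1 := by
  apply Subtype.ext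
  have h1 := r_tt_inv (M := M) B hco hz κ hκ 1
  have h2 := coe_r_hasL κ hκ (hasL_jC (M := M) B hco hz) 1
  rw [red_sC1 hz] at h2
  have h3 := coe_r_hasL κ hκ (hasL_j1 (M := M) B hco hz) 1
  rw [red_sj1] at h3
  have m1 := s1_mem (M := M) B hco hz κ hκ 1
  have m3 := s3_mem (M := M) B hco hz κ hκ 1
  have mt := tt_inv_mem (M := M) B hco hz κ hκ 1
  have m2 := two_mem (M := M) B hco hz κ hκ 1
  have e2 : (C3 B hco hz κ hκ 1).r (2 : FF K0 (q ^ 2 * M)) = 2 := by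
    have : (2 : FF K0 (q ^ 2 * M)) = 1 + 1 := by norm_num
    rw [this, Comp.r_add (one_mem _) (one_mem _), Comp.r_one]
    norm_num
  rw [s2, Comp.r_add (sub_mem (one_mem _) (pow_mem (add_mem m1 m3) q))
      (mul_mem (pow_mem m2 q) (pow_mem mt _)), Comp.r_sub (one_mem _) (pow_mem (add_mem m1 m3) q),
    Comp.r_one, Comp.r_pow (add_mem m1 m3), Comp.r_add m1 m3, Comp.r_mul (pow_mem m2 q)
      (pow_mem mt _), Comp.r_pow m2, Comp.r_pow mt, e2, s1, s3,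
    Comp.r_mul (jC_mem B hco hz κ hκ 1) (pow_mem mt q),
    Comp.r_mul (j1_mem B hco hz κ hκ 1) (pow_mem mt q), Comp.r_pow mt]
  change (1 : LaurentSeries k) - (((C3 B hco hz κ hκ 1).r (jC K0 q M) : LaurentSeries k) *
    ((C3 B hco hz κ hκ 1).r (tt K0 q M)⁻¹ : LaurentSeries k) ^ q +
    ((C3 B hco hz κ hκ 1).r (j1 K0 q M) : LaurentSeries k) *
    ((C3 B hco hz κ hκ 1).r (tt K0 q M)⁻¹ : LaurentSeries k) ^ q) ^ q + 2 ^ q *
    ((C3 B hco hz κ hκ 1).r (tt K0 q M)⁻¹ : LaurentSeries k) ^ (q ^ 2 - 1) = 1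
  rw [h1, h2, h3]
  set J := jqModC k with hJ
  have hJ0 : J ≠ 0 := J_ne
  have e3 : (J ^ q)⁻¹ ^ (q ^ 2 - 1) = J ^ q * (J ^ q)⁻¹ ^ (q ^ 2) := by
    have h5 : q ^ 2 = (q ^ 2 - 1) + 1 := (Nat.sub_add_cancel (Nat.one_le_pow _ _ hq.out.pos)).symm
    conv_rhs => rw [h5, pow_succ]
    rw [mul_comm, mul_assoc, inv_mul_cancel₀ (pow_ne_zero _ hJ0), mul_one]
  rw [← two_mul, mul_pow 2, mul_pow J, ← pow_mul (J ^ q)⁻¹, e3, ← pow_two]
  ring

end R

section Main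

variable [IsAlgClosed k]

theorem emb_s1 : emb K0 Ω (q ^ 2 * M) (s1 K0 q M) = s1 Ω q M := by
  rw [s1, s1, map_mul, map_pow, map_inv₀]
  exact congrArg₂ (· * ·) (emb_jm _) (congrArg (fun u => u⁻¹ ^ q) (emb_jm _))

theorem emb_s3 : emb K0 Ω (q ^ 2 * M) (s3 K0 q M) = s3 Ω q M := by
  rw [s3, s3, map_mul, map_pow, map_inv₀]
  exact congrArg₂ (· * ·) (emb_jm _) (congrArg (fun u => u⁻¹ ^ q) (emb_jm _))

theorem emb_tt : emb K0 Ω (q ^ 2 * M) (tt K0 q M) = tt Ω q M := emb_jm _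

theorem emb_s2 : emb K0 Ω (q ^ 2 * M) (s2 K0 q M) = s2 Ω q M := by
  rw [s2, s2, map_add, map_sub, map_one, map_pow, map_add, emb_s1, emb_s3, map_mul, map_pow,
    map_pow, map_inv₀, emb_tt, map_ofNat]

/-- multiplying by a power of `j` -/
theorem exists_mul_pow {z' : FF k M}
    (hz' : ∀ Q : Place k (FF k M), Q.ord (jF' k M) ≤ 0 → 0 ≤ Q.ord z') (hM : (M : k) ≠ 0) :
    ∃ a0 : ℕ, ∀ a : ℕ, a0 ≤ a → ∀ Q : Place k (FF k M),
      Ge Q (-(a * max (-Q.ord (jF' k M)) 0)) (z' * jF' k M ^ a) := by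
  haveI := funField_FF (k := k) (M := M) hM
  obtain ⟨a0, ha0⟩ := ThmC.exists_pole_bound (K := k) (F := FF k M) (jF' k M)⁻¹ (y := z')
    (fun v hv => hz' v (by rw [v.ord_inv] at hv; omega))
  rw [mem_LL] at ha0
  refine ⟨a0, fun a ha Q => ?_⟩
  rcases ha0 Q with h | h
  · rw [h, zero_mul]; exact Ge.zero Q _
  rcases eq_or_ne z' 0 with rfl | hz0
  · rw [zero_mul]; exact Ge.zero Q _
  refine Ge.of_le ?_
  simp only [Nat.cast_zero, zero_mul, add_zero, Finsupp.coe_zero, Pi.zero_apply] at h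
  rw [poleDiv_apply, Q.ord_inv, neg_neg] at h
  rw [Q.ord_mul hz0 (pow_ne_zero _ jF_ne_zero), ord_pow]
  have ha' : (a0 : ℤ) ≤ a := by exact_mod_cast ha
  rcases le_total 0 (Q.ord (jF' k M)) with h1 | h1
  · rw [max_eq_left h1] at h
    rw [max_eq_right (by omega)]
    nlinarith
  · rw [max_eq_right h1] at h
    rw [max_eq_left (by omega)]
    linarith

set_option synthInstance.maxHeartbeats 400000 in
/-- **Surjectivity of the residues for the chart at infinity**, first two components -/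
theorem surj_inf01 (ι : Ω →+* ℂ) {j : Fin 3} (hj : j = 0 ∨ j = 1) (z' : FF k M)
    (hz' : ∀ Q : Place k (FF k M), Q.ord (jF' k M) ≤ 0 → 0 ≤ Q.ord z') :
    ∃ x ∈ (cm B hco hz hM).inv.B, ((cm B hco hz hM).inv.comp j).r x = z' := by
  obtain ⟨n0, hn0⟩ := exists_lift_LL B hM ι
  obtain ⟨a0, ha0⟩ := exists_mul_pow hz' hM
  let n := n0 + a0
  have hn : n ≤ q * n := Nat.le_mul_of_pos_left _ hq.out.pos
  obtain ⟨y, hy, hyz, hyp⟩ := hn0 (q * n) (by omega) (z' * jF' k M ^ (q * n))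
    (ha0 (q * n) (by omega))
  obtain ⟨s, hs, hsm, hsr⟩ : ∃ s : FF K0 (q ^ 2 * M),
      (emb K0 Ω (q ^ 2 * M) s = s1 Ω q M ∨ emb K0 Ω (q ^ 2 * M) s = s2 Ω q M) ∧
      (∀ i, s ∈ (C3 B hco hz (FF k M) (res_mem B hco hz hM) i).W) ∧
      (C3 B hco hz (FF k M) (res_mem B hco hz hM) j).r s = 1 := by
    rcases hj with rfl | rfl
    · exact ⟨s1 K0 q M, Or.inl emb_s1, fun i => s1_mem B hco hz _ _ i, r_s1_0 B hco hz _ _⟩
    · exact ⟨s2 K0 q M, Or.inr emb_s2, fun i => s2_mem B hco hz _ _ i, r_s2_1 B hco hz _ _⟩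
  have htm := tt_inv_mem (M := M) B hco hz (FF k M) (res_mem B hco hz hM)
  have him : ∀ i, incl K0 (dvd_mul_left M (q ^ 2)) y ∈
      (C3 B hco hz (FF k M) (res_mem B hco hz hM) i).W := fun i => incl_mem B hco hz hy i
  have hW : ∀ i, incl K0 (dvd_mul_left M (q ^ 2)) y * (tt K0 q M)⁻¹ ^ n * s ^ (q ^ 2 * n) ∈
      (E3 B hco hz i).W := fun i =>
    mul_mem (mul_mem (him i) (pow_mem (htm i) n)) (pow_mem (hsm i) _)
  have hW2 : incl K0 (dvd_mul_left M (q ^ 2)) y * (tt K0 q M)⁻¹ ^ n * s ^ (q ^ 2 * n) ∈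
      (cm B hco hz hM).G.W := ((cm B hco hz hM).mem_W _).2 hW
  refine ⟨incl K0 (dvd_mul_left M (q ^ 2)) y * (tt K0 q M)⁻¹ ^ n * s ^ (q ^ 2 * n),
    ((cm B hco hz hM).inv.mem_B).2 ⟨hW2, ?_⟩, ?_⟩
  · change Reg Ω _ (emb K0 Ω (q ^ 2 * M) _)
    rw [emb_cm_inv_t, map_mul, map_mul, map_pow, map_pow, map_inv₀, emb_tt, emb_incl]
    exact reg_cut hyp _ hs
  · change (C3 B hco hz (FF k M) (res_mem B hco hz hM) j).r _ = z'
    rw [Comp.r_mul (mul_mem (him j) (pow_mem (htm j) n)) (pow_mem (hsm j) _),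
      Comp.r_mul (him j) (pow_mem (htm j) n), Comp.r_pow (htm j), Comp.r_pow (hsm j), hsr,
      one_pow, mul_one]
    apply Subtype.ext
    change ((C3 B hco hz (FF k M) (res_mem B hco hz hM) j).r
      (incl K0 (dvd_mul_left M (q ^ 2)) y) : LaurentSeries k) *
      ((C3 B hco hz (FF k M) (res_mem B hco hz hM) j).r (tt K0 q M)⁻¹ : LaurentSeries k) ^ n =
      (z' : LaurentSeries k)
    have e1 : ((z' * jF' k M ^ (q * n) : FF k M) : LaurentSeries k) =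
        (z' : LaurentSeries k) * jqModC k ^ (q * n) := by
      have e2 : ((jF' k M : FF k M) : LaurentSeries k) = jqModC k := Jc_one_one
      rw [IntermediateField.coe_mul, IntermediateField.coe_pow, e2]
    rw [r_incl B hco hz _ _ hy hj, r_tt_inv, hyz, e1]
    rw [inv_pow, ← pow_mul, mul_assoc, mul_inv_cancel₀ (pow_ne_zero _ J_ne), mul_one]

set_option synthInstance.maxHeartbeats 400000 in
/-- **(R4a) Surjectivity of the residues for the chart at infinity** -/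
theorem surj_inf (ι : Ω →+* ℂ) (j : Fin 3) (z' : FF k M)
    (hz' : ∀ Q : Place k (FF k M), Q.ord (jF' k M) ≤ 0 → 0 ≤ Q.ord z') :
    ∃ x ∈ (cm B hco hz hM).inv.B, ((cm B hco hz hM).inv.comp j).r x = z' := by
  match j with
  | 0 => exact surj_inf01 B hco hz hM ι (Or.inl rfl) z' hz'
  | 1 => exact surj_inf01 B hco hz hM ι (Or.inr rfl) z' hz'
  | 2 =>
    obtain ⟨x, hx, hr⟩ := surj_inf01 B hco hz hM ι (j := 0) (Or.inl rfl) z' hz'
    refine ⟨w0 hco B.alg B.fixed x, (stab_nm_inv B hco hz hM).w_B x hx, ?_⟩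
    refine Eq.trans ?_ hr
    exact r_w0_2 B hco hz (FF k M) (res_mem B hco hz hM) x

end Main

end Fermat.Agent.CarE
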