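import Fermat.Agent.CarE.Nm1

/-!
# Valuations and residues of norms
-/

set_option autoImplicit false
set_option linter.style.haveILetI false
set_option linter.unusedSectionVars false

noncomputable section

namespace Fermat.Agent.CarE

open Module ModularCurve Polynomial IntermediateField Fermat.Agent.ModPoly Fermat.Agent.Cusp
open Fermat.Agent.SemiSt Fermat.Agent.RedMod Fermat.Agent.Car Fermat.Agent.Red Fermat.Agent.CarM
open Fermat.Agent.HeckeProd

section RL

variable {A Ω k : Type*} [CommRing A] [IsDomain A] [ValuationRing A] [Field Ω]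
  [Algebra A Ω] [IsFractionRing A Ω] [Field k] [Algebra A k]

variable (A k) in
open Classical in
/-- reduction as a total function -/
def rL (x : LaurentSeries Ω) : LaurentSeries k :=
  if h : x ∈ WL A Ω k then πL A Ω k ⟨x, h⟩ else 0

theorem rL_eq {x : LaurentSeries Ω} (h : x ∈ WL A Ω k) : rL A k x = πL A Ω k ⟨x, h⟩ := dif_pos h

theorem rL_mul {x y : LaurentSeries Ω} (hx : x ∈ WL A Ω k) (hy : y ∈ WL A Ω k) :
    rL A k (x * y) = rL A k x * rL A k y := by
  rw [rL_eq hx, rL_eq hy, rL_eq (mul_mem hx hy), ← map_mul]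
  rfl

theorem rL_prod {ι : Type*} (s : Finset ι) (f : ι → LaurentSeries Ω)
    (hf : ∀ i ∈ s, f i ∈ WL A Ω k) : rL A k (∏ i ∈ s, f i) = ∏ i ∈ s, rL A k (f i) := by
  classical
  induction s using Finset.induction_on with
  | empty =>
    rw [Finset.prod_empty, Finset.prod_empty, rL_eq (one_mem _)]
    exact map_one _
  | insert a s ha ih =>
    rw [Finset.prod_insert ha, Finset.prod_insert ha,
      rL_mul (hf a (Finset.mem_insert_self _ _))
        (prod_mem fun i hi => hf i (Finset.mem_insert_of_mem hi)),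
      ih fun i hi => hf i (Finset.mem_insert_of_mem hi)]

theorem isU_iff_rL {x : LaurentSeries Ω} : IsU A Ω k x ↔ rL A k x ≠ 0 := by
  constructor
  · rintro ⟨h, h'⟩
    rw [rL_eq h]; exact h'
  · intro h
    by_cases hx : x ∈ WL A Ω k
    · rw [rL_eq hx] at h
      exact ⟨hx, h⟩
    · exact absurd (dif_neg hx) h

end RL

section Prod

theorem prod_ite0_aux {R : Type*} [CommMonoid R] (n : ℕ) (a c : R) :
    ∏ b : Fin (n + 1), (if (b : ℕ) = 0 then a else c) = a * c ^ n := by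
  rw [Fin.prod_univ_succ]
  simp

theorem prod_ite0 {R : Type*} [CommMonoid R] {q : ℕ} (hq : q ≠ 0) (a c : R) :
    ∏ b : Fin q, (if (b : ℕ) = 0 then a else c) = a * c ^ (q - 1) := by
  obtain ⟨m, rfl⟩ := Nat.exists_eq_succ_of_ne_zero hq
  exact prod_ite0_aux m a c

end Prod

variable {R0 K0 A Ω k : Type*} [CommRing R0] [IsDomain R0]
  [Field K0] [Algebra R0 K0]
  [IsFractionRing R0 K0] [CommRing A] [IsDomain A] [ValuationRing A] [Field Ω]
  [IsAlgClosed Ω] [CharZero Ω]
  [Algebra A Ω] [IsFractionRing A Ω] [Field k] [Algebra A k] [Algebra K0 Ω] [Algebra R0 A]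
  [Algebra R0 k] {q M : ℕ} [hq : Fact q.Prime] [NeZero M] [CharP k q]
  (B : Base q R0 K0 A Ω k) (hco : q.Coprime M)
  {z : Aˣ} (hz : z ^ q = 1 ∧ z ≠ 1)

theorem rL_twist {z : Aˣ} (hz : z ^ q = 1 ∧ z ≠ 1) {x : LaurentSeries Ω} (hx : IsU A Ω k x) :
    IsU A Ω k (SbA (Units.map (algebraMap A Ω : A →* Ω) z) 1 x) ∧
      rL A k (SbA (Units.map (algebraMap A Ω : A →* Ω) z) 1 x) = rL A k x := by
  obtain ⟨h, h'⟩ := twist_mem_WL hz hx.1
  have e : rL A k (SbA (Units.map (algebraMap A Ω : A →* Ω) z) 1 x) = rL A k x := by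
    rw [rL_eq h, rL_eq hx.1, h']
  exact ⟨isU_iff_rL.2 (by rw [e]; exact isU_iff_rL.1 hx), e⟩

theorem rL_conj {τ : A →+* A} {σ : Ω →+* Ω}
    (h1 : ∀ a, σ (algebraMap A Ω a) = algebraMap A Ω (τ a))
    (h2 : ∀ a, algebraMap A k (τ a) = algebraMap A k a) {x : LaurentSeries Ω}
    (hx : IsU A Ω k x) : IsU A Ω k (coeffMap σ x) ∧ rL A k (coeffMap σ x) = rL A k x := by
  obtain ⟨h4, h5⟩ := coeffMap_mem_WL τ σ (RingHom.id k) h1 (fun a => (h2 a).symm) hx.1
  have e : rL A k (coeffMap σ x) = rL A k x := by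
    rw [rL_eq h4, rL_eq hx.1, h5]
    exact coeffMap_id _
  exact ⟨isU_iff_rL.2 (by rw [e]; exact isU_iff_rL.1 hx), e⟩

/-- **the expansion of the norm at infinity** -/
theorem exists_NN_zero {x : FF K0 (q ^ 2 * M)} {m0 m1 : ℤ} {y0 y1 : LaurentSeries Ω}
    (hy0 : IsU A Ω k y0) (hy1 : IsU A Ω k y1)
    (h0 : mphi (phi0 Ω) x = HahnSeries.C (algebraMap A Ω (q : A)) ^ m0 * y0)
    (h1 : mphi (phi1 hco (hzΩ Ω hz)) x =
      HahnSeries.C (algebraMap A Ω (1 - (z : A))) ^ m1 * y1) :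
    ∃ W, IsU A Ω k W ∧ rL A k W = rL A k y0 * rL A k y1 ^ (q - 1) ∧
      mphi (phi0 Ω) (NN0 hco B.alg B.fixed x) =
        HahnSeries.C (algebraMap A Ω (q : A)) ^ (m0 + m1) * W := by
  set ζ : Ω := algebraMap A Ω z with hζ
  have hprim := prim_Ω Ω hz
  have hprimΩ : IsPrimitiveRoot ζ q := hprim.map_of_injective (f := Units.coeHom Ω) Units.val_injective
  have hCq : (HahnSeries.C (algebraMap A Ω (q : A)) : LaurentSeries Ω) ≠ 0 := by
    rw [Ne, map_eq_zero_iff _ HahnSeries.C_injective,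
      map_eq_zero_iff _ (IsFractionRing.injective A Ω)]
    exact q_ne A Ω
  have hfam : ∀ b : Fin q, ∃ W, IsU A Ω k W ∧
      rL A k W = (if (b : ℕ) = 0 then rL A k y0 else rL A k y1) ∧
      fam0 hco hprim b (emb K0 Ω (q ^ 2 * M) x) =
        (if (b : ℕ) = 0 then HahnSeries.C (algebraMap A Ω (q : A)) ^ m0 else 1) *
        (HahnSeries.C (if (b : ℕ) = 0 then 1 else 1 - ζ ^ (b : ℕ))) ^ m1 * W := by
    intro b
    by_cases hb : (b : ℕ) = 0
    · refine ⟨y0, hy0, by rw [if_pos hb], ?_⟩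
      rw [if_pos hb, if_pos hb, map_one, one_zpow, mul_one, fam0, dif_pos hb]
      exact h0
    · obtain ⟨τ, σ, e1, e2, e3, e4⟩ := exists_sig_mphi B hco hz hb
      obtain ⟨g1, g2⟩ := rL_conj (k := k) e1 e2 hy1
      refine ⟨coeffMap σ y1, g1, by rw [if_neg hb, g2], ?_⟩
      rw [if_neg hb, if_neg hb, one_mul, fam0, dif_neg hb]
      have e5 := e4 x
      rw [mphi_apply] at e5
      rw [e5, h1, map_mul, map_zpow₀, coeffMap_C]
      congr 3
      rw [map_sub, map_sub, map_one, map_one, e3]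
  choose W hW1 hW2 hW3 using hfam
  refine ⟨∏ b : Fin q, W b, ?_, ?_, ?_⟩
  · rw [isU_iff_rL, rL_prod _ _ fun b _ => (hW1 b).1, Finset.prod_ne_zero_iff]
    exact fun b _ => isU_iff_rL.1 (hW1 b)
  · rw [rL_prod _ _ fun b _ => (hW1 b).1, Finset.prod_congr rfl fun b _ => hW2 b,
      prod_ite0 hq.out.ne_zero]
  · have e1 : mphi (phi0 Ω) (NN0 hco B.alg B.fixed x) =
        ∏ b : Fin q, fam0 hco hprim b (emb K0 Ω (q ^ 2 * M) x) := by
      rw [mphi_apply, emb_NN0]
      exact phi0_NL hco hprim _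
    rw [e1, Finset.prod_congr rfl fun b _ => hW3 b, Finset.prod_mul_distrib,
      Finset.prod_mul_distrib, prod_ite0 hq.out.ne_zero, one_pow, mul_one, Finset.prod_zpow,
      ← map_prod, prod_c hprimΩ, zpow_add₀ hCq, map_natCast (algebraMap A Ω)]

theorem rL_twist' {z : Aˣ} (hz : z ^ q = 1) {x : LaurentSeries Ω} (hx : IsU A Ω k x) :
    IsU A Ω k (twist (Units.map (algebraMap A Ω : A →* Ω) z) x) ∧
      rL A k (twist (Units.map (algebraMap A Ω : A →* Ω) z) x) = rL A k x := by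
  by_cases h1 : z = 1
  · subst h1
    rw [map_one, ModPoly.twist_one]
    exact ⟨hx, rfl⟩
  · have e : twist (Units.map (algebraMap A Ω : A →* Ω) z) x =
        SbA (Units.map (algebraMap A Ω : A →* Ω) z) 1 x := by
      rw [twist_eq_Sb]
      rfl
    rw [e]
    exact rL_twist ⟨hz, h1⟩ hx

include hz in
/-- **the expansion of the norm at the last component** -/
theorem exists_NN_two {x : FF K0 (q ^ 2 * M)} {m : ℤ} {y : LaurentSeries Ω}
    (hy : IsU A Ω k y) (h : mphi (phi2 hco) x = HahnSeries.C (algebraMap A Ω (q : A)) ^ m * y) :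
    ∃ W, IsU A Ω k W ∧ rL A k W = rL A k y ^ q ∧
      mphi (phi2 hco) (NN0 hco B.alg B.fixed x) =
        HahnSeries.C (algebraMap A Ω (q : A)) ^ ((q : ℤ) * m) * W := by
  have hprim := prim_Ω Ω hz
  have hCq : (HahnSeries.C (algebraMap A Ω (q : A)) : LaurentSeries Ω) ≠ 0 := by
    rw [Ne, map_eq_zero_iff _ HahnSeries.C_injective,
      map_eq_zero_iff _ (IsFractionRing.injective A Ω)]
    exact q_ne A Ω
  have hzb : ∀ b : ZMod q, (z ^ b.val) ^ q = 1 := fun b => by
    rw [← pow_mul, mul_comm, pow_mul, hz.1, one_pow]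
  have hU : ∀ b : ZMod q, IsU A Ω k (twist ((Units.map (algebraMap A Ω : A →* Ω) z) ^ b.val) y) ∧
      rL A k (twist ((Units.map (algebraMap A Ω : A →* Ω) z) ^ b.val) y) = rL A k y := by
    intro b
    rw [← map_pow]
    exact rL_twist' (hzb b) hy
  refine ⟨∏ b : ZMod q, twist ((Units.map (algebraMap A Ω : A →* Ω) z) ^ b.val) y, ?_, ?_, ?_⟩
  · rw [isU_iff_rL, rL_prod _ _ fun b _ => (hU b).1.1, Finset.prod_ne_zero_iff]
    exact fun b _ => isU_iff_rL.1 (hU b).1
  · rw [rL_prod _ _ fun b _ => (hU b).1.1, Finset.prod_congr rfl fun b _ => (hU b).2,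
      Finset.prod_const, Finset.card_univ, ZMod.card]
  · have e1 : mphi (phi2 hco) (NN0 hco B.alg B.fixed x) =
        ∏ b : ZMod q, twist ((Units.map (algebraMap A Ω : A →* Ω) z) ^ b.val)
          (mphi (phi2 hco) x) := by
      rw [mphi_apply, emb_NN0]
      refine (phi2_NL hco hprim _).trans ?_
      rfl
    have e2 : ∀ (c : Ωˣ), twist c (mphi (phi2 hco) x) =
        HahnSeries.C (algebraMap A Ω (q : A)) ^ m * twist c y := by
      intro c
      rw [h, map_mul, map_zpow₀]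
      congr 2
      rw [HahnSeries.C_apply, twist_single, zpow_zero, Units.val_one, one_mul]
    rw [e1, Finset.prod_congr rfl fun b _ => e2 _, Finset.prod_mul_distrib, Finset.prod_const,
      Finset.card_univ, ZMod.card, ← zpow_natCast, ← zpow_mul, mul_comm m]

end Fermat.Agent.CarE
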