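import Fermat.Agent.CarE.Nm2
import Fermat.Agent.Car.Abs

/-!
# The degeneracy operators of the model
-/

set_option autoImplicit false
set_option linter.style.haveILetI false
set_option linter.unusedSectionVars false

noncomputable section

namespace Fermat.Agent.CarE

open Module ModularCurve Polynomial IntermediateField Fermat.Agent.ModPoly Fermat.Agent.Cusp
open Fermat.Agent.SemiSt Fermat.Agent.RedMod Fermat.Agent.Car Fermat.Agent.Red Fermat.Agent.CarM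
open Fermat.Agent.HeckeProd

variable {R0 K0 A Ω k : Type*} [CommRing R0] [IsDomain R0] [IsDiscreteValuationRing R0]
  [Field K0] [Algebra R0 K0]
  [IsFractionRing R0 K0] [CommRing A] [IsDomain A] [ValuationRing A] [Field Ω]
  [IsAlgClosed Ω] [CharZero Ω]
  [Algebra A Ω] [IsFractionRing A Ω] [Field k] [Algebra A k] [Algebra K0 Ω] [Algebra R0 A]
  [Algebra R0 k] {q M : ℕ} [hq : Fact q.Prime] [NeZero M] [CharP k q]
  (B : Base q R0 K0 A Ω k) (hco : q.Coprime M)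
  {z : Aˣ} (hz : z ^ q = 1 ∧ z ≠ 1) (hM : (M : k) ≠ 0)
  (κ : IntermediateField k (LaurentSeries k))
  (hκ : ∀ j (x : FF K0 (q ^ 2 * M)) (h : x ∈ (E3 B hco hz j).W),
    (E3 B hco hz j).πW ⟨x, h⟩ ∈ κ)

section VR

theorem scale0 {x : FF K0 (q ^ 2 * M)} (hx : x ≠ 0) : ∃ y, IsU A Ω k y ∧
    mphi (phi0 Ω) x = HahnSeries.C (algebraMap A Ω (q : A)) ^ ((C3 B hco hz κ hκ 0).v x) * y := by
  obtain ⟨m, y, hy, h⟩ := (E3 B hco hz 0).scale x hx
  have h1 : (C3 B hco hz κ hκ 0).v x = m := (E3 B hco hz 0).v_eq κ (hκ 0) hy h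
  rw [h1]
  exact ⟨y, hy, h⟩

theorem scale1 {x : FF K0 (q ^ 2 * M)} (hx : x ≠ 0) : ∃ y, IsU A Ω k y ∧
    mphi (phi1 hco (hzΩ Ω hz)) x =
      HahnSeries.C (algebraMap A Ω (1 - (z : A))) ^ ((C3 B hco hz κ hκ 1).v x) * y := by
  obtain ⟨m, y, hy, h⟩ := (E3 B hco hz 1).scale x hx
  have h1 : (C3 B hco hz κ hκ 1).v x = m := (E3 B hco hz 1).v_eq κ (hκ 1) hy h
  rw [h1]
  exact ⟨y, hy, h⟩

theorem scale2 {x : FF K0 (q ^ 2 * M)} (hx : x ≠ 0) : ∃ y, IsU A Ω k y ∧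
    mphi (phi2 hco) x = HahnSeries.C (algebraMap A Ω (q : A)) ^ ((C3 B hco hz κ hκ 2).v x) * y := by
  obtain ⟨m, y, hy, h⟩ := (E3 B hco hz 2).scale x hx
  have h1 : (C3 B hco hz κ hκ 2).v x = m := (E3 B hco hz 2).v_eq κ (hκ 2) hy h
  rw [h1]
  exact ⟨y, hy, h⟩

theorem coe_r_rL (j : Fin 3) (x : FF K0 (q ^ 2 * M)) :
    ((C3 B hco hz κ hκ j).r x : LaurentSeries k) = rL A k ((E3 B hco hz j).φ x) := by
  by_cases h : x ∈ (E3 B hco hz j).W
  · rw [rL_eq h]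
    exact (E3 B hco hz j).coe_r κ (hκ j) h
  · have e1 : (C3 B hco hz κ hκ j).r x = 0 := dif_neg h
    have e2 : rL A k ((E3 B hco hz j).φ x) = 0 := dif_neg h
    rw [e1, e2]
    rfl

theorem NN0_ne {x : FF K0 (q ^ 2 * M)} (hx : x ≠ 0) : NN0 hco B.alg B.fixed x ≠ 0 := by
  obtain ⟨z, hz⟩ : ∃ z : Aˣ, z ^ q = 1 ∧ z ≠ 1 := by
    obtain ⟨ζ, hζ⟩ := exists_zeta (k := Ω) (N := q) (natCast_ne_zero_K Ω q)
    have hmem : ∃ a : A, algebraMap A Ω a = ζ := by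
      rcases ValuationRing.isInteger_or_isInteger A (ζ : Ω) with h | ⟨a, ha⟩
      · exact h
      · refine ⟨a ^ (q - 1), ?_⟩
        have h2 : (ζ : Ω) ^ q = 1 := congrArg Units.val hζ.pow_eq_one
        have h3 : (ζ : Ω) ^ (q - 1) * ζ = 1 := by
          rw [← pow_succ, Nat.sub_add_cancel hq.out.one_le, h2]
        rw [map_pow, ha, inv_pow]
        exact (eq_inv_of_mul_eq_one_right h3).symm
    obtain ⟨a, ha⟩ := hmem
    have h1 : a ^ q = 1 := by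
      apply IsFractionRing.injective A Ω
      rw [map_pow, ha, map_one]
      exact congrArg Units.val hζ.pow_eq_one
    refine ⟨Units.ofPowEqOne a q h1 hq.out.ne_zero, Units.pow_ofPowEqOne h1 hq.out.ne_zero,
      fun h => ?_⟩
    have h2 : a = 1 := congrArg Units.val h
    apply hζ.ne_one hq.out.one_lt
    apply Units.ext
    rw [← ha, h2, map_one]
    rfl
  obtain ⟨y0, hy0, e0⟩ := scale0 B hco hz (kT k) (hT B hco hz) hx
  obtain ⟨y1, hy1, e1⟩ := scale1 B hco hz (kT k) (hT B hco hz) hx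
  obtain ⟨W, hW, -, e⟩ := exists_NN_zero B hco hz hy0 hy1 e0 e1
  intro h0
  rw [h0, map_zero] at e
  have hCq : (HahnSeries.C (algebraMap A Ω (q : A)) : LaurentSeries Ω) ≠ 0 := by
    rw [Ne, map_eq_zero_iff _ HahnSeries.C_injective,
      map_eq_zero_iff _ (IsFractionRing.injective A Ω)]
    exact q_ne A Ω
  exact mul_ne_zero (zpow_ne_zero _ hCq) hW.ne_zero e.symm

theorem v_NN_0 {x : FF K0 (q ^ 2 * M)} (hx : x ≠ 0) :
    (C3 B hco hz κ hκ 0).v (NN0 hco B.alg B.fixed x) =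
      (C3 B hco hz κ hκ 0).v x + (C3 B hco hz κ hκ 1).v x := by
  obtain ⟨y0, hy0, e0⟩ := scale0 B hco hz κ hκ hx
  obtain ⟨y1, hy1, e1⟩ := scale1 B hco hz κ hκ hx
  obtain ⟨W, hW, -, e⟩ := exists_NN_zero B hco hz hy0 hy1 e0 e1
  exact (E3 B hco hz 0).v_eq κ (hκ 0) hW e

theorem v_NN_2 {x : FF K0 (q ^ 2 * M)} (hx : x ≠ 0) :
    (C3 B hco hz κ hκ 2).v (NN0 hco B.alg B.fixed x) = q * (C3 B hco hz κ hκ 2).v x := by
  obtain ⟨y, hy, e0⟩ := scale2 B hco hz κ hκ hx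
  obtain ⟨W, hW, -, e⟩ := exists_NN_two B hco hz hy e0
  exact (E3 B hco hz 2).v_eq κ (hκ 2) hW e

theorem r_NN_0 {x : FF K0 (q ^ 2 * M)} (hx : x ≠ 0) (h0 : (C3 B hco hz κ hκ 0).v x = 0)
    (h1 : (C3 B hco hz κ hκ 1).v x = 0) :
    (C3 B hco hz κ hκ 0).r (NN0 hco B.alg B.fixed x) =
      (C3 B hco hz κ hκ 0).r x * (C3 B hco hz κ hκ 1).r x ^ (q - 1) := by
  obtain ⟨y0, hy0, e0⟩ := scale0 B hco hz κ hκ hx
  obtain ⟨y1, hy1, e1⟩ := scale1 B hco hz κ hκ hx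
  obtain ⟨W, hW, hWr, e⟩ := exists_NN_zero B hco hz hy0 hy1 e0 e1
  rw [h0, zpow_zero, one_mul] at e0
  rw [h1, zpow_zero, one_mul] at e1
  rw [h0, h1, add_zero, zpow_zero, one_mul] at e
  apply Subtype.ext
  change _ = ((C3 B hco hz κ hκ 0).r x : LaurentSeries k) *
    ((C3 B hco hz κ hκ 1).r x : LaurentSeries k) ^ (q - 1)
  rw [coe_r_rL, coe_r_rL, coe_r_rL]
  change rL A k (mphi (phi0 Ω) (NN0 hco B.alg B.fixed x)) = rL A k (mphi (phi0 Ω) x) *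
    rL A k (mphi (phi1 hco (hzΩ Ω hz)) x) ^ (q - 1)
  rw [e, e0, e1, hWr]

theorem r_NN_2 {x : FF K0 (q ^ 2 * M)} (hx : x ≠ 0) (h0 : (C3 B hco hz κ hκ 2).v x = 0) :
    (C3 B hco hz κ hκ 2).r (NN0 hco B.alg B.fixed x) = (C3 B hco hz κ hκ 2).r x ^ q := by
  obtain ⟨y, hy, e0⟩ := scale2 B hco hz κ hκ hx
  obtain ⟨W, hW, hWr, e⟩ := exists_NN_two B hco hz hy e0
  rw [h0, zpow_zero, one_mul] at e0
  rw [h0, mul_zero, zpow_zero, one_mul] at e
  apply Subtype.ext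
  change _ = ((C3 B hco hz κ hκ 2).r x : LaurentSeries k) ^ q
  rw [coe_r_rL, coe_r_rL]
  change rL A k (mphi (phi2 hco) (NN0 hco B.alg B.fixed x)) = rL A k (mphi (phi2 hco) x) ^ q
  rw [e, e0, hWr]

end VR

set_option synthInstance.maxHeartbeats 400000 in
/-- **the degeneracy operators of the model** -/
def nm : Norm3 (cm B hco hz hM) q where
  NN := NN0 hco B.alg B.fixed
  w := (w0 hco B.alg B.fixed).toRingEquiv
  e0 := rfl
  e1 := rfl
  e2 := rfl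
  NN_ne _ hx := NN0_ne B hco hx
  NN_K := NN0_K hco B.alg B.fixed
  w_K := (w0 hco B.alg B.fixed).commutes
  v_NN0 _ hx := v_NN_0 B hco hz _ (res_mem B hco hz hM) hx
  v_NN2 _ hx := v_NN_2 B hco hz _ (res_mem B hco hz hM) hx
  r_NN0 _ hx := r_NN_0 B hco hz _ (res_mem B hco hz hM) hx
  r_NN2 _ hx := r_NN_2 B hco hz _ (res_mem B hco hz hM) hx
  v_w0 := v_w0_0 B hco hz _ (res_mem B hco hz hM)
  v_w1 := v_w0_1 B hco hz _ (res_mem B hco hz hM)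
  v_w2 := v_w0_2 B hco hz _ (res_mem B hco hz hM)
  r_w0 := r_w0_0 B hco hz _ (res_mem B hco hz hM)
  r_w1 := r_w0_1 B hco hz _ (res_mem B hco hz hM)
  r_w2 := r_w0_2 B hco hz _ (res_mem B hco hz hM)

end Fermat.Agent.CarE
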