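import Fermat.Agent.CarE.Deg

/-!
# The model of the modular function field of level `q ^ 2 M`
-/

set_option autoImplicit false
set_option linter.style.haveILetI false
set_option linter.unusedSectionVars false

noncomputable section

namespace Fermat.Agent.CarE

open Module ModularCurve Polynomial IntermediateField Fermat.Agent.ModPoly Fermat.Agent.Cusp
open Fermat.Agent.SemiSt Fermat.Agent.RedMod Fermat.Agent.Car Fermat.Agent.Red

section Dep

variable {K Ω : Type*} [Field K] [Field Ω] [Algebra K Ω] {N : ℕ} [NeZero N]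

theorem emb_indep' {I : Type*} [Fintype I] (x : I → FF K N) (hx : LinearIndependent K x) :
    LinearIndependent Ω (fun i => emb K Ω N (x i)) := by
  classical
  let e := Fintype.equivFin I
  have h1 : LinearIndependent K (x ∘ e.symm) := (linearIndependent_equiv e.symm).2 hx
  have h2 := emb_indep (K := K) (Ω := Ω) (N := N) _ _ h1
  have h3 : (fun i => emb K Ω N (x i)) ∘ e.symm = fun i => emb K Ω N ((x ∘ e.symm) i) := rfl
  rw [← linearIndependent_equiv e.symm, h3]
  exact h2

theorem dep_descend (t : FF K N) {I : Type*} [Fintype I] (v : I → FF K N) (P : I → Polynomial Ω)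
    (hP : P ≠ 0) (h : ∑ i, aeval (emb K Ω N t) (P i) * emb K Ω N (v i) = 0) :
    ∃ Q : I → K[X], Q ≠ 0 ∧ ∑ i, aeval t (Q i) * v i = 0 := by
  classical
  let d := Finset.univ.sup fun i => (P i).natDegree + 1
  have hd : ∀ i, (P i).natDegree < d := fun i =>
    lt_of_lt_of_le (Nat.lt_succ_self _) (Finset.le_sup (f := fun i => (P i).natDegree + 1)
      (Finset.mem_univ i))
  let V : I × Fin d → FF K N := fun x => t ^ (x.2 : ℕ) * v x.1
  have hV : ¬ LinearIndependent K V := by
    intro hli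
    have h1 := emb_indep' (Ω := Ω) V hli
    rw [Fintype.linearIndependent_iff] at h1
    have h2 : ∑ x : I × Fin d, (P x.1).coeff x.2 • emb K Ω N (V x) = 0 := by
      rw [← h, Fintype.sum_prod_type]
      refine Finset.sum_congr rfl fun i _ => ?_
      rw [aeval_eq_sum_range' (hd i), Finset.sum_mul, Finset.sum_range]
      refine Finset.sum_congr rfl fun a _ => ?_
      rw [map_mul, map_pow, smul_mul_assoc]
    apply hP
    funext i
    ext a
    by_cases ha : a < d
    · exact h1 _ h2 (i, ⟨a, ha⟩)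
    · rw [Pi.zero_apply, coeff_zero]
      exact coeff_eq_zero_of_natDegree_lt (lt_of_lt_of_le (hd i) (not_lt.1 ha))
  rw [Fintype.linearIndependent_iff] at hV
  push Not at hV
  obtain ⟨g, hg, ⟨i0, a0⟩, hne⟩ := hV
  refine ⟨fun i => ∑ a : Fin d, C (g (i, a)) * X ^ (a : ℕ), ?_, ?_⟩
  · intro h0
    apply hne
    have h1 := congrArg (fun p => Polynomial.coeff p a0) (congrFun h0 i0)
    simp only [finsetSum_coeff, coeff_C_mul, coeff_X_pow, mul_ite, mul_one, mul_zero,
      Pi.zero_apply, coeff_zero] at h1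
    rw [Finset.sum_eq_single a0] at h1
    · rwa [if_pos rfl] at h1
    · intro b _ hb
      rw [if_neg]
      intro h; exact hb (Fin.ext h.symm)
    · intro h; exact absurd (Finset.mem_univ _) h
  · rw [← hg, Fintype.sum_prod_type]
    refine Finset.sum_congr rfl fun i _ => ?_
    rw [map_sum, Finset.sum_mul]
    refine Finset.sum_congr rfl fun a _ => ?_
    rw [map_mul, aeval_C, map_pow, aeval_X, Algebra.smul_def, mul_assoc]

end Dep

section Card

theorem psi_q2 {q M : ℕ} [hq : Fact q.Prime] [NeZero M] (hco : q.Coprime M) :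
    dedekindPsi (q ^ 2 * M) = q * (q + 1) * dedekindPsi M := by
  rw [dedekindPsi_mul_coprime (pow_ne_zero 2 hq.out.ne_zero) M (NeZero.ne M) (hco.pow_left 2)]
  have h2 := dedekindPsi_prime_pow hq.out 1
  rw [pow_one] at h2
  rw [h2]

theorem card_IX' {q M : ℕ} [hq : Fact q.Prime] [NeZero M] (hco : q.Coprime M) :
    Fintype.card (PreM.IX (Fin (dedekindPsi M) × Fin q) (ee q)) = dedekindPsi (q ^ 2 * M) := by
  rw [PreM.card_IX, psi_q2 hco, Fintype.card_prod, Fintype.card_fin, Fintype.card_fin,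
    Fin.sum_univ_three]
  change 1 * (dedekindPsi M * q) + (q - 1) * (dedekindPsi M * q) + 1 * (dedekindPsi M * q) = _
  obtain ⟨n, rfl⟩ : ∃ n, q = n + 1 := ⟨q - 1, (Nat.succ_pred_prime hq.out).symm⟩
  rw [Nat.add_sub_cancel]
  ring

end Card

variable {R0 K0 A Ω k : Type*} [CommRing R0] [IsDomain R0] [IsDiscreteValuationRing R0]
  [Field K0] [Algebra R0 K0]
  [IsFractionRing R0 K0] [CommRing A] [IsDomain A] [ValuationRing A] [Field Ω]
  [IsAlgClosed Ω] [CharZero Ω]
  [Algebra A Ω] [IsFractionRing A Ω] [Field k] [Algebra A k] [Algebra K0 Ω] [Algebra R0 A]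
  [Algebra R0 k] {q M : ℕ} [hq : Fact q.Prime] [NeZero M] [CharP k q]
  (B : Base q R0 K0 A Ω k) (hco : q.Coprime M)
  {z : Aˣ} (hz : z ^ q = 1 ∧ z ≠ 1) (hM : (M : k) ≠ 0)
  (κ : IntermediateField k (LaurentSeries k))
  (hκ : ∀ j (x : FF K0 (q ^ 2 * M)) (h : x ∈ (E3 B hco hz j).W),
    (E3 B hco hz j).πW ⟨x, h⟩ ∈ κ)

theorem pm_span (x : FF K0 (q ^ 2 * M)) : ∃ Q : K0[X], Q ≠ 0 ∧
    ∃ P : PreM.IX (Fin (dedekindPsi M) × Fin q) (pm B hco hz hM κ hκ).e → K0[X],
      aeval (pm B hco hz hM κ hκ).t Q * x = ((pm B hco hz hM κ hκ).gauss K0).comb P := by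
  classical
  set PM := pm B hco hz hM κ hκ with hPM
  set G := PM.gauss K0 with hG
  let I := PreM.IX (Fin (dedekindPsi M) × Fin q) (ee q)
  let v : Option I → FF K0 (q ^ 2 * M) := fun o => o.elim x (fun i => PM.y i)
  have hcard : dedekindPsi (q ^ 2 * M) < Fintype.card (Option I) := by
    rw [Fintype.card_option, card_IX' hco]
    exact Nat.lt_succ_self _
  obtain ⟨P, hP, h1⟩ := exists_dep (k := Ω) hcard (fun o => emb K0 Ω (q ^ 2 * M) (v o))
  have ht : emb K0 Ω (q ^ 2 * M) (tt K0 q M) = tt Ω q M := emb_jm _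
  rw [← ht] at h1
  obtain ⟨Q, hQ, h2⟩ := dep_descend (tt K0 q M) v P hP h1
  rw [Fintype.sum_option] at h2
  have h3 : ∑ i : I, aeval (tt K0 q M) (Q (some i)) * v (some i) =
      G.comb (fun i => Q (some i)) := rfl
  have h4 : aeval (tt K0 q M) (Q none) * x + G.comb (fun i => Q (some i)) = 0 := by
    rw [← h3]; exact h2
  refine ⟨Q none, ?_, fun i => -(Q (some i)), ?_⟩
  · intro h0
    rw [h0, map_zero, zero_mul, zero_add] at h4
    have h5 := G.comb_injective h4
    apply hQ
    funext o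
    rcases o with _ | i
    · exact h0
    · exact congrFun h5 i
  · have h5 : G.comb (fun i => -(Q (some i))) = -G.comb (fun i => Q (some i)) := by
      simp only [GaussData.comb, map_neg, neg_mul, Finset.sum_neg_distrib]
    rw [h5]
    exact eq_neg_of_add_eq_zero_left h4

end Fermat.Agent.CarE
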