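import Fermat.Agent.CarE.PM

/-!
# The degree of the modular function field over the field generated by the parameter
-/

set_option autoImplicit false
set_option linter.style.haveILetI false
set_option linter.unusedSectionVars false

noncomputable section

namespace Fermat.Agent.CarE

open Module ModularCurve Polynomial IntermediateField Fermat.Agent.ModPoly Fermat.Agent.Cusp
open Fermat.Agent.SemiSt Fermat.Agent.RedMod Fermat.Agent.Car

section Gen

variable {K F G : Type*} [Field K] [Field F] [Algebra K F] [Field G] [Algebra K G]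

/-- the isomorphism `K(x) ≃ K(f x)` -/
def adjMap (f : F →ₐ[K] G) (x : F) : K⟮x⟯ ≃ₐ[K] K⟮f x⟯ :=
  (IntermediateField.equivMap K⟮x⟯ f).trans
    (IntermediateField.equivOfEq (by rw [adjoin_map, Set.image_singleton]))

theorem coe_adjMap (f : F →ₐ[K] G) (x : F) (a : K⟮x⟯) : ((adjMap f x a : K⟮f x⟯) : G) = f a := rfl

theorem finrank_transport (f : F ≃ₐ[K] G) (x : F) : finrank K⟮x⟯ F = finrank K⟮f x⟯ G :=
  Algebra.finrank_eq_of_equiv_equiv (adjMap (f : F →ₐ[K] G) x).toRingEquiv f.toRingEquiv (by
    ext a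
    rfl)

theorem finrank_tower (f : F →ₐ[K] G) (x : F) :
    letI := f.toRingHom.toAlgebra
    finrank K⟮x⟯ F * finrank F G = finrank K⟮f x⟯ G := by
  letI := f.toRingHom.toAlgebra
  letI : Algebra K⟮x⟯ G := (f.toRingHom.comp (K⟮x⟯.val.toRingHom)).toAlgebra
  haveI : IsScalarTower K⟮x⟯ F G := IsScalarTower.of_algebraMap_eq fun _ => rfl
  rw [finrank_mul_finrank K⟮x⟯ F G]
  exact Algebra.finrank_eq_of_equiv_equiv (adjMap f x).toRingEquiv (RingEquiv.refl G) (by
    ext a
    rfl)

/-- a family of too many elements is dependent over the polynomials -/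
theorem exists_dep_gen (t : F) (htr : Transcendental K t) [FiniteDimensional K⟮t⟯ F]
    {I : Type*} [Fintype I] (hI : finrank K⟮t⟯ F < Fintype.card I) (v : I → F) :
    ∃ P : I → K[X], P ≠ 0 ∧ ∑ i, aeval t (P i) * v i = 0 := by
  classical
  let g : K⟮t⟯ := AdjoinSimple.gen K t
  letI : Algebra K[X] K⟮t⟯ := (aeval g).toRingHom.toAlgebra
  letI : Algebra K[X] F := (aeval t).toRingHom.toAlgebra
  haveI : IsScalarTower K[X] K⟮t⟯ F := by
    refine IsScalarTower.of_algebraMap_eq fun p => ?_
    change aeval t p = algebraMap K⟮t⟯ F (aeval g p)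
    rw [← aeval_algebraMap_apply]
    rfl
  haveI : IsFractionRing K[X] K⟮t⟯ := by
    let e : RatFunc K ≃ₐ[K[X]] K⟮t⟯ :=
      AlgEquiv.ofRingEquiv (f := (RatFunc.algEquivOfTranscendental t htr).toRingEquiv)
        (fun p => RatFunc.algEquivOfTranscendental_algebraMap t htr p)
    exact IsLocalization.isLocalization_of_algEquiv (nonZeroDivisors K[X]) e
  have hli : ¬ LinearIndependent K⟮t⟯ v := by
    intro h
    have h1 := h.fintype_card_le_finrank
    omega
  rw [← LinearIndependent.iff_fractionRing K[X] K⟮t⟯, Fintype.linearIndependent_iff] at hli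
  push Not at hli
  obtain ⟨P, hP, i, hi⟩ := hli
  refine ⟨P, fun h => hi (by rw [h]; rfl), ?_⟩
  rw [← hP]
  refine Finset.sum_congr rfl fun i _ => ?_
  rw [Algebra.smul_def]; rfl

end Gen

section Deg

variable {k : Type*} [Field k] [IsAlgClosed k] [CharZero k] {q M : ℕ} [hq : Fact q.Prime]
  [NeZero M]

theorem dvd_q1 (q M : ℕ) : q * 1 ∣ q ^ 2 * M := by
  rw [mul_one, pow_two, mul_assoc]
  exact dvd_mul_right q _

theorem dvd_q1' : ((pp q * 1 : ℕ+) : ℕ) ∣ q * 1 := by
  rw [PNat.mul_coe, coe_pp, PNat.one_coe]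

/-- the degree over the field generated by the parameter -/
theorem finrank_tt : finrank k⟮tt k q M⟯ (FF k (q ^ 2 * M)) = dedekindPsi (q ^ 2 * M) := by
  have hne : ((q * 1 : ℕ) : k) ≠ 0 := cast_ne k (q * 1)
  have hNe : ((q ^ 2 * M : ℕ) : k) ≠ 0 := cast_ne k (q ^ 2 * M)
  -- level `q`
  have h1 : finrank k⟮jm k (pp q * 1) (dvd_q1' (q := q))⟯ (FF k (q * 1)) = dedekindPsi (q * 1) := by
    have h2 : wq hne (Nat.coprime_one_right q) (jF' k (q * 1)) =
        jm k (pp q * 1) (dvd_q1' (q := q)) := by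
      have h3 : ((1 * 1 : ℕ+) : ℕ) ∣ q * 1 := by
        rw [one_mul, PNat.one_coe]; exact one_dvd _
      have h4 := wq_jm hne (Nat.coprime_one_right q) (r := 1) (r' := pp q) (d := 1)
        (by rw [PNat.one_coe, one_mul, coe_pp]) (by rw [PNat.one_coe]) h3 (dvd_q1' (q := q))
      rw [← h4]
      congr 1
    have h5 := finrank_transport (wq hne (Nat.coprime_one_right q)) (jF' k (q * 1))
    rw [h2] at h5
    rw [← h5]
    exact finrank_E' hne
  have h2 := finrank_tower (incl k (dvd_q1 q M)) (jm k (pp q * 1) (dvd_q1' (q := q)))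
  have h3 : incl k (dvd_q1 q M) (jm k (pp q * 1) (dvd_q1' (q := q))) = tt k q M := incl_jm _ _
  have h4 := finrank_incl (k := k) (dvd_q1 q M) hNe
  rw [h3, h1] at h2
  rw [← h2]
  exact h4

theorem transcendental_tt : Transcendental k (tt k q M) := by
  rw [transcendental_iff]
  intro P hP
  have h1 : aeval ((tt k q M : FF k (q ^ 2 * M)) : LaurentSeries k) P = 0 := by
    have := congrArg (FF k (q ^ 2 * M)).val hP
    rw [← aeval_algHom_apply, map_zero] at this
    exact this
  have h2 : ((tt k q M : FF k (q ^ 2 * M)) : LaurentSeries k) = SbA 1 (pp q) (jqModC k) := by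
    change Jc 1 (pp q * 1) = Sb 1 (pp q) (jqModC k)
    rw [mul_one]
    rfl
  rw [h2, aeval_algHom_apply] at h1
  have h3 : aeval (jqModC k) P = 0 := by
    apply Sb_injective 1 (pp q)
    rw [map_zero]
    exact h1
  exact aeval_jqModC_injective (h3.trans (map_zero _).symm)

theorem finiteDimensional_tt : FiniteDimensional k⟮tt k q M⟯ (FF k (q ^ 2 * M)) := by
  apply FiniteDimensional.of_finrank_pos
  rw [finrank_tt]
  haveI : Nonempty (Fin (dedekindPsi (q ^ 2 * M))) := inferInstance
  exact Fin.pos_iff_nonempty.2 inferInstance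

/-- a family of too many elements is dependent over the polynomials in the parameter -/
theorem exists_dep {I : Type*} [Fintype I] (hI : dedekindPsi (q ^ 2 * M) < Fintype.card I)
    (v : I → FF k (q ^ 2 * M)) :
    ∃ P : I → k[X], P ≠ 0 ∧ ∑ i, aeval (tt k q M) (P i) * v i = 0 := by
  haveI := finiteDimensional_tt (k := k) (q := q) (M := M)
  refine exists_dep_gen (tt k q M) transcendental_tt ?_ v
  rw [finrank_tt]
  exact hI

end Deg

end Fermat.Agent.CarE
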