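import Fermat.Agent.CarE.Desc

/-!
# Discreteness of the Gauss valuations and the associated components
-/

set_option autoImplicit false
set_option linter.style.haveILetI false
set_option linter.unusedSectionVars false

noncomputable section

namespace Fermat.Agent.CarE

open ModularCurve Polynomial IntermediateField Fermat.Agent.ModPoly Fermat.Agent.Cusp
open Fermat.Agent.SemiSt Fermat.Agent.RedMod

section Content

variable {A : Type*} [CommRing A] {k : Type*} [Field k] [Algebra A k]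

/-- power of `ϖ` times a unit -/
def PU (k : Type*) [Field k] [Algebra A k] (ϖ d : A) : Prop :=
  ∃ (n : ℕ) (u : A), algebraMap A k u ≠ 0 ∧ d = ϖ ^ n * u

theorem exists_content {ϖ : A} (s : LaurentSeries A)
    (h : ∀ m, s.coeff m ≠ 0 → PU k ϖ (s.coeff m)) (hs : s ≠ 0) :
    ∃ (n : ℕ) (y : LaurentSeries A), redL A k y ≠ 0 ∧ s = HahnSeries.C (ϖ ^ n) * y := by
  classical
  have hex : ∃ n : ℕ, ∃ (m : ℤ) (u : A), s.coeff m ≠ 0 ∧ algebraMap A k u ≠ 0 ∧
      s.coeff m = ϖ ^ n * u := by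
    by_contra hc
    apply hs
    ext m
    by_contra h0
    have h0' : s.coeff m ≠ 0 := h0
    obtain ⟨n, u, hu, e⟩ := h m h0'
    exact hc ⟨n, m, u, h0', hu, e⟩
  obtain ⟨m0, u0, h0, hu0, e0⟩ := Nat.find_spec hex
  set n0 := Nat.find hex with hn0
  have hg : ∀ m, ∃ g, s.coeff m = ϖ ^ n0 * g ∧ (s.coeff m = 0 → g = 0) ∧
      (m = m0 → algebraMap A k g ≠ 0) := by
    intro m
    by_cases hm : m = m0
    · subst hm
      exact ⟨u0, e0, fun h => absurd h h0, fun _ => hu0⟩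
    by_cases hz : s.coeff m = 0
    · exact ⟨0, by rw [hz, mul_zero], fun _ => rfl, fun h => absurd h hm⟩
    obtain ⟨n, u, hu, e⟩ := h m hz
    have hle : n0 ≤ n := Nat.find_min' hex ⟨m, u, hz, hu, e⟩
    refine ⟨ϖ ^ (n - n0) * u, ?_, fun h => absurd h hz, fun h => absurd h hm⟩
    rw [← mul_assoc, ← pow_add, Nat.add_sub_cancel' hle, e]
  choose g hg1 hg2 hg3 using hg
  let y : LaurentSeries A := ⟨g, s.isPWO_support.mono (by
    intro m hm
    rw [Function.mem_support] at hm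
    rw [HahnSeries.mem_support]
    exact fun h => hm (hg2 m h))⟩
  refine ⟨n0, y, ?_, ?_⟩
  · intro h1
    have h2 := congrArg (fun z => HahnSeries.coeff z m0) h1
    exact hg3 m0 rfl h2
  · ext m
    rw [HahnSeries.C_mul_eq_smul, HahnSeries.coeff_smul, smul_eq_mul]
    exact hg1 m

/-- a sum of elements of pairwise distinct valuations -/
theorem PU.sum {ϖ : A} (hϖ : algebraMap A k ϖ = 0) {I : Type*} (s : Finset I) (hs : s.Nonempty)
    (n : I → ℕ) (u : I → A) (hu : ∀ i ∈ s, algebraMap A k (u i) ≠ 0)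
    (hn : ∀ i ∈ s, ∀ j ∈ s, n i = n j → i = j) : PU k ϖ (∑ i ∈ s, ϖ ^ (n i) * u i) := by
  classical
  obtain ⟨i0, hi0, hmin⟩ := Finset.exists_min_image s n hs
  refine ⟨n i0, ∑ i ∈ s, ϖ ^ (n i - n i0) * u i, ?_, ?_⟩
  · rw [map_sum, Finset.sum_eq_single_of_mem i0 hi0]
    · rw [Nat.sub_self, pow_zero, one_mul]
      exact hu i0 hi0
    · intro i hi hne
      have h1 : n i0 < n i := lt_of_le_of_ne (hmin i hi) fun h => hne (hn i hi i0 hi0 h.symm)
      rw [map_mul, map_pow, hϖ, zero_pow (by omega), zero_mul]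
  · rw [Finset.mul_sum]
    refine Finset.sum_congr rfl fun i hi => ?_
    rw [← mul_assoc, ← pow_add, Nat.add_sub_cancel' (hmin i hi)]

end Content

section SD

variable {A : Type*} [CommRing A] (D : Subring A)

/-- series with coefficients in `D` -/
def SD : Subring (LaurentSeries A) := (coeffMap D.subtype).range

variable {D} in
theorem coeff_of_mem_SD {s : LaurentSeries A} (hs : s ∈ SD D) (m : ℤ) : s.coeff m ∈ D := by
  obtain ⟨s', rfl⟩ := hs
  exact (s'.coeff m).2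

variable {D} in
theorem mem_SD_of_coeff {s : LaurentSeries A} (hs : ∀ m, s.coeff m ∈ D) : s ∈ SD D := by
  refine ⟨⟨fun m => ⟨s.coeff m, hs m⟩, s.isPWO_support.mono ?_⟩, ?_⟩
  · intro m hm
    rw [Function.mem_support] at hm
    rw [HahnSeries.mem_support]
    exact fun h => hm (Subtype.ext h)
  · ext m
    rfl

end SD

section Scale

variable {A Ω k : Type*} [CommRing A] [IsDomain A] [ValuationRing A]
  [Field Ω] [Algebra A Ω] [IsFractionRing A Ω] [Field k] [Algebra A k]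
  {F : Type*} [Field F] (φ : F →+* LaurentSeries Ω) (D : Subring A)

/-- the elements whose images are quotients of series with coefficients in `D` -/
def TF : Subfield F where
  carrier := {x | ∃ s ∈ SD D, ∃ v ∈ SD D, v ≠ 0 ∧ incL A Ω v * φ x = incL A Ω s}
  mul_mem' := by
    rintro x y ⟨s, hs, v, hv, hv0, h⟩ ⟨s', hs', v', hv', hv0', h'⟩
    refine ⟨s * s', mul_mem hs hs', v * v', mul_mem hv hv', mul_ne_zero hv0 hv0', ?_⟩
    rw [map_mul, map_mul, map_mul, ← h, ← h']; ring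
  one_mem' := ⟨1, one_mem _, 1, one_mem _, one_ne_zero, by simp⟩
  add_mem' := by
    rintro x y ⟨s, hs, v, hv, hv0, h⟩ ⟨s', hs', v', hv', hv0', h'⟩
    refine ⟨s * v' + v * s', add_mem (mul_mem hs hv') (mul_mem hv hs'), v * v', mul_mem hv hv',
      mul_ne_zero hv0 hv0', ?_⟩
    rw [map_mul, map_add, map_add, map_mul, map_mul, ← h, ← h']; ring
  zero_mem' := ⟨0, zero_mem _, 1, one_mem _, one_ne_zero, by simp⟩
  neg_mem' := by
    rintro x ⟨s, hs, v, hv, hv0, h⟩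
    refine ⟨-s, neg_mem hs, v, hv, hv0, ?_⟩
    rw [map_neg, map_neg, ← h]; ring
  inv_mem' := by
    rintro x ⟨s, hs, v, hv, hv0, h⟩
    by_cases hx : x = 0
    · subst hx
      rw [inv_zero]
      exact ⟨0, zero_mem _, 1, one_mem _, one_ne_zero, by simp⟩
    have hφ : φ x ≠ 0 := (map_ne_zero φ).2 hx
    have hv1 : incL A Ω v ≠ 0 := fun h0 => hv0 (incL_injective A Ω (h0.trans (map_zero _).symm))
    refine ⟨v, hv, s, hs, ?_, ?_⟩
    · rintro rfl
      rw [map_zero] at h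
      exact mul_ne_zero hv1 hφ h
    · rw [← h, map_inv₀, mul_assoc, mul_inv_cancel₀ hφ, mul_one]

theorem mem_TF {x : F} : x ∈ TF φ D ↔
    ∃ s ∈ SD D, ∃ v ∈ SD D, v ≠ 0 ∧ incL A Ω v * φ x = incL A Ω s := Iff.rfl

variable {φ D}

theorem mem_TF_of_eq {x : F} {s : LaurentSeries A} (hs : s ∈ SD D) (h : φ x = incL A Ω s) :
    x ∈ TF φ D := ⟨s, hs, 1, one_mem _, one_ne_zero, by rw [map_one, one_mul, h]⟩

theorem isU_incL {y : LaurentSeries A} (h : redL A k y ≠ 0) : IsU A Ω k (incL A Ω y) :=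
  ⟨incL_mem y, by rw [πL_incL]; exact h⟩

theorem IsU.one : IsU A Ω k (1 : LaurentSeries Ω) :=
  ⟨one_mem _, by
    have : (⟨1, one_mem _⟩ : WL A Ω k) = 1 := rfl
    rw [this, map_one]; exact one_ne_zero⟩

theorem IsU.pow {x : LaurentSeries Ω} (h : IsU A Ω k x) (n : ℕ) : IsU A Ω k (x ^ n) := by
  induction n with
  | zero => rw [pow_zero]; exact IsU.one
  | succ n ih => rw [pow_succ]; exact ih.mul h

theorem IsU.zpow {x : LaurentSeries Ω} (h : IsU A Ω k x) (n : ℤ) : IsU A Ω k (x ^ n) := by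
  obtain ⟨m, rfl | rfl⟩ := n.eq_nat_or_neg
  · rw [zpow_natCast]; exact IsU.pow h m
  · rw [zpow_neg, zpow_natCast]; exact (IsU.pow h m).inv

theorem isU_iff {x : LaurentSeries Ω} (h : x ∈ WL A Ω k) :
    IsU A Ω k x ↔ πL A Ω k ⟨x, h⟩ ≠ 0 := ⟨fun h => h.2, fun h' => ⟨h, h'⟩⟩

theorem exists_scale_of_TF {ϖ : A} (hϖ : ϖ ≠ 0) (hD : ∀ d ∈ D, d ≠ 0 → PU k ϖ d) {x : F}
    (hx : x ∈ TF φ D) (hx0 : x ≠ 0) :
    ∃ (m : ℤ) (w : LaurentSeries Ω), IsU A Ω k w ∧
      φ x = HahnSeries.C (algebraMap A Ω ϖ) ^ m * w := by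
  obtain ⟨s, hs, v, hv, hv0, h⟩ := hx
  have hφ : φ x ≠ 0 := (map_ne_zero φ).2 hx0
  have hv1 : incL A Ω v ≠ 0 := fun h0 => hv0 (incL_injective A Ω (h0.trans (map_zero _).symm))
  have hs0 : s ≠ 0 := by
    rintro rfl
    rw [map_zero] at h
    exact mul_ne_zero hv1 hφ h
  obtain ⟨a, y, hy, es⟩ := exists_content (k := k) s
    (fun m hm => hD _ (coeff_of_mem_SD hs m) hm) hs0
  obtain ⟨b, y', hy', ev⟩ := exists_content (k := k) v
    (fun m hm => hD _ (coeff_of_mem_SD hv m) hm) hv0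
  have hC : (HahnSeries.C (algebraMap A Ω ϖ) : LaurentSeries Ω) ≠ 0 := by
    rw [Ne, map_eq_zero_iff _ HahnSeries.C_injective,
      map_eq_zero_iff _ (IsFractionRing.injective A Ω)]
    exact hϖ
  have e1 : ∀ (n : ℕ) (z : LaurentSeries A), incL A Ω (HahnSeries.C (ϖ ^ n) * z) =
      HahnSeries.C (algebraMap A Ω ϖ) ^ n * incL A Ω z := by
    intro n z
    rw [map_mul, coeffMap_C, map_pow, map_pow]
  rw [es, ev, e1, e1] at h
  refine ⟨(a : ℤ) - b, incL A Ω y * (incL A Ω y')⁻¹, (isU_incL hy).mul (isU_incL hy').inv, ?_⟩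
  have hy0 : incL A Ω y' ≠ 0 := (isU_incL (k := k) hy').ne_zero
  rw [zpow_sub₀ hC, zpow_natCast, zpow_natCast]
  field_simp
  rw [← h]
  ring

end Scale

section EData

variable (A Ω k : Type*) [CommRing A] [IsDomain A] [ValuationRing A]
  [Field Ω] [Algebra A Ω] [IsFractionRing A Ω] [Field k] [Algebra A k]
  (F : Type*) [Field F]

/-- an embedding with discrete Gauss valuation -/
structure EData where
  φ : F →+* LaurentSeries Ω
  ϖA : A
  red : algebraMap A k ϖA = 0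
  neA : ϖA ≠ 0
  scale : ∀ x : F, x ≠ 0 → ∃ (m : ℤ) (w : LaurentSeries Ω), IsU A Ω k w ∧
      φ x = HahnSeries.C (algebraMap A Ω ϖA) ^ m * w
  ϖ : F
  hϖ : ∃ w : LaurentSeries Ω, IsU A Ω k w ∧ φ ϖ = HahnSeries.C (algebraMap A Ω ϖA) * w

variable {A Ω k F}

namespace EData

variable (E : EData A Ω k F)

/-- the uniformiser as a constant series -/
def c : LaurentSeries Ω := HahnSeries.C (algebraMap A Ω E.ϖA)

theorem c_mem : E.c ∈ WL A Ω k := const_mem_WL _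

theorem πL_c (h : E.c ∈ WL A Ω k) : πL A Ω k ⟨E.c, h⟩ = 0 := by
  have := πL_const (K := Ω) (k := k) E.ϖA h
  refine this.trans ?_
  rw [E.red, map_zero]

theorem c_ne : E.c ≠ 0 := by
  rw [Ne, c, map_eq_zero_iff _ HahnSeries.C_injective,
    map_eq_zero_iff _ (IsFractionRing.injective A Ω)]
  exact E.neA

theorem C_ne : (HahnSeries.C (algebraMap A Ω E.ϖA) : LaurentSeries Ω) ≠ 0 := E.c_ne

/-- the valuation ring -/
def W : Subring F := (WL A Ω k).comap E.φ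

theorem mem_W {x : F} : x ∈ E.W ↔ E.φ x ∈ WL A Ω k := Iff.rfl

/-- the residue as a Laurent series -/
def πW : E.W →+* LaurentSeries k :=
  (πL A Ω k).comp ((E.φ.comp E.W.subtype).codRestrict (WL A Ω k) (fun x => x.2))

theorem πW_apply {x : F} (h : x ∈ E.W) : E.πW ⟨x, h⟩ = πL A Ω k ⟨E.φ x, h⟩ := rfl

theorem isU_iff_πW {x : F} (h : x ∈ E.W) : IsU A Ω k (E.φ x) ↔ E.πW ⟨x, h⟩ ≠ 0 :=
  isU_iff h

theorem exists_unit' (x : F) (hx : x ≠ 0) : ∃ m : ℤ, ∃ y : F, IsU A Ω k (E.φ y) ∧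
    x = E.ϖ ^ m * y := by
  obtain ⟨m, w, hw, e⟩ := E.scale x hx
  obtain ⟨u, hu, e'⟩ := E.hϖ
  have hϖ0 : E.ϖ ≠ 0 := by
    intro h0
    rw [h0, map_zero] at e'
    exact mul_ne_zero E.c_ne hu.ne_zero e'.symm
  refine ⟨m, E.ϖ ^ (-m) * x, ?_, ?_⟩
  · have h1 : E.φ (E.ϖ ^ (-m) * x) = u ^ (-m) * w := by
      rw [map_mul, map_zpow₀, e, e', mul_zpow, mul_assoc, mul_left_comm (u ^ (-m)), ← mul_assoc,
        ← zpow_add₀ E.C_ne, neg_add_cancel, zpow_zero, one_mul]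
    rw [h1]
    exact (IsU.zpow hu _).mul hw
  · rw [← mul_assoc, ← zpow_add₀ hϖ0, add_neg_cancel, zpow_zero, one_mul]

variable (κ : IntermediateField k (LaurentSeries k))
  (hκ : ∀ (x : F) (h : x ∈ E.W), E.πW ⟨x, h⟩ ∈ κ)

/-- the component attached to the embedding -/
def comp : Car.Comp F κ where
  W := E.W
  π := E.πW.codRestrict κ (fun x => hκ x x.2)
  ϖ := E.ϖ
  hϖ := by
    obtain ⟨u, hu, e'⟩ := E.hϖ
    rw [mem_W, e']
    exact mul_mem E.c_mem hu.1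
  πϖ := by
    obtain ⟨u, hu, e'⟩ := E.hϖ
    apply Subtype.ext
    change πL A Ω k ⟨E.φ E.ϖ, _⟩ = 0
    have h1 : ∀ h, (⟨E.φ E.ϖ, h⟩ : WL A Ω k) = ⟨E.c, E.c_mem⟩ * ⟨u, hu.1⟩ :=
      fun h => Subtype.ext e'
    refine (congrArg (πL A Ω k) (h1 _)).trans ?_
    rw [map_mul, πL_c, zero_mul]
  ne := by
    obtain ⟨u, hu, e'⟩ := E.hϖ
    intro h0
    rw [h0, map_zero] at e'
    exact mul_ne_zero E.c_ne hu.ne_zero e'.symm
  inv_mem := by
    intro y hy
    rw [mem_W, map_inv₀]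
    refine inv_mem_WL y.2 ?_
    intro h0
    exact hy (Subtype.ext h0)
  exists_unit := by
    intro x hx
    obtain ⟨m, y, hy, e⟩ := E.exists_unit' x hx
    refine ⟨m, ⟨y, hy.1⟩, ?_, e⟩
    intro h0
    exact hy.2 (congrArg Subtype.val h0)

theorem comp_W : (E.comp κ hκ).W = E.W := rfl

theorem comp_ϖ : (E.comp κ hκ).ϖ = E.ϖ := rfl

theorem coe_π {x : F} (h : x ∈ E.W) : ((E.comp κ hκ).π ⟨x, h⟩ : LaurentSeries k) =
    πL A Ω k ⟨E.φ x, h⟩ := rfl

theorem coe_r {x : F} (h : x ∈ E.W) : ((E.comp κ hκ).r x : LaurentSeries k) =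
    πL A Ω k ⟨E.φ x, h⟩ := by
  rw [Car.Comp.r_eq (C := E.comp κ hκ) h]
  rfl

theorem coe_r_of_eq {x : F} {s : LaurentSeries A} (h : E.φ x = incL A Ω s) :
    ((E.comp κ hκ).r x : LaurentSeries k) = redL A k s := by
  have h1 : x ∈ E.W := by rw [mem_W, h]; exact incL_mem s
  rw [E.coe_r κ hκ h1]
  exact πL_of_eq h _

theorem π_ne_zero {x : F} (h : x ∈ E.W) (hu : IsU A Ω k (E.φ x)) :
    (E.comp κ hκ).π ⟨x, h⟩ ≠ 0 := fun h0 => hu.2 (congrArg Subtype.val h0)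

theorem v_eq {x : F} {m : ℤ} {w : LaurentSeries Ω} (hw : IsU A Ω k w)
    (h : E.φ x = HahnSeries.C (algebraMap A Ω E.ϖA) ^ m * w) : (E.comp κ hκ).v x = m := by
  obtain ⟨u, hu, e'⟩ := E.hϖ
  have hϖ0 : E.ϖ ≠ 0 := by
    intro h0
    rw [h0, map_zero] at e'
    exact mul_ne_zero E.c_ne hu.ne_zero e'.symm
  have h1 : E.φ (E.ϖ ^ (-m) * x) = u ^ (-m) * w := by
    rw [map_mul, map_zpow₀, h, e', mul_zpow, mul_assoc, mul_left_comm (u ^ (-m)), ← mul_assoc,
      ← zpow_add₀ E.C_ne, neg_add_cancel, zpow_zero, one_mul]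
  have h2 : IsU A Ω k (E.φ (E.ϖ ^ (-m) * x)) := by
    rw [h1]; exact (IsU.zpow hu _).mul hw
  refine (E.comp κ hκ).v_eq (y := ⟨_, h2.1⟩) (E.π_ne_zero κ hκ h2.1 h2) ?_
  change x = E.ϖ ^ m * (E.ϖ ^ (-m) * x)
  rw [← mul_assoc, ← zpow_add₀ hϖ0, add_neg_cancel, zpow_zero, one_mul]

theorem v_eq_zero {x : F} (h : IsU A Ω k (E.φ x)) : (E.comp κ hκ).v x = 0 :=
  E.v_eq κ hκ h (by rw [zpow_zero, one_mul])

theorem v_nat {x : F} {m : ℕ} {w : LaurentSeries Ω} (hw : IsU A Ω k w)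
    (h : E.φ x = HahnSeries.C (algebraMap A Ω E.ϖA) ^ m * w) : (E.comp κ hκ).v x = m :=
  E.v_eq κ hκ hw (by rw [h, zpow_natCast])

/-- the valuation does not depend on the residue field -/
theorem v_indep (κ' : IntermediateField k (LaurentSeries k))
    (hκ' : ∀ (x : F) (h : x ∈ E.W), E.πW ⟨x, h⟩ ∈ κ') (x : F) :
    (E.comp κ hκ).v x = (E.comp κ' hκ').v x := by
  rcases eq_or_ne x 0 with rfl | hx
  · rw [Car.Comp.v_zero, Car.Comp.v_zero]
  obtain ⟨m, w, hw, h⟩ := E.scale x hx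
  rw [E.v_eq κ hκ hw h, E.v_eq κ' hκ' hw h]

end EData

end EData

end Fermat.Agent.CarE
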