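import Fermat.Agent.SemiSt.AL
import Fermat.Agent.SemiSt.Galois

/-!
# The middle embedding of the modular function field of level `q ^ 2 M`
-/

set_option autoImplicit false
set_option linter.style.haveILetI false
set_option linter.unusedSectionVars false

noncomputable section

namespace Fermat.Agent.CarE

open ModularCurve Polynomial IntermediateField Fermat.Agent.ModPoly Fermat.Agent.Cusp AlgebraicCurve
open Fermat.Agent.SemiSt

section Descend

variable {k : Type*} [Field k] {N : ℕ} [NeZero N]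

theorem exists_descend (φ : LaurentSeries k →ₐ[k] LaurentSeries k)
    (T : FF k N →ₐ[k] LaurentSeries k)
    (h : ∀ (m : ℕ+) (hm : (m : ℕ) ∣ N), T (jm k m hm) ∈ φ.range) :
    ∃ T' : FF k N →ₐ[k] LaurentSeries k, ∀ x, φ (T' x) = T x := by
  have hφinj : Function.Injective φ := φ.toRingHom.injective
  have hrange : ∀ x : FF k N, T x ∈ φ.range := by
    intro x
    have h4 : x ∈ IntermediateField.adjoin k
        {x : FF k N | ∃ (m : ℕ+) (hm : (m : ℕ) ∣ N), x = jm k m hm} := by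
      rw [adjoin_jm_eq_top]; exact IntermediateField.mem_top
    induction h4 using IntermediateField.adjoin_induction with
    | mem x hx =>
      obtain ⟨m, hm, rfl⟩ := hx
      exact h m hm
    | algebraMap x => rw [AlgHom.commutes]; exact φ.range.algebraMap_mem x
    | add x y _ _ hx hy =>
      have h1 := T.toRingHom.map_add x y
      change T (x + y) = T x + T y at h1
      rw [h1]; exact add_mem hx hy
    | inv x _ hx =>
      rw [map_inv₀]
      obtain ⟨y, hy⟩ := hx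
      exact ⟨y⁻¹, by
        rw [← hy]
        exact map_inv₀ φ y⟩
    | mul x y _ _ hx hy => rw [map_mul]; exact mul_mem hx hy
  let e' := AlgEquiv.ofInjective φ hφinj
  refine ⟨(e'.symm : φ.range →ₐ[k] LaurentSeries k).comp (T.codRestrict φ.range hrange), ?_⟩
  intro x
  have h5 := e'.apply_symm_apply ⟨T x, hrange x⟩
  exact congrArg Subtype.val h5

end Descend

section Main

variable {k : Type*} [Field k] [IsAlgClosed k] {q M : ℕ} [hq : Fact q.Prime] [NeZero M]

instance neZero_q : NeZero q := ⟨hq.out.ne_zero⟩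

theorem gcd1 {d : ℕ} (hd : d ∣ q * M) : Nat.gcd d (q * M) = d := Nat.gcd_eq_left hd

theorem gcd2 (hco : q.Coprime M) {d : ℕ} (hd : d ∣ M) : Nat.gcd (q * q * d) (q * M) = q * d := by
  rw [mul_assoc, Nat.gcd_mul_left, Nat.Coprime.gcd_mul_left_cancel _ hco, Nat.gcd_eq_left hd]

theorem psi_sq (hco : q.Coprime M) : dedekindPsi (q ^ 2 * M) = q * dedekindPsi (q * M) := by
  have hM := NeZero.ne M
  rw [dedekindPsi_mul_coprime (pow_ne_zero 2 hq.out.ne_zero) M hM (hco.pow_left 2),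
    dedekindPsi_mul_coprime hq.out.ne_zero M hM hco]
  have h1 := dedekindPsi_prime_pow hq.out 0
  have h2 := dedekindPsi_prime_pow hq.out 1
  rw [zero_add, pow_one, pow_zero, one_mul] at h1
  rw [pow_one] at h2
  rw [h1, h2]
  ring

theorem card_mid (hN : ((q ^ 2 * M : ℕ) : k) ≠ 0) (hco : q.Coprime M)
    [Fintype (Emb k (q ^ 2 * M))] :
    (Finset.univ.filter fun τ : Emb k (q ^ 2 * M) => τ.s = q * M).card = q - 1 := by
  classical
  have hNpos : 0 < q ^ 2 * M := NeZero.pos _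
  have hF := fam (k := k) (N := q ^ 2 * M) hN
  have hdvd : q * M ∣ q ^ 2 * M := ⟨q, by ring⟩
  have h1 := hF.card_dvd hNpos (q * M) hdvd
  have h2 := hF.card_dvd hNpos (q ^ 2 * M) dvd_rfl
  rw [psi_sq hco, mul_comm q (dedekindPsi (q * M))] at h1
  have hpos : 0 < dedekindPsi (q * M) := dedekindPsi_pos (NeZero.pos _)
  have h1' := Nat.eq_of_mul_eq_mul_left hpos h1
  have hpos2 : 0 < dedekindPsi (q ^ 2 * M) := dedekindPsi_pos (NeZero.pos _)
  have h2' : (Finset.univ.filter fun τ : Emb k (q ^ 2 * M) => q ^ 2 * M ∣ τ.s).card = 1 :=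
    Nat.eq_of_mul_eq_mul_left hpos2 (by rw [h2, mul_one])
  have h3 : (Finset.univ.filter fun τ : Emb k (q ^ 2 * M) => q * M ∣ τ.s) =
      (Finset.univ.filter fun τ : Emb k (q ^ 2 * M) => τ.s = q * M) ∪
      (Finset.univ.filter fun τ : Emb k (q ^ 2 * M) => q ^ 2 * M ∣ τ.s) := by
    ext τ
    simp only [Finset.mem_filter, Finset.mem_univ, true_and, Finset.mem_union]
    constructor
    · intro h
      obtain ⟨a, ha⟩ := h
      have h4 := hF.dvd τ
      rw [ha] at h4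
      have h5 : a ∣ q := by
        apply Nat.dvd_of_mul_dvd_mul_left (NeZero.pos (q * M))
        rw [show q * M * q = q ^ 2 * M by ring]
        exact h4
      rcases (Nat.dvd_prime hq.out).1 h5 with rfl | rfl
      · left; rw [ha, mul_one]
      · right; rw [ha]; exact ⟨1, by ring⟩
    · rintro (h | h)
      · rw [h]
      · exact hdvd.trans h
  have h4 : Disjoint (Finset.univ.filter fun τ : Emb k (q ^ 2 * M) => τ.s = q * M)
      (Finset.univ.filter fun τ : Emb k (q ^ 2 * M) => q ^ 2 * M ∣ τ.s) := by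
    rw [Finset.disjoint_filter]
    intro τ _ h5 h6
    rw [h5] at h6
    have h7 := Nat.le_of_dvd (NeZero.pos _) h6
    have h8 := hq.out.one_lt
    have h9 := NeZero.pos M
    nlinarith [Nat.mul_pos hq.out.pos h9]
  rw [h3, Finset.card_union_of_disjoint h4, h2'] at h1'
  omega

/-- the data of a middle embedding -/
theorem data_mid (hN : ((q ^ 2 * M : ℕ) : k) ≠ 0) (hco : q.Coprime M)
    (τ : Emb k (q ^ 2 * M)) (hτ : τ.s = q * M) :
    ∃ z : kˣ, z ^ q = 1 ∧ z ≠ 1 ∧ ∀ (d : ℕ+) (_ : (d : ℕ) ∣ M),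
      (∀ h : (d : ℕ) ∣ q ^ 2 * M, τ.1 (jm k d h) = Jc 1 (pn (q ^ 2 * M) * d)) ∧
      (∀ h : ((pp q * d : ℕ+) : ℕ) ∣ q ^ 2 * M, τ.1 (jm k (pp q * d) h) =
        Jc 1 (pn (q ^ 2 * M) * (pp q * d))) ∧
      (∀ h : ((pp q * pp q * d : ℕ+) : ℕ) ∣ q ^ 2 * M, τ.1 (jm k (pp q * pp q * d) h) =
        Jc (z ^ (d : ℕ)) (pn (q ^ 2 * M) * d)) := by
  obtain ⟨c, e, κ, h⟩ := τ.exists_data' hN
  rw [hτ] at h
  have hup : ∀ (p : ℕ) [Fact p.Prime] (m : ℕ+) (_ : ((pp p * m : ℕ+) : ℕ) ∣ q ^ 2 * M),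
      Nat.gcd (pp p * m : ℕ+) (q * M) ≠ Nat.gcd m (q * M) → c (pp p * m : ℕ+) = c m ^ p := by
    intro p _ m hpm hne
    have hm := ppm_dvd hpm
    have h3 := h (pp p * m) hpm
    rcases (h m hm).next (p := p) hpm with ⟨κ', h'⟩ | ⟨c', e', κ', hc', -, h'⟩
    · exact (h3.unique h').2
    · exact absurd (h3.unique_s h') hne
  have hdown : ∀ (p : ℕ) [Fact p.Prime] (m : ℕ+) (_ : ((pp p * m : ℕ+) : ℕ) ∣ q ^ 2 * M),
      Nat.gcd (pp p * m : ℕ+) (q * M) = Nat.gcd m (q * M) → c (pp p * m : ℕ+) ^ p = c m := by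
    intro p _ m hpm hne
    have hm := ppm_dvd hpm
    have h3 := h (pp p * m) hpm
    rcases (h m hm).next (p := p) hpm with ⟨κ', h'⟩ | ⟨c', e', κ', hc', -, h'⟩
    · exfalso
      have h4 := h3.unique_s h'
      rw [hne] at h4
      have h5 : 0 < Nat.gcd m (q * M) := Nat.gcd_pos_of_pos_left _ m.pos
      have h6 := (Fact.out : p.Prime).one_lt
      nlinarith
    · rw [(h3.unique h').2, hc']
  have hdvd : q * M ∣ q ^ 2 * M := ⟨q, by ring⟩
  have hc1 : c 1 = 1 := by
    have := τ.c_one (h 1 (one_dvd _)).map_j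
    exact this.1
  have hcs : ∀ m : ℕ+, (m : ℕ) ∣ q * M → c m = 1 := by
    intro m
    induction m using pnat_prime_induction with
    | h1 => intro _; exact hc1
    | h2 p m ih =>
      intro hm
      have hm' : (m : ℕ) ∣ q * M := (Dvd.intro_left p (by simp)).trans hm
      rw [hup p m (hm.trans hdvd), ih hm', one_pow]
      rw [gcd1 hm, gcd1 hm', PNat.mul_coe, coe_pp]
      have h6 := (Fact.out : p.Prime).one_lt
      have h7 := m.pos
      intro h8
      nlinarith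
  have hq2 : ((pp q * pp q : ℕ+) : ℕ) ∣ q ^ 2 * M := by
    rw [PNat.mul_coe, coe_pp]; exact ⟨M, by ring⟩
  obtain ⟨z, hz⟩ : ∃ z, z = c (pp q * pp q : ℕ+) := ⟨_, rfl⟩
  have hzq : z ^ q = 1 := by
    rw [hz, hdown q (pp q) hq2 ?_]
    · exact hcs (pp q) (by rw [coe_pp]; exact dvd_mul_right _ _)
    · have e1 := gcd2 (q := q) (M := M) hco (d := 1) (one_dvd _)
      rw [mul_one, mul_one] at e1
      rw [PNat.mul_coe, coe_pp, e1, gcd1 (dvd_mul_right _ _)]
  have hcd : ∀ d : ℕ+, (d : ℕ) ∣ M → c (pp q * pp q * d : ℕ+) = z ^ (d : ℕ) := by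
    intro d
    induction d using pnat_prime_induction with
    | h1 => intro _; rw [mul_one, PNat.one_coe, pow_one, hz]
    | h2 p m ih =>
      intro hd
      have hm : (m : ℕ) ∣ M := (Dvd.intro_left p (by simp)).trans hd
      have e1 : pp q * pp q * (pp p * m) = pp p * (pp q * pp q * m) := by
        rw [← mul_assoc, ← mul_assoc, mul_comm _ (pp p), mul_assoc (pp p)]
      have h1 : ((pp q * pp q * (pp p * m) : ℕ+) : ℕ) ∣ q ^ 2 * M := by
        rw [PNat.mul_coe, PNat.mul_coe (pp q), coe_pp, pow_two]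
        exact mul_dvd_mul_left _ hd
      rw [e1] at h1 ⊢
      rw [hup p (pp q * pp q * m) h1, ih hm, ← pow_mul]
      · congr 1
        rw [PNat.mul_coe, coe_pp, mul_comm]
      · rw [← e1]
        have g1 := gcd2 (q := q) (M := M) hco hd
        have g2 := gcd2 (q := q) (M := M) hco hm
        simp only [PNat.mul_coe, coe_pp] at g1 g2 ⊢
        rw [g1, g2]
        have h6 := (Fact.out : p.Prime).one_lt
        have h7 := m.pos
        have h8 := hq.out.pos
        intro h9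
        have h10 := Nat.eq_of_mul_eq_mul_left h8 h9
        nlinarith
  have key1 : ∀ (m : ℕ+) (hm : (m : ℕ) ∣ q * M) (h' : (m : ℕ) ∣ q ^ 2 * M),
      τ.1 (jm k m h') = Jc 1 (pn (q ^ 2 * M) * m) := by
    intro m hm h'
    have h1 : τ.1 (jm k m h') = Jc (c m) (e m) := (h m h').map_j
    have h2 : e m = pn (q ^ 2 * M) * m := by
      apply PNat.eq
      apply Nat.eq_of_mul_eq_mul_right m.pos
      rw [(h m h').mul_eq, gcd1 hm, PNat.mul_coe, coe_pn]
      ring
    rw [h1, h2, hcs m hm]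
  refine ⟨z, hzq, ?_, fun d hd => ⟨fun h' => key1 d (hd.trans (dvd_mul_left _ _)) h', fun h' =>
    key1 (pp q * d) (by rw [PNat.mul_coe, coe_pp]; exact mul_dvd_mul_left _ hd) h', fun h' => ?_⟩⟩
  · intro hz1
    have h1 : τ.1 (jm k (pp q * pp q) hq2) = Jc (c (pp q * pp q : ℕ+)) (e (pp q * pp q : ℕ+)) :=
      (h (pp q * pp q) hq2).map_j
    have h2 : e (pp q * pp q : ℕ+) = pn (q ^ 2 * M) := by
      apply PNat.eq
      apply Nat.eq_of_mul_eq_mul_right (pp q * pp q).pos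
      have e1 := gcd2 (q := q) (M := M) hco (d := 1) (one_dvd _)
      rw [mul_one, mul_one] at e1
      rw [(h (pp q * pp q) hq2).mul_eq, PNat.mul_coe, coe_pp, coe_pn, e1]
      ring
    have h3 : τ.1 (jm k 1 (one_dvd _)) = Jc 1 (pn (q ^ 2 * M)) := by
      have := key1 1 (by rw [PNat.one_coe]; exact one_dvd _) (one_dvd _)
      rwa [mul_one] at this
    rw [h2, ← hz, hz1] at h1
    have h4 := τ.1.toRingHom.injective (h1.trans h3.symm)
    have h5 := congrArg (fun x : FF k (q ^ 2 * M) => (x : LaurentSeries k)) h4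
    have h6 : (Jc 1 (pp q * pp q) : LaurentSeries k) = Jc 1 1 := h5
    have h7 := Jc_inj_e h6
    have h8 := congrArg (fun x : ℕ+ => (x : ℕ)) h7
    simp only [PNat.mul_coe, coe_pp, PNat.one_coe] at h8
    have h9 := hq.out.one_lt
    nlinarith
  · have h1 : τ.1 (jm k (pp q * pp q * d) h') =
        Jc (c (pp q * pp q * d : ℕ+)) (e (pp q * pp q * d : ℕ+)) := (h (pp q * pp q * d) h').map_j
    have h2 : e (pp q * pp q * d : ℕ+) = pn (q ^ 2 * M) * d := by
      apply PNat.eq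
      apply Nat.eq_of_mul_eq_mul_right (pp q * pp q * d).pos
      rw [(h (pp q * pp q * d) h').mul_eq]
      have e1 := gcd2 (q := q) (M := M) hco hd
      simp only [PNat.mul_coe, coe_pp, coe_pn]
      rw [e1]
      ring
    rw [h1, h2, hcd d hd]

theorem div_cases (hco : q.Coprime M) {m : ℕ+} (hm : (m : ℕ) ∣ q ^ 2 * M) :
    ∃ d : ℕ+, (d : ℕ) ∣ M ∧ (m = d ∨ m = pp q * d ∨ m = pp q * pp q * d) := by
  haveI : NeZero (q ^ 2) := ⟨pow_ne_zero 2 hq.out.ne_zero⟩
  obtain ⟨r, r', d, rfl, hr, hd⟩ := exists_factor (hco.pow_left 2) (NeZero.pos (q ^ 2)) hm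
  refine ⟨d, hd, ?_⟩
  have h1 : (r : ℕ) ∣ q ^ 2 := ⟨r', hr.symm⟩
  obtain ⟨i, hi, hi'⟩ := (Nat.dvd_prime_pow hq.out).1 h1
  interval_cases i
  · left
    have : r = 1 := PNat.eq (by rw [hi', pow_zero, PNat.one_coe])
    rw [this, one_mul]
  · right; left
    have : r = pp q := PNat.eq (by rw [hi', pow_one, coe_pp])
    rw [this]
  · right; right
    have : r = pp q * pp q := PNat.eq (by rw [hi', PNat.mul_coe, coe_pp, pow_two])
    rw [this]

/-- **The middle embedding.** -/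
theorem exists_phi1 (hN : ((q ^ 2 * M : ℕ) : k) ≠ 0) (hco : q.Coprime M) {z : kˣ}
    (hz : z ^ q = 1) (hz1 : z ≠ 1) :
    ∃ T : FF k (q ^ 2 * M) →ₐ[k] LaurentSeries k, ∀ (d : ℕ+) (_ : (d : ℕ) ∣ M),
      (∀ h : (d : ℕ) ∣ q ^ 2 * M, T (jm k d h) = Jc 1 d) ∧
      (∀ h : ((pp q * d : ℕ+) : ℕ) ∣ q ^ 2 * M, T (jm k (pp q * d) h) = Jc 1 (pp q * d)) ∧
      (∀ h : ((pp q * pp q * d : ℕ+) : ℕ) ∣ q ^ 2 * M, T (jm k (pp q * pp q * d) h) =
        Jc (z ^ (d : ℕ)) d) := by
  classical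
  haveI := finite_Emb (k := k) (N := q ^ 2 * M) hN
  letI := Fintype.ofFinite (Emb k (q ^ 2 * M))
  let X := {τ : Emb k (q ^ 2 * M) // τ.s = q * M}
  let Z := {z : kˣ // z ^ q = 1 ∧ z ≠ 1}
  choose ζ hζ1 hζ2 hζ3 using fun τ : X => data_mid hN hco τ.1 τ.2
  let f : X → Z := fun τ => ⟨ζ τ, hζ1 τ, hζ2 τ⟩
  have hinj : Function.Injective f := by
    intro τ τ' h
    have h0 : ζ τ = ζ τ' := congrArg Subtype.val h
    apply Subtype.ext
    apply Emb.ext'
    intro m hm
    obtain ⟨d, hd, rfl | rfl | rfl⟩ := div_cases hco hm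
    · rw [(hζ3 τ m hd).1 hm, (hζ3 τ' m hd).1 hm]
    · rw [(hζ3 τ d hd).2.1 hm, (hζ3 τ' d hd).2.1 hm]
    · rw [(hζ3 τ d hd).2.2 hm, (hζ3 τ' d hd).2.2 hm, h0]
  have hXcard : Nat.card X = q - 1 := by
    rw [Nat.card_eq_fintype_card, Fintype.card_subtype, card_mid hN hco]
  haveI : Finite (rootsOfUnity q k) := inferInstance
  let g : Option Z → rootsOfUnity q k := fun z => Option.elim z ⟨1, one_mem _⟩
    (fun z => ⟨z.1, (mem_rootsOfUnity _ _).2 z.2.1⟩)
  have hemb : Function.Injective g := by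
    intro a b hab
    have hab' := congrArg (fun u : rootsOfUnity q k => (u : kˣ)) hab
    rcases a with _ | a <;> rcases b with _ | b
    · rfl
    · exact absurd hab'.symm b.2.2
    · exact absurd hab' a.2.2
    · have : a.1 = b.1 := hab'
      rw [Subtype.ext this]
  haveI : Finite Z := by
    haveI := Finite.of_injective _ hemb
    exact Finite.of_injective (fun z : Z => some z) (Option.some_injective _)
  have hZcard : Nat.card Z + 1 ≤ q := by
    have h1 := Nat.card_le_card_of_injective _ hemb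
    have h2 : Nat.card (rootsOfUnity q k) ≤ q := card_rootsOfUnity k q
    haveI := Fintype.ofFinite Z
    rw [Nat.card_eq_fintype_card, Fintype.card_option, ← Nat.card_eq_fintype_card] at h1
    omega
  have hbij := Function.Injective.bijective_of_nat_card_le hinj (by rw [hXcard]; omega)
  obtain ⟨τ, hτ⟩ := hbij.2 ⟨z, hz, hz1⟩
  have hτz : ζ τ = z := congrArg Subtype.val hτ
  have h3 := hζ3 τ
  rw [hτz] at h3
  have e1 : ∀ (c : kˣ) (m : ℕ+), SbA 1 (pn (q ^ 2 * M)) (Jc c m) = Jc c (pn (q ^ 2 * M) * m) := by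
    intro c m
    rw [SbA_apply, Sb_Jc, one_pow, one_mul]
  obtain ⟨T, hT⟩ := exists_descend (SbA 1 (pn (q ^ 2 * M))) τ.1.1 (by
    intro m hm
    obtain ⟨d, hd, rfl | rfl | rfl⟩ := div_cases hco hm
    · exact ⟨Jc 1 m, by rw [(h3 m hd).1 hm]; exact e1 _ _⟩
    · exact ⟨Jc 1 (pp q * d), by rw [(h3 d hd).2.1 hm]; exact e1 _ _⟩
    · exact ⟨Jc (z ^ (d : ℕ)) d, by rw [(h3 d hd).2.2 hm]; exact e1 _ _⟩)
  have hinj' := SbA_injective (k := k) 1 (pn (q ^ 2 * M))
  refine ⟨T, fun d hd => ⟨fun h => hinj' ?_, fun h => hinj' ?_, fun h => hinj' ?_⟩⟩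
  · rw [hT, (h3 d hd).1 h, e1]
  · rw [hT, (h3 d hd).2.1 h, e1]
  · rw [hT, (h3 d hd).2.2 h, e1]

end Main

end Fermat.Agent.CarE
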