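import Fermat.Agent.CarE.Disc

/-!
# The totally ramified extension generated by a root of unity of order `q`
-/

set_option autoImplicit false
set_option linter.style.haveILetI false
set_option linter.unusedSectionVars false

noncomputable section

namespace Fermat.Agent.CarE

open ModularCurve Polynomial IntermediateField Fermat.Agent.ModPoly Fermat.Agent.Cusp
open Fermat.Agent.SemiSt Fermat.Agent.RedMod

section Lam

variable {A k : Type*} [CommRing A] [IsDomain A] [Field k] [Algebra A k]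
  {q : ℕ} [hq : Fact q.Prime] [CharP k q] {z : A} (hz : z ^ q = 1 ∧ z ≠ 1)

include hz in
theorem primitive : IsPrimitiveRoot z q :=
  IsPrimitiveRoot.of_map_of_injective (f := MonoidHom.id A)
    (by
      have h1 := orderOf_eq_prime hz.1 hz.2
      exact h1 ▸ IsPrimitiveRoot.orderOf z) (fun _ _ h => h)

include hz in
theorem red_z : algebraMap A k z = 1 := by
  haveI : ExpChar k q := ExpChar.prime hq.out
  have h1 : (algebraMap A k z) ^ q = 1 := by rw [← map_pow, hz.1, map_one]
  have h2 : (algebraMap A k z - 1) ^ q = 0 := by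
    rw [sub_pow_expChar, h1, one_pow, sub_self]
  exact sub_eq_zero.1 (pow_eq_zero_iff hq.out.ne_zero |>.1 h2)

include hz in
theorem red_lam : algebraMap A k (1 - z) = 0 := by
  rw [map_sub, map_one, red_z hz, sub_self]

include hz in
theorem lam_ne : (1 : A) - z ≠ 0 := fun h => hz.2 (sub_eq_zero.1 h).symm

include hz in
theorem red_geom (n : ℕ) : algebraMap A k (∑ i ∈ Finset.range n, z ^ i) = n := by
  rw [map_sum]
  simp [red_z hz]

include hz in
/-- `q` is a unit times `(1 - z) ^ (q - 1)` -/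
theorem exists_lam_pow : ∃ ε : A, algebraMap A k ε ≠ 0 ∧ (q : A) = (1 - z) ^ (q - 1) * ε := by
  obtain ⟨n, hn⟩ : ∃ n, q = n + 1 := ⟨q - 1, (Nat.succ_pred_prime hq.out).symm⟩
  refine ⟨∏ j ∈ Finset.range n, ∑ i ∈ Finset.range (j + 1), z ^ i, ?_, ?_⟩
  · rw [map_prod, Finset.prod_ne_zero_iff]
    intro j hj
    rw [red_geom hz]
    intro h0
    rw [CharP.cast_eq_zero_iff k q] at h0
    have := Nat.le_of_dvd (Nat.succ_pos _) h0
    rw [Finset.mem_range] at hj
    omega
  · have h1 : IsPrimitiveRoot z (n + 1) := hn ▸ primitive hz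
    have h2 := h1.prod_one_sub_pow_eq_order
    have h3 : ∀ j ∈ Finset.range n, (1 - z ^ (j + 1)) =
        (1 - z) * ∑ i ∈ Finset.range (j + 1), z ^ i := fun j _ => (mul_neg_geom_sum z (j + 1)).symm
    rw [Finset.prod_congr rfl h3, Finset.prod_mul_distrib, Finset.prod_const, Finset.card_range] at h2
    rw [hn, Nat.add_sub_cancel, h2]
    push_cast
    ring

variable {R0 : Type*} [CommRing R0] [Algebra R0 A]
  (hR : ∀ a : R0, a ≠ 0 → ∃ (n : ℕ) (u : R0), algebraMap A k (algebraMap R0 A u) ≠ 0 ∧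
    a = (q : R0) ^ n * u)

variable (R0 A) in
/-- the subring of `A` given by `R0` -/
def D0 : Subring A := (algebraMap R0 A).range

include hR in
theorem PU_D0 : ∀ d : A, d ∈ D0 A R0 → d ≠ 0 → PU k (q : A) d := by
  rintro _ ⟨a, rfl⟩ h
  have ha : a ≠ 0 := by rintro rfl; exact h (map_zero _)
  obtain ⟨n, u, hu, e⟩ := hR a ha
  exact ⟨n, algebraMap R0 A u, hu, by rw [e, map_mul, map_pow, map_natCast]⟩

variable (R0) in
/-- the subring generated by `z` -/
def D1 (z : A) : Subring A := (aeval (R := R0) z : R0[X] →ₐ[R0] A).toRingHom.range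

theorem algebraMap_mem_D1 (z : A) (a : R0) : algebraMap R0 A a ∈ D1 R0 z :=
  ⟨C a, by
    change aeval z (C a) = _
    rw [aeval_C]⟩

theorem self_mem_D1 (z : A) : z ∈ D1 R0 z :=
  ⟨X, by
    change aeval z X = _
    rw [aeval_X]⟩

theorem unit_zpow_mem_D1 {z : Aˣ} (hz : z ^ q = 1) (n : ℤ) : ((z ^ n : Aˣ) : A) ∈ D1 R0 (z : A) := by
  have h0 : 0 ≤ n % (q : ℤ) := Int.emod_nonneg n (by exact_mod_cast hq.out.ne_zero)
  obtain ⟨m, hm⟩ := Int.eq_ofNat_of_zero_le h0
  have h1 : z ^ n = z ^ m := by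
    have h2 := Int.emod_add_mul_ediv n q
    rw [← h2, zpow_add, zpow_mul, zpow_natCast z q, hz, one_zpow, mul_one, hm, zpow_natCast]
  rw [h1, Units.val_pow_eq_pow_val]
  exact pow_mem (self_mem_D1 _) m

include hz hR in
/-- polynomials of small degree in `1 - z` -/
theorem PU_aeval_lam {Q : R0[X]} (hQd : Q.natDegree < q - 1) (hQ0 : Q ≠ 0) :
    PU k (1 - z) (aeval (1 - z) Q) := by
  classical
  obtain ⟨ε, hε, heq⟩ := exists_lam_pow (A := A) (k := k) hz
  -- valuations of the coefficients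
  let s := (Finset.range (q - 1)).filter (fun i => Q.coeff i ≠ 0)
  have hch : ∀ i : ℕ, ∃ (n : ℕ) (u : R0), Q.coeff i ≠ 0 →
      algebraMap A k (algebraMap R0 A u) ≠ 0 ∧ Q.coeff i = (q : R0) ^ n * u := by
    intro i
    by_cases hi : Q.coeff i = 0
    · exact ⟨0, 0, fun h => absurd hi h⟩
    · obtain ⟨n, u, h⟩ := hR _ hi
      exact ⟨n, u, fun _ => h⟩
  choose n u hnu using hch
  have h3 : aeval (1 - z) Q = ∑ i ∈ s, (1 - z) ^ ((q - 1) * n i + i) *
      (ε ^ (n i) * algebraMap R0 A (u i)) := by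
    rw [aeval_eq_sum_range' hQd, ← Finset.sum_filter_add_sum_filter_not (Finset.range (q - 1))
      (fun i => Q.coeff i ≠ 0), Finset.sum_eq_zero (s := (Finset.range (q - 1)).filter
      (fun i => ¬ (Q.coeff i ≠ 0))), add_zero]
    · refine Finset.sum_congr rfl fun i hi => ?_
      obtain ⟨-, hne⟩ := Finset.mem_filter.1 hi
      obtain ⟨-, e⟩ := hnu i hne
      rw [Algebra.smul_def]
      conv_lhs => rw [e]
      rw [map_mul, map_pow, map_natCast, heq, mul_pow, ← pow_mul, pow_add]
      ring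
    · intro i hi
      have h5 := not_not.1 (Finset.mem_filter.1 hi).2
      rw [h5, zero_smul]
  have hs : s.Nonempty := by
    refine ⟨Q.natDegree, Finset.mem_filter.2 ⟨Finset.mem_range.2 hQd, ?_⟩⟩
    exact leadingCoeff_ne_zero.2 hQ0
  rw [h3]
  refine PU.sum (red_lam hz) s hs (fun i => (q - 1) * n i + i) _ ?_ ?_
  · intro i hi
    obtain ⟨-, hne⟩ := Finset.mem_filter.1 hi
    rw [map_mul, map_pow]
    exact mul_ne_zero (pow_ne_zero _ hε) (hnu i hne).1
  · intro i hi j hj hij
    have hi' := Finset.mem_range.1 (Finset.mem_filter.1 hi).1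
    have hj' := Finset.mem_range.1 (Finset.mem_filter.1 hj).1
    have h4 := congrArg (fun x => x % (q - 1)) hij
    simp only [Nat.add_mod, Nat.mul_mod_right, zero_add, Nat.mod_eq_of_lt hi',
      Nat.mod_eq_of_lt hj'] at h4
    exact h4

theorem PU.ne_zero {ϖ d : A} (hϖ : ϖ ≠ 0) (h : PU k ϖ d) : d ≠ 0 := by
  obtain ⟨n, u, hu, rfl⟩ := h
  refine mul_ne_zero (pow_ne_zero _ hϖ) ?_
  rintro rfl
  exact hu (map_zero _)

omit [IsDomain A] in
theorem natDegree_comp_lam_le (P : R0[X]) : (P.comp (1 - X)).natDegree ≤ P.natDegree := by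
  refine natDegree_comp_le.trans ?_
  have : (1 - X : R0[X]).natDegree ≤ 1 := by
    refine (natDegree_sub_le _ _).trans ?_
    rw [natDegree_one]
    exact max_le (Nat.zero_le _) natDegree_X_le
  calc P.natDegree * (1 - X : R0[X]).natDegree ≤ P.natDegree * 1 := Nat.mul_le_mul_left _ this
    _ = P.natDegree := by rw [mul_one]

include hz hR in
/-- `z` satisfies no relation of small degree -/
theorem eq_zero_of_aeval_z {P : R0[X]} (hd : P.natDegree < q - 1) (h : aeval z P = 0) : P = 0 := by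
  by_contra hP
  have h1 : aeval (1 - z) (P.comp (1 - X)) = aeval z P := by
    rw [aeval_comp]
    simp
  have h2 : P.comp (1 - X) ≠ 0 := by
    intro h0
    apply hP
    have : (P.comp (1 - X)).comp (1 - X) = P := by
      rw [comp_assoc]
      simp
    rw [← this, h0, zero_comp]
  have h3 := PU_aeval_lam (k := k) hz hR ((natDegree_comp_lam_le P).trans_lt hd) h2
  exact h3.ne_zero (lam_ne hz) (h1.trans h)

omit [IsDomain A] in
theorem natDegree_geom [Nontrivial R0] : (∑ i ∈ Finset.range q, (X : R0[X]) ^ i).natDegree = q - 1 := by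
  have hG : (∑ i ∈ Finset.range q, (X : R0[X]) ^ i).Monic := monic_geom_sum_X hq.out.ne_zero
  have h1 : ((∑ i ∈ Finset.range q, (X : R0[X]) ^ i) * (X - 1)).natDegree = q := by
    rw [geom_sum_mul X q]
    exact natDegree_X_pow_sub_C (R := R0) (n := q) (r := 1)
  rw [hG.natDegree_mul' (by exact (monic_X_sub_C (1 : R0)).ne_zero)] at h1
  have h3 : (X - 1 : R0[X]).natDegree = 1 := natDegree_X_sub_C (1 : R0)
  omega

include hz in
theorem aeval_geom_z : aeval z (∑ i ∈ Finset.range q, (X : R0[X]) ^ i) = 0 := by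
  have h1 : aeval z (∑ i ∈ Finset.range q, (X : R0[X]) ^ i) = ∑ i ∈ Finset.range q, z ^ i := by
    simp [map_sum]
  rw [h1]
  exact (primitive hz).geom_sum_eq_zero hq.out.one_lt

include hz hR in
theorem PU_D1 : ∀ d : A, d ∈ D1 R0 z → d ≠ 0 → PU k (1 - z) d := by
  rintro _ ⟨P, rfl⟩ hne
  change aeval z P ≠ 0 at hne
  change PU k (1 - z) (aeval z P)
  -- reduce modulo the monic polynomial
  let G : R0[X] := ∑ i ∈ Finset.range q, X ^ i
  haveI : Nontrivial R0 := by
    refine ⟨⟨0, 1, fun h => hne ?_⟩⟩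
    have : P = 0 := by
      ext i
      rw [coeff_zero, ← mul_one (P.coeff i), ← h, mul_zero]
    rw [this, map_zero]
  have hG : G.Monic := monic_geom_sum_X hq.out.ne_zero
  have hGz : aeval z G = 0 := aeval_geom_z hz
  have hGd : G.natDegree = q - 1 := natDegree_geom
  set P' := P %ₘ G with hP'
  have h1 : aeval z P = aeval z P' := by
    conv_lhs => rw [← modByMonic_add_div P G]
    rw [map_add, map_mul, hGz, zero_mul, add_zero]
  have h2 : aeval z P' = aeval (1 - z) (P'.comp (1 - X)) := by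
    rw [aeval_comp]
    simp
  have hq2 := hq.out.two_le
  have hP'd : P'.natDegree < q - 1 := by
    rw [← hGd]
    exact natDegree_modByMonic_lt P hG (by
      intro h
      rw [h, natDegree_one] at hGd
      omega)
  rw [h1, h2]
  refine PU_aeval_lam hz hR ((natDegree_comp_lam_le P').trans_lt hP'd) ?_
  intro h0
  rw [h0, map_zero] at h2
  exact hne (h1.trans h2)

end Lam

end Fermat.Agent.CarE
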