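import Fermat.Agent.CarE.Gauss3

/-!
# The model data of the modular function field of level `q ^ 2 M`
-/

set_option autoImplicit false
set_option linter.style.haveILetI false
set_option linter.unusedSectionVars false

noncomputable section

namespace Fermat.Agent.CarE

open ModularCurve Polynomial IntermediateField Fermat.Agent.ModPoly Fermat.Agent.Cusp
open Fermat.Agent.SemiSt Fermat.Agent.RedMod Fermat.Agent.Car

section IndepL

variable {k : Type*} [Field k] {q M : ℕ} [hq : Fact q.Prime] [NeZero M] [CharP k q]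
  (hM : (M : k) ≠ 0)

theorem indepL (P : Fin (dedekindPsi M) × Fin q → k[X])
    (h : ∑ x, aeval (jqModC k ^ q) (P x) * (cst k (monos hM x.1) * jqModC k ^ (x.2 : ℕ)) = 0) :
    P = 0 := by
  have h3 : ∀ i, ∑ a, expand k q (P (i, a)) * X ^ (a : ℕ) = 0 := by
    refine monos_indep hM (fun i => ∑ a, expand k q (P (i, a)) * X ^ (a : ℕ)) ?_
    rw [← h, Fintype.sum_prod_type]
    refine Finset.sum_congr rfl fun i _ => ?_
    rw [evT_eq_aeval, map_sum, Finset.sum_mul]
    refine Finset.sum_congr rfl fun a _ => ?_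
    rw [map_mul, map_pow, aeval_X, expand_aeval]
    ring
  funext x
  obtain ⟨i, a⟩ := x
  exact eq_zero_of_sum_expand hq.out.pos _ (h3 i) a

end IndepL

section G3

variable {R0 K0 A Ω k : Type*} [CommRing R0] [IsDomain R0] [Field K0] [Algebra R0 K0]
  [IsFractionRing R0 K0] [CommRing A] [IsDomain A] [ValuationRing A] [Field Ω]
  [IsAlgClosed Ω] [CharZero Ω]
  [Algebra A Ω] [IsFractionRing A Ω] [Field k] [Algebra A k] [Algebra K0 Ω] [Algebra R0 A]
  [Algebra R0 k] {q M : ℕ} [hq : Fact q.Prime] [NeZero M] [CharP k q]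
  (B : Base q R0 K0 A Ω k) (hco : q.Coprime M)
  {z : Aˣ} (hz : z ^ q = 1 ∧ z ≠ 1)

/-! ### separating elements -/

variable (A q) in
/-- expansions of the parameter -/
def st : Fin 3 → LaurentSeries A := fun _ => JA 1 (pp q * 1)

/-- the separating elements -/
def sp (K : Type*) [Field K] (q M : ℕ) [Fact q.Prime] [NeZero M] : Fin 3 → FF K (q ^ 2 * M)
  | 0 => (j1 K q M - jC K q M) * (j1 K q M - tt K q M ^ q)
  | 1 => (jC K q M - tt K q M ^ q) * (j1 K q M - tt K q M ^ q)
  | 2 => (j1 K q M - jC K q M) * (jC K q M - tt K q M ^ q)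

/-- expansions of the separating elements -/
def spL (q : ℕ) [Fact q.Prime] (z : Aˣ) : Fin 3 → Fin 3 → LaurentSeries A
  | 0 => (sj A q - sC q z) * (sj A q - st A q ^ q)
  | 1 => (sC q z - st A q ^ q) * (sj A q - st A q ^ q)
  | 2 => (sj A q - sC q z) * (sC q z - st A q ^ q)

theorem hasL_sp (i : Fin 3) : HasL B hco hz (sp K0 q M i) (spL q z i) := by
  have h1 := hasL_j1 B hco hz
  have h2 := hasL_jC B hco hz
  have h3 := (hasL_tt B hco hz).pow q
  match i with
  | 0 => exact (h1.sub h2).mul (h1.sub h3)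
  | 1 => exact (h2.sub h3).mul (h1.sub h3)
  | 2 => exact (h1.sub h2).mul (h2.sub h3)

theorem red_st (j : Fin 3) : redL A k (st A q j) = jqModC k ^ q := by
  rw [st, redL_JA_one, Jc_q]

theorem red_stq (j : Fin 3) : redL A k ((st A q ^ q) j) = jqModC k ^ (q * q) := by
  rw [Pi.pow_apply, map_pow, red_st, pow_mul]

theorem red_sj0 : redL A k (sj A q 0) = jqModC k := by
  change redL A k (JA 1 1) = _
  rw [redL_JA_one, Jc_one_one]

theorem red_sj1 : redL A k (sj A q 1) = jqModC k := red_sj0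

theorem red_sj2 : redL A k (sj A q 2) = jqModC k ^ (q * q) := by
  change redL A k (JA 1 _) = _
  rw [redL_JA_one, Jc_qq]

theorem red_sC0 : redL A k (sC q z 0) = jqModC k ^ (q * q) := by
  change redL A k (JA 1 _) = _
  rw [redL_JA_one, Jc_qq]

include hz in
theorem red_sC1 : redL A k (sC q z 1) = jqModC k := by
  change redL A k (JA z 1) = _
  rw [redL_JA_z hz, Jc_one_one]

theorem red_sC2 : redL A k (sC q z 2) = jqModC k := by
  change redL A k (JA 1 1) = _
  rw [redL_JA_one, Jc_one_one]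

theorem spL_mul (f g : Fin 3 → LaurentSeries A) (j : Fin 3) :
    redL A k ((f * g) j) = redL A k (f j) * redL A k (g j) := map_mul _ _ _

theorem spL_sub (f g : Fin 3 → LaurentSeries A) (j : Fin 3) :
    redL A k ((f - g) j) = redL A k (f j) - redL A k (g j) := map_sub _ _ _

include hz in
theorem red_spL_ne {i j : Fin 3} (h : i ≠ j) : redL A k (spL q z i j) = 0 := by
  have e0 := red_sj0 (A := A) (k := k) (q := q)
  have e1 := red_sj1 (A := A) (k := k) (q := q)
  have e2 := red_sj2 (A := A) (k := k) (q := q)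
  have f0 := red_sC0 (k := k) (q := q) (z := z)
  have f1 := red_sC1 (k := k) hz
  have f2 := red_sC2 (k := k) (q := q) (z := z)
  match i, j, h with
  | 0, 0, h => exact absurd rfl h
  | 1, 1, h => exact absurd rfl h
  | 2, 2, h => exact absurd rfl h
  | 0, 1, _ =>
    change redL A k (((sj A q - sC q z) * (sj A q - st A q ^ q)) 1) = 0
    rw [spL_mul, spL_sub, e1, f1, sub_self, zero_mul]
  | 0, 2, _ =>
    change redL A k (((sj A q - sC q z) * (sj A q - st A q ^ q)) 2) = 0
    rw [spL_mul, spL_sub (sj A q) (st A q ^ q), e2, red_stq, sub_self, mul_zero]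
  | 1, 0, _ =>
    change redL A k (((sC q z - st A q ^ q) * (sj A q - st A q ^ q)) 0) = 0
    rw [spL_mul, spL_sub, f0, red_stq, sub_self, zero_mul]
  | 1, 2, _ =>
    change redL A k (((sC q z - st A q ^ q) * (sj A q - st A q ^ q)) 2) = 0
    rw [spL_mul, spL_sub (sj A q) (st A q ^ q), e2, red_stq, sub_self, mul_zero]
  | 2, 0, _ =>
    change redL A k (((sj A q - sC q z) * (sC q z - st A q ^ q)) 0) = 0
    rw [spL_mul, spL_sub (sC q z) (st A q ^ q), f0, red_stq, sub_self, mul_zero]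
  | 2, 1, _ =>
    change redL A k (((sj A q - sC q z) * (sC q z - st A q ^ q)) 1) = 0
    rw [spL_mul, spL_sub, e1, f1, sub_self, zero_mul]

include hz in
theorem red_spL_self (i : Fin 3) : redL A k (spL q z i i) = ub k q * ub k q ∨
    redL A k (spL q z i i) = -(ub k q * ub k q) := by
  have e0 := red_sj0 (A := A) (k := k) (q := q)
  have e1 := red_sj1 (A := A) (k := k) (q := q)
  have e2 := red_sj2 (A := A) (k := k) (q := q)
  have f0 := red_sC0 (k := k) (q := q) (z := z)
  have f1 := red_sC1 (k := k) hz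
  have f2 := red_sC2 (k := k) (q := q) (z := z)
  match i with
  | 0 =>
    left
    change redL A k (((sj A q - sC q z) * (sj A q - st A q ^ q)) 0) = _
    rw [spL_mul, spL_sub, spL_sub, e0, f0, red_stq]
    rfl
  | 1 =>
    left
    change redL A k (((sC q z - st A q ^ q) * (sj A q - st A q ^ q)) 1) = _
    rw [spL_mul, spL_sub, spL_sub, e1, f1, red_stq]
    rfl
  | 2 =>
    right
    change redL A k (((sj A q - sC q z) * (sC q z - st A q ^ q)) 2) = _
    rw [spL_mul, spL_sub, spL_sub, e2, f2, red_stq, ub]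
    ring

include hz in
theorem red_spL_self_ne (i : Fin 3) : redL A k (spL q z i i) ≠ 0 := by
  have h := ub_ne_zero (k := k) (q := q)
  rcases red_spL_self (k := k) hz i with h1 | h1
  · rw [h1]; exact mul_ne_zero h h
  · rw [h1]; exact neg_ne_zero.2 (mul_ne_zero h h)

/-! ### the basis -/

variable (hM : (M : k) ≠ 0)

/-- basis elements from level `M` -/
def b0 (K : Type*) [Field K] (x : Fin (dedekindPsi M) × Fin q) : FF K (q ^ 2 * M) :=
  mm hM K q x.1 * j1 K q M ^ (x.2 : ℕ)

theorem hasL_b0 (x : Fin (dedekindPsi M) × Fin q) :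
    HasL B hco hz (b0 hM K0 x) (slow q (cst A (monos hM x.1)) * sj A q ^ (x.2 : ℕ)) :=
  (hasL_mm B hco hz hM x.1).mul ((hasL_j1 B hco hz).pow _)

/-- the basis elements -/
def bb : Fin 3 → Fin (dedekindPsi M) × Fin q → FF K0 (q ^ 2 * M)
  | 0 => b0 hM K0
  | 1 => b0 hM K0
  | 2 => fun x => w0 hco B.alg B.fixed (b0 hM K0 x)

theorem w0_mem {x : FF K0 (q ^ 2 * M)} (h : ∀ j, x ∈ (E3 B hco hz j).W) (j : Fin 3) :
    w0 hco B.alg B.fixed x ∈ (E3 B hco hz j).W := by
  match j with
  | 0 =>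
    change mphi (phi0 Ω) (w0 hco B.alg B.fixed x) ∈ WL A Ω k
    rw [mphi0_w0]
    exact h 2
  | 1 => exact (w0_mem_W1 B hco hz (h 1)).1
  | 2 =>
    change mphi (phi2 hco) (w0 hco B.alg B.fixed x) ∈ WL A Ω k
    rw [mphi2_w0]
    exact h 0

theorem bb_mem (i j : Fin 3) (x : Fin (dedekindPsi M) × Fin q) :
    bb B hco hM i x ∈ (E3 B hco hz j).W := by
  have h := (hasL_b0 B hco hz hM x).mem
  match i with
  | 0 => exact h j
  | 1 => exact h j
  | 2 => exact w0_mem B hco hz h j

theorem red_b0 (x : Fin (dedekindPsi M) × Fin q) :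
    redL A k ((slow q (cst A (monos hM x.1)) * sj A q ^ (x.2 : ℕ)) 0) =
      cst k (monos hM x.1) * jqModC k ^ (x.2 : ℕ) ∧
    redL A k ((slow q (cst A (monos hM x.1)) * sj A q ^ (x.2 : ℕ)) 1) =
      cst k (monos hM x.1) * jqModC k ^ (x.2 : ℕ) := by
  have h1 : ∀ j, redL A k ((slow q (cst A (monos hM x.1)) * sj A q ^ (x.2 : ℕ)) j) =
      redL A k (slow q (cst A (monos hM x.1)) j) * redL A k (sj A q j) ^ (x.2 : ℕ) := by
    intro j
    rw [spL_mul, Pi.pow_apply, map_pow]
  rw [h1, h1, red_sj0, red_sj1]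
  have h2 : redL A k (cst A (monos hM x.1)) = cst k (monos hM x.1) := coeffMap_cst _ _
  exact ⟨congrArg (· * _) h2, congrArg (· * _) h2⟩

/-! ### the valuation of `q` -/

/-- ramification indices -/
def ee (q : ℕ) : Fin 3 → ℕ
  | 0 => 1
  | 1 => q - 1
  | 2 => 1

theorem ee_pos (j : Fin 3) : 0 < ee q j := by
  have := hq.out.two_le
  match j with
  | 0 => exact one_pos
  | 1 => change 0 < q - 1; omega
  | 2 => exact one_pos

theorem ee_le (j : Fin 3) : ee q j ≤ q := by
  have := hq.out.two_le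
  match j with
  | 0 => change 1 ≤ q; omega
  | 1 => change q - 1 ≤ q; omega
  | 2 => change 1 ≤ q; omega

theorem exists_phi_q (j : Fin 3) : ∃ w, IsU A Ω k w ∧
    (E3 B hco hz j).φ (algebraMap R0 (FF K0 (q ^ 2 * M)) (q : R0)) =
      HahnSeries.C (algebraMap A Ω (E3 B hco hz j).ϖA) ^ (ee q j) * w := by
  have h1 := hasL_const B hco hz (M := M) (q : R0) j
  rw [map_natCast (algebraMap R0 A), coeffMap_C, map_natCast (algebraMap A Ω)] at h1
  match j with
  | 0 =>
    refine ⟨1, IsU.one, ?_⟩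
    rw [h1]
    change _ = HahnSeries.C (algebraMap A Ω (q : A)) ^ 1 * 1
    rw [pow_one, mul_one, map_natCast (algebraMap A Ω)]
  | 1 =>
    obtain ⟨ε, hε, heq⟩ := exists_lam_pow (A := A) (k := k) (hz_val hz)
    refine ⟨incL A Ω (HahnSeries.C ε), isU_incL ?_, ?_⟩
    · rw [coeffMap_C, Ne, map_eq_zero_iff _ HahnSeries.C_injective]
      exact hε
    · rw [h1]
      change _ = HahnSeries.C (algebraMap A Ω (1 - (z : A))) ^ (q - 1) * _
      rw [coeffMap_C, ← map_pow, ← map_mul, ← map_pow, ← map_mul, ← heq,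
        map_natCast (algebraMap A Ω)]
  | 2 =>
    refine ⟨1, IsU.one, ?_⟩
    rw [h1]
    change _ = HahnSeries.C (algebraMap A Ω (q : A)) ^ 1 * 1
    rw [pow_one, mul_one, map_natCast (algebraMap A Ω)]

theorem ϖ_mem (i j : Fin 3) : (E3 B hco hz (M := M) i).ϖ ∈ (E3 B hco hz j).W := by
  have h1 : ∀ j, ((q : FF K0 (q ^ 2 * M))) ∈ (E3 B hco hz j).W := fun j => natCast_mem _ _
  have h2 := ((hasL_j1 B hco hz).sub (hasL_jC B hco hz (M := M))).mem
  match i with
  | 0 => exact h1 j
  | 1 => exact h2 j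
  | 2 => exact h1 j

end G3

end Fermat.Agent.CarE
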