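import Fermat.Agent.CarE.VW0
import Fermat.Agent.CarM.Norm

/-!
# The norm operator over the small field
-/

set_option autoImplicit false
set_option linter.style.haveILetI false
set_option linter.unusedSectionVars false

noncomputable section

namespace Fermat.Agent.CarE

open Module ModularCurve Polynomial IntermediateField Fermat.Agent.ModPoly Fermat.Agent.Cusp
open Fermat.Agent.SemiSt Fermat.Agent.RedMod Fermat.Agent.Car Fermat.Agent.Red Fermat.Agent.CarM
open Fermat.Agent.HeckeProd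

section Prod

/-- the product of the `1 - ζ ^ b` -/
theorem prod_c_aux {R : Type*} [CommRing R] [IsDomain R] (n : ℕ) {ζ : R}
    (hζ : IsPrimitiveRoot ζ (n + 1)) :
    ∏ b : Fin (n + 1), (if (b : ℕ) = 0 then 1 else 1 - ζ ^ (b : ℕ)) = (n + 1 : R) := by
  rw [Fin.prod_univ_succ, ← hζ.prod_one_sub_pow_eq_order, Finset.prod_range]
  simp

theorem prod_c {R : Type*} [CommRing R] [IsDomain R] {q : ℕ} [hq : Fact q.Prime] {ζ : R}
    (hζ : IsPrimitiveRoot ζ q) :
    ∏ b : Fin q, (if (b : ℕ) = 0 then 1 else 1 - ζ ^ (b : ℕ)) = (q : R) := by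
  have h : ∀ n : ℕ, n ≠ 0 → ∀ ζ : R, IsPrimitiveRoot ζ n →
      ∏ b : Fin n, (if (b : ℕ) = 0 then 1 else 1 - ζ ^ (b : ℕ)) = (n : R) := by
    intro n hn ζ hζ
    obtain ⟨m, rfl⟩ := Nat.exists_eq_succ_of_ne_zero hn
    rw [prod_c_aux m hζ]
    push_cast
    ring
  exact h q hq.out.ne_zero ζ hζ

end Prod

variable {R0 K0 A Ω k : Type*} [CommRing R0] [IsDomain R0]
  [Field K0] [Algebra R0 K0]
  [IsFractionRing R0 K0] [CommRing A] [IsDomain A] [ValuationRing A] [Field Ω]
  [IsAlgClosed Ω] [CharZero Ω]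
  [Algebra A Ω] [IsFractionRing A Ω] [Field k] [Algebra A k] [Algebra K0 Ω] [Algebra R0 A]
  [Algebra R0 k] {q M : ℕ} [hq : Fact q.Prime] [NeZero M] [CharP k q]
  (B : Base q R0 K0 A Ω k) (hco : q.Coprime M)
  {z : Aˣ} (hz : z ^ q = 1 ∧ z ≠ 1)

section Sig

include B hz in
/-- the Galois group permutes the roots of unity of order `q` transitively -/
theorem exists_sig {ξ : Ω} (hξ : ξ ^ q = 1 ∧ ξ ≠ 1) :
    ∃ σ : Ω ≃ₐ[K0] Ω, σ (algebraMap A Ω z) = ξ := by
  haveI := B.alg
  haveI : IsAlgClosure K0 Ω := ⟨inferInstance, inferInstance⟩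
  haveI : Normal K0 Ω := IsAlgClosure.normal K0 Ω
  set ζ : Ω := algebraMap A Ω z with hζ
  have hζq : ζ ^ q = 1 := by rw [hζ, ← map_pow, (hz_val hz).1, map_one]
  have hζ1 : ζ ≠ 1 := by
    intro h
    apply (hz_val hz).2
    apply IsFractionRing.injective A Ω
    rw [map_one]; exact h
  have hint : IsIntegral K0 ζ := Algebra.IsIntegral.isIntegral ζ
  have hdvd : minpoly K0 ζ ∣ ∑ i ∈ Finset.range q, (X : K0[X]) ^ i := by
    apply minpoly.dvd
    exact aeval_geom_z (R0 := K0) ⟨hζq, hζ1⟩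
  have hdeg : q - 1 ≤ (minpoly K0 ζ).natDegree := by
    by_contra hlt
    push Not at hlt
    obtain ⟨b, hb, hb'⟩ := IsLocalization.integerNormalization_spec
      (nonZeroDivisors R0) (minpoly K0 ζ)
    set P := IsLocalization.integerNormalization (nonZeroDivisors R0) (minpoly K0 ζ) with hP
    have hb0 : algebraMap R0 K0 b ≠ 0 := by
      rw [Ne, map_eq_zero_iff _ (IsFractionRing.injective R0 K0)]
      exact nonZeroDivisors.ne_zero hb
    have hPm : P.map (algebraMap R0 K0) = C (algebraMap R0 K0 b) * minpoly K0 ζ := by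
      rw [hb', ← algebraMap_smul K0 b, smul_eq_C_mul]
    have hPd : P.natDegree < q - 1 := by
      rw [← natDegree_map_eq_of_injective (IsFractionRing.injective R0 K0), hPm,
        natDegree_C_mul hb0]
      exact hlt
    have hPz : aeval (z : A) P = 0 := by
      apply IsFractionRing.injective A Ω
      rw [map_zero]
      have h1 : algebraMap A Ω (aeval (z : A) P) = aeval ζ (P.map (algebraMap R0 K0)) := by
        rw [aeval_def, hom_eval₂, aeval_def, eval₂_map]
        congr 1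
        exact RingHom.ext B.comm
      rw [h1, hPm, map_mul, minpoly.aeval, mul_zero]
    have h2 := eq_zero_of_aeval_z (k := k) (hz_val hz) B.pu' hPd hPz
    have h3 : P.map (algebraMap R0 K0) = 0 := by rw [h2, Polynomial.map_zero]
    rw [hPm] at h3
    rcases mul_eq_zero.1 h3 with h4 | h4
    · exact hb0 (C_eq_zero.1 h4)
    · exact minpoly.ne_zero hint h4
  have heq : minpoly K0 ζ = ∑ i ∈ Finset.range q, (X : K0[X]) ^ i := by
    refine (eq_of_monic_of_dvd_of_natDegree_le (minpoly.monic hint)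
      (monic_geom_sum_X hq.out.ne_zero) hdvd ?_).symm
    rw [natDegree_geom]
    exact hdeg
  have hroot : aeval ξ (minpoly K0 ζ) = 0 := by
    rw [heq]
    exact aeval_geom_z (R0 := K0) hξ
  obtain ⟨σ, hσ⟩ := minpoly.exists_algEquiv_of_root (Algebra.IsAlgebraic.isAlgebraic ζ) hroot
  exact ⟨σ.symm, by rw [AlgEquiv.symm_apply_eq]; exact hσ.symm⟩

variable (Ω) in
include hz in
theorem prim_Ω : IsPrimitiveRoot (Units.map (algebraMap A Ω : A →* Ω) z) q := by
  have h1 := hzΩ Ω hz
  have h2 := orderOf_eq_prime h1.1 h1.2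
  exact h2 ▸ IsPrimitiveRoot.orderOf _

include B hz in
/-- the conjugates of the middle embedding -/
theorem exists_sig_mphi {b : Fin q} (hb : (b : ℕ) ≠ 0) : ∃ (τ : A →+* A) (σ : Ω →+* Ω),
    (∀ a, σ (algebraMap A Ω a) = algebraMap A Ω (τ a)) ∧
    (∀ a, algebraMap A k (τ a) = algebraMap A k a) ∧
    σ (algebraMap A Ω z) = (algebraMap A Ω z) ^ (b : ℕ) ∧
    ∀ x : FF K0 (q ^ 2 * M), mphi (phi1 hco (root_ne (prim_Ω Ω hz) hb)) x =
      coeffMap σ (mphi (phi1 hco (hzΩ Ω hz)) x) := by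
  have hξ := root_ne (prim_Ω Ω hz) hb
  obtain ⟨σ, hσ⟩ := exists_sig (ξ := (algebraMap A Ω z) ^ (b : ℕ)) B hz (by
    refine ⟨congrArg Units.val hξ.1, fun h => hξ.2 (Units.ext h)⟩)
  choose f hf hf' using B.inert σ
  have hinj := IsFractionRing.injective A Ω
  let τ : A →+* A :=
    { toFun := f
      map_one' := hinj (by rw [← hf, map_one, map_one])
      map_zero' := hinj (by rw [← hf, map_zero, map_zero])
      map_mul' := fun a b => hinj (by rw [← hf, map_mul, map_mul, hf, hf, map_mul])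
      map_add' := fun a b => hinj (by rw [← hf, map_add, map_add, hf, hf, map_add]) }
  refine ⟨τ, (σ.toRingEquiv : Ω →+* Ω), hf, hf', hσ, fun x => ?_⟩
  rw [mphi1_conj]
  congr 1
  rw [phi1_congr hco _ hξ (hz_map (hzΩ Ω hz) σ.toRingEquiv)]
  apply Units.ext
  exact hσ.symm

end Sig

section NN0

variable {K : Type*} [Field K] [Algebra K Ω]
  (halg : Algebra.IsAlgebraic K Ω)
  (hfix : ∀ x : Ω, (∀ σ : Ω ≃ₐ[K] Ω, σ x = x) → x ∈ Set.range (algebraMap K Ω))

include hco halg hfix in
theorem exists_NN0 (x : FF K (q ^ 2 * M)) : ∃ y : FF K (q ^ 2 * M),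
    emb K Ω (q ^ 2 * M) y = NL Ω q M (emb K Ω (q ^ 2 * M) x) := by
  apply exists_of_fixed hfix
  intro σ
  have h := act_NL hco σ.toRingEquiv (emb K Ω (q ^ 2 * M) x)
  refine h.trans (congrArg (NL Ω q M) ?_)
  exact gal_emb σ x

/-- **the norm operator over the small field** -/
def NN0 : FF K (q ^ 2 * M) →* FF K (q ^ 2 * M) where
  toFun x := (exists_NN0 hco halg hfix x).choose
  map_one' := by
    apply emb_injective (K := K) (Ω := Ω)
    rw [(exists_NN0 hco halg hfix 1).choose_spec, map_one, map_one]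
  map_mul' x y := by
    apply emb_injective (K := K) (Ω := Ω)
    rw [(exists_NN0 hco halg hfix (x * y)).choose_spec, map_mul, map_mul, map_mul,
      (exists_NN0 hco halg hfix x).choose_spec, (exists_NN0 hco halg hfix y).choose_spec]

theorem emb_NN0 (x : FF K (q ^ 2 * M)) : emb K Ω (q ^ 2 * M) (NN0 hco halg hfix x) =
    NL Ω q M (emb K Ω (q ^ 2 * M) x) := (exists_NN0 hco halg hfix x).choose_spec

theorem NN0_K (c : K) : NN0 hco halg hfix (algebraMap K (FF K (q ^ 2 * M)) c) =
    algebraMap K (FF K (q ^ 2 * M)) (c ^ q) := by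
  apply emb_injective (K := K) (Ω := Ω)
  rw [emb_NN0, emb_algebraMap, NL_algebraMap hco, emb_algebraMap, map_pow (algebraMap K Ω)]

end NN0

end Fermat.Agent.CarE
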