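import Fermat.Agent.CarE.Mod3

/-!
# The model data of the modular function field of level `q ^ 2 M`, continued
-/

set_option autoImplicit false
set_option linter.style.haveILetI false
set_option linter.unusedSectionVars false

noncomputable section

namespace Fermat.Agent.CarE

open ModularCurve Polynomial IntermediateField Fermat.Agent.ModPoly Fermat.Agent.Cusp
open Fermat.Agent.SemiSt Fermat.Agent.RedMod Fermat.Agent.Car

variable {R0 K0 A Ω k : Type*} [CommRing R0] [IsDomain R0] [Field K0] [Algebra R0 K0]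
  [IsFractionRing R0 K0] [CommRing A] [IsDomain A] [ValuationRing A] [Field Ω]
  [IsAlgClosed Ω] [CharZero Ω]
  [Algebra A Ω] [IsFractionRing A Ω] [Field k] [Algebra A k] [Algebra K0 Ω] [Algebra R0 A]
  [Algebra R0 k] {q M : ℕ} [hq : Fact q.Prime] [NeZero M] [CharP k q]
  (B : Base q R0 K0 A Ω k) (hco : q.Coprime M)
  {z : Aˣ} (hz : z ^ q = 1 ∧ z ≠ 1) (hM : (M : k) ≠ 0)
  (κ : IntermediateField k (LaurentSeries k))
  (hκ : ∀ j (x : FF K0 (q ^ 2 * M)) (h : x ∈ (E3 B hco hz j).W),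
    (E3 B hco hz j).πW ⟨x, h⟩ ∈ κ)

/-- the three components -/
def C3 (j : Fin 3) : Comp (FF K0 (q ^ 2 * M)) κ := (E3 B hco hz j).comp κ (hκ j)

theorem C3_W (j : Fin 3) : (C3 B hco hz κ hκ j).W = (E3 B hco hz j).W := rfl

variable {B hco hz} in
theorem coe_r_hasL {x : FF K0 (q ^ 2 * M)} {s : Fin 3 → LaurentSeries A}
    (h : HasL B hco hz x s) (j : Fin 3) :
    ((C3 B hco hz κ hκ j).r x : LaurentSeries k) = redL A k (s j) :=
  (E3 B hco hz j).coe_r_of_eq κ (hκ j) (h j)

variable {B hco hz κ hκ} in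
theorem r_eq_zero_of_hasL {x : FF K0 (q ^ 2 * M)} {s : Fin 3 → LaurentSeries A}
    (h : HasL B hco hz x s) {j : Fin 3} (h0 : redL A k (s j) = 0) :
    (C3 B hco hz κ hκ j).Ge 1 x := by
  rw [← Comp.r_eq_zero_iff (C := C3 B hco hz κ hκ j) (h.mem j)]
  apply Subtype.ext
  rw [coe_r_hasL κ hκ h, h0]
  rfl

theorem coe_r_tt (j : Fin 3) : ((C3 B hco hz κ hκ j).r (tt K0 q M) : LaurentSeries k) =
    jqModC k ^ q := by
  rw [coe_r_hasL κ hκ (hasL_tt B hco hz) j, redL_JA_one, Jc_q]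

theorem coe_aeval_κ (x : κ) (P : k[X]) : ((aeval x P : κ) : LaurentSeries k) =
    aeval (x : LaurentSeries k) P := (aeval_algHom_apply κ.val x P).symm

/-- the residues of an element and of its conjugate -/
theorem coe_r_w0 (x : FF K0 (q ^ 2 * M)) :
    ((C3 B hco hz κ hκ 2).r (w0 hco B.alg B.fixed x) : LaurentSeries k) =
      (C3 B hco hz κ hκ 0).r x := by
  by_cases h : x ∈ (E3 B hco hz 0).W
  · have h' : w0 hco B.alg B.fixed x ∈ (E3 B hco hz 2).W := by
      change mphi (phi2 hco) (w0 hco B.alg B.fixed x) ∈ WL A Ω k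
      rw [mphi2_w0]
      exact h
    have e1 := (E3 B hco hz 0).coe_r κ (hκ 0) h
    have e2 := (E3 B hco hz 2).coe_r κ (hκ 2) h'
    have e3 : ∀ g, (⟨(E3 B hco hz 2).φ (w0 hco B.alg B.fixed x), h'⟩ : WL A Ω k) =
      ⟨(E3 B hco hz 0).φ x, g⟩ := fun g => Subtype.ext (mphi2_w0 hco B.alg B.fixed x)
    exact e2.trans ((congrArg (πL A Ω k) (e3 h)).trans e1.symm)
  · have h' : w0 hco B.alg B.fixed x ∉ (E3 B hco hz 2).W := by
      change mphi (phi2 hco) (w0 hco B.alg B.fixed x) ∉ WL A Ω k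
      rw [mphi2_w0]
      exact h
    have e1 : (C3 B hco hz κ hκ 0).r x = 0 := dif_neg h
    have e2 : (C3 B hco hz κ hκ 2).r (w0 hco B.alg B.fixed x) = 0 := dif_neg h'
    rw [e1, e2]

theorem coe_r_bb (j : Fin 3) (x : Fin (dedekindPsi M) × Fin q) :
    ((C3 B hco hz κ hκ j).r (bb B hco hM j x) : LaurentSeries k) =
      cst k (monos hM x.1) * jqModC k ^ (x.2 : ℕ) := by
  have h := hasL_b0 B hco hz hM x
  have h1 := red_b0 (A := A) (k := k) hM x
  match j with
  | 0 => exact (coe_r_hasL κ hκ h 0).trans h1.1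
  | 1 => exact (coe_r_hasL κ hκ h 1).trans h1.2
  | 2 => exact (coe_r_w0 B hco hz κ hκ _).trans ((coe_r_hasL κ hκ h 0).trans h1.1)

include B in
theorem q_R0_ne : (q : R0) ≠ 0 := by
  intro h
  have h1 : (q : A) = 0 := by rw [← map_natCast (algebraMap R0 A), h, map_zero]
  exact q_ne A Ω h1

/-- **the model data** -/
def pm : PreM R0 (FF K0 (q ^ 2 * M)) k κ (Fin (dedekindPsi M) × Fin q) (Fin 3) where
  comp := C3 B hco hz κ hκ
  algebraMap_mem j a := (hasL_const B hco hz a).mem j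
  r_algebraMap j a := by
    apply Subtype.ext
    rw [coe_r_hasL κ hκ (hasL_const B hco hz a), coeffMap_C, ← B.commk, ← algebraMap_eq_C]
    rfl
  hk := B.surj
  p := (q : R0)
  p_ne := q_R0_ne B
  p_red := by rw [B.commk, map_natCast, red_q]
  hp a ha := by
    rcases eq_or_ne a 0 with rfl | h0
    · exact ⟨0, by rw [mul_zero]⟩
    obtain ⟨n, u, hu, rfl⟩ := B.pu a h0
    rcases n with _ | n
    · rw [pow_zero, one_mul] at ha
      exact absurd ha hu
    · exact ⟨(q : R0) ^ n * u, by rw [pow_succ']; ring⟩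
  e := ee q
  e_pos := ee_pos
  v_p j := by
    obtain ⟨w, hw, h⟩ := exists_phi_q B hco hz (M := M) j
    exact (E3 B hco hz j).v_nat κ (hκ j) hw h
  t := tt K0 q M
  ht := (hasL_tt B hco hz).mem
  trans j := by
    rw [transcendental_iff]
    intro P hP
    by_contra h0
    have h1 := congrArg (fun x : κ => (x : LaurentSeries k)) hP
    change ((aeval ((C3 B hco hz κ hκ j).r (tt K0 q M)) P : κ) : LaurentSeries k) = 0 at h1
    rw [coe_aeval_κ, coe_r_tt] at h1
    exact (isUnit_aeval_pair (q := q) h0).2 h1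
  b := bb B hco hM
  hb i x j := bb_mem B hco hz hM i j x
  indep j P hP := by
    apply indepL hM P
    have h1 := congrArg κ.val hP
    rw [map_sum, map_zero] at h1
    rw [← h1]
    refine Finset.sum_congr rfl fun x _ => ?_
    rw [map_mul]
    change _ = ((aeval ((C3 B hco hz κ hκ j).r (tt K0 q M)) (P x) : κ) : LaurentSeries k) *
      ((C3 B hco hz κ hκ j).r (bb B hco hM j x) : LaurentSeries k)
    rw [coe_aeval_κ, coe_r_tt, coe_r_bb]
  ϖ j := (E3 B hco hz j).ϖ
  hϖ := ϖ_mem B hco hz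
  v_ϖ j := (C3 B hco hz κ hκ j).v_ϖ
  c i := sp K0 q M i ^ q
  hc i j := ((hasL_sp B hco hz i).pow q).mem j
  r_c j := by
    intro h0
    have h1 := coe_r_hasL κ hκ ((hasL_sp B hco hz j (M := M)).pow q) j
    rw [h0, Pi.pow_apply, map_pow] at h1
    exact pow_ne_zero q (red_spL_self_ne (k := k) hz j) h1.symm
  c_ge i j hij := by
    have h1 : (C3 B hco hz κ hκ j).Ge 1 (sp K0 q M i) :=
      r_eq_zero_of_hasL (hasL_sp B hco hz i) (red_spL_ne hz hij)
    refine (h1.pow q).mono ?_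
    rw [mul_one]
    exact_mod_cast ee_le j

end Fermat.Agent.CarE
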