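import Fermat.Agent.Car.Model

/-!
# Construction of models with several components
-/

set_option autoImplicit false
set_option linter.style.haveILetI false
set_option linter.unusedSectionVars false

noncomputable section

namespace Fermat.Agent.CarE

open Module Polynomial IntermediateField Fermat.Agent.Red Fermat.Agent.Car

/-- the data for a model with several components -/
structure PreM (A F k κ : Type*) [CommRing A] [Field F] [Algebra A F] [Field k] [Algebra A k]
    [Field κ] [Algebra k κ] (I J : Type*) [Fintype I] [Fintype J] where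
  comp : J → Comp F κ
  algebraMap_mem : ∀ j a, algebraMap A F a ∈ (comp j).W
  r_algebraMap : ∀ j a, (comp j).r (algebraMap A F a) = algebraMap k κ (algebraMap A k a)
  hk : Function.Surjective (algebraMap A k)
  p : A
  p_ne : p ≠ 0
  p_red : algebraMap A k p = 0
  hp : ∀ a : A, algebraMap A k a = 0 → ∃ b, a = p * b
  e : J → ℕ
  e_pos : ∀ j, 0 < e j
  v_p : ∀ j, (comp j).v (algebraMap A F p) = e j
  t : F
  ht : ∀ j, t ∈ (comp j).W
  trans : ∀ j, Transcendental k ((comp j).r t)
  b : J → I → F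
  hb : ∀ i x j, b i x ∈ (comp j).W
  indep : ∀ j (P : I → k[X]), ∑ i, aeval ((comp j).r t) (P i) * (comp j).r (b j i) = 0 → P = 0
  ϖ : J → F
  hϖ : ∀ i j, ϖ i ∈ (comp j).W
  v_ϖ : ∀ j, (comp j).v (ϖ j) = 1
  c : J → F
  hc : ∀ i j, c i ∈ (comp j).W
  r_c : ∀ j, (comp j).r (c j) ≠ 0
  c_ge : ∀ i j, i ≠ j → (comp j).Ge (e j) (c i)

namespace PreM

variable {A F k κ : Type*} [CommRing A] [Field F] [Algebra A F] [Field k] [Algebra A k]
    [Field κ] [Algebra k κ] {I J : Type*} [Fintype I] [Fintype J] (M : PreM A F k κ I J)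

/-- the ring of elements integral at all components -/
def W0 : Subalgebra A F where
  carrier := {x | ∀ j, x ∈ (M.comp j).W}
  mul_mem' hx hy j := mul_mem (hx j) (hy j)
  one_mem' _ := one_mem _
  add_mem' hx hy j := add_mem (hx j) (hy j)
  zero_mem' _ := zero_mem _
  algebraMap_mem' a j := M.algebraMap_mem j a

theorem mem_W0 {x : F} : x ∈ M.W0 ↔ ∀ j, x ∈ (M.comp j).W := Iff.rfl

/-- the special fibre -/
def R : Type _ := M.W0 ⧸ (Ideal.span {algebraMap A M.W0 M.p} : Ideal M.W0)

instance : CommRing M.R :=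
  inferInstanceAs (CommRing (M.W0 ⧸ (Ideal.span {algebraMap A M.W0 M.p} : Ideal M.W0)))

instance : Algebra A M.R :=
  inferInstanceAs (Algebra A (M.W0 ⧸ (Ideal.span {algebraMap A M.W0 M.p} : Ideal M.W0)))

/-- the reduction map -/
def qt : M.W0 →ₐ[A] M.R :=
  Ideal.Quotient.mkₐ A (Ideal.span {algebraMap A M.W0 M.p} : Ideal M.W0)

theorem qt_surjective : Function.Surjective M.qt :=
  Ideal.Quotient.mkₐ_surjective A _

theorem qt_eq_zero_iff {x : M.W0} : M.qt x = 0 ↔ ∃ y : M.W0, x = algebraMap A M.W0 M.p * y := by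
  have h1 : M.qt x = 0 ↔ x ∈ (Ideal.span {algebraMap A M.W0 M.p} : Ideal M.W0) :=
    Ideal.Quotient.eq_zero_iff_mem
  rw [h1, Ideal.mem_span_singleton]
  exact Iff.rfl

/-- the structure map of the residue field -/
def kR : k →+* M.R :=
  (Ideal.Quotient.lift (RingHom.ker (algebraMap A k)) (algebraMap A M.R) (by
    intro a ha
    rw [RingHom.mem_ker] at ha
    obtain ⟨b, rfl⟩ := M.hp a ha
    have h1 : M.qt (algebraMap A M.W0 (M.p * b)) = algebraMap A M.R (M.p * b) :=
      M.qt.commutes _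
    rw [← h1, M.qt_eq_zero_iff]
    exact ⟨algebraMap A M.W0 b, map_mul _ _ _⟩)).comp
    (RingHom.quotientKerEquivOfSurjective M.hk).symm.toRingHom

theorem kR_apply (a : A) : M.kR (algebraMap A k a) = algebraMap A M.R a := by
  have h1 : (RingHom.quotientKerEquivOfSurjective M.hk).symm (algebraMap A k a) =
      Ideal.Quotient.mk (RingHom.ker (algebraMap A k)) a := by
    rw [RingEquiv.symm_apply_eq]
    rfl
  have h2 : (RingHom.quotientKerEquivOfSurjective M.hk).symm.toRingHom (algebraMap A k a) =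
      Ideal.Quotient.mk (RingHom.ker (algebraMap A k)) a := h1
  rw [kR, RingHom.comp_apply, h2, Ideal.Quotient.lift_mk]

instance : Algebra k M.R := M.kR.toAlgebra

theorem algebraMap_k (a : A) : algebraMap k M.R (algebraMap A k a) = algebraMap A M.R a :=
  M.kR_apply a

instance : IsScalarTower A k M.R := IsScalarTower.of_algebraMap_eq fun a => (M.kR_apply a).symm

/-- the residue map on the ring of integral elements -/
def res (j : J) : M.W0 →+* κ := (M.comp j).π.comp (Subring.inclusion (fun _ hx => hx j) :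
  M.W0.toSubring →+* (M.comp j).W)

theorem res_apply (j : J) (x : M.W0) : M.res j x = (M.comp j).r (x : F) :=
  (Comp.r_eq (M.mem_W0.1 x.2 j)).symm

theorem res_p (j : J) : M.res j (algebraMap A M.W0 M.p) = 0 := by
  rw [res_apply]
  refine (M.r_algebraMap j M.p).trans ?_
  rw [M.p_red, map_zero]

/-- the residue map on the special fibre -/
def ρ (j : J) : M.R →ₐ[k] κ where
  __ := (Ideal.Quotient.lift _ (M.res j) (by
    intro x hx
    rw [Ideal.mem_span_singleton] at hx
    obtain ⟨y, rfl⟩ := hx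
    rw [map_mul, res_p, zero_mul]) : M.R →+* κ)
  commutes' c := by
    obtain ⟨a, rfl⟩ := M.hk c
    rw [algebraMap_k]
    change Ideal.Quotient.lift _ (M.res j) _ (Ideal.Quotient.mk _ (algebraMap A M.W0 a)) = _
    rw [Ideal.Quotient.lift_mk, res_apply]
    exact M.r_algebraMap j a

theorem ρ_qt (j : J) (x : M.W0) : M.ρ j (M.qt x) = (M.comp j).r (x : F) := M.res_apply j x

theorem isUnit_of_res {x : M.W0} (h : ∀ j, (M.comp j).r (x : F) ≠ 0) [Nonempty J] :
    IsUnit x := by
  have hx0 : (x : F) ≠ 0 := by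
    obtain ⟨j⟩ := ‹Nonempty J›
    intro h0
    apply h j
    rw [h0, Comp.r_zero]
  have hinv : (x : F)⁻¹ ∈ M.W0 := by
    intro j
    have h1 := (Comp.r_ne_zero_iff hx0).1 (h j)
    exact Comp.mem_of_v (by rw [Comp.v_inv, h1, neg_zero])
  exact ⟨⟨x, ⟨_, hinv⟩, Subtype.ext (mul_inv_cancel₀ hx0), Subtype.ext (inv_mul_cancel₀ hx0)⟩, rfl⟩

/-- the parameter in the ring of integral elements -/
def tW : M.W0 := ⟨M.t, M.ht⟩

theorem coe_aeval (P : A[X]) : ((aeval M.tW P : M.W0) : F) = aeval M.t P :=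
  (aeval_algHom_apply M.W0.val M.tW P).symm

theorem aeval_mem (P : A[X]) : aeval M.t P ∈ M.W0 := by
  rw [← coe_aeval]; exact Subtype.prop _

theorem r_aeval (j : J) (P : A[X]) :
    (M.comp j).r (aeval M.t P) = aeval ((M.comp j).r M.t) (P.map (algebraMap A k)) := by
  rw [← M.coe_aeval, ← M.ρ_qt, ← aeval_algHom_apply, ← aeval_map_algebraMap k,
    ← aeval_algHom_apply, M.ρ_qt]
  rfl

/-- index type of the basis -/
abbrev IX (I : Type*) {J : Type*} (e : J → ℕ) := Σ j : J, Fin (e j) × I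

/-- the basis -/
def y (x : IX I M.e) : F := M.c x.1 * M.ϖ x.1 ^ (x.2.1 : ℕ) * M.b x.1 x.2.2

theorem y_mem (x : IX I M.e) : M.y x ∈ M.W0 := fun j =>
  mul_mem (mul_mem (M.hc _ j) (pow_mem (M.hϖ _ j) _)) (M.hb _ _ j)

include M in
theorem exists_lift (P : k[X]) : ∃ Q : A[X], Q.map (algebraMap A k) = P ∧ (P = 0 → Q = 0) := by
  by_cases h : P = 0
  · exact ⟨0, by rw [Polynomial.map_zero, h], fun _ => rfl⟩
  · obtain ⟨Q, hQ⟩ := Polynomial.map_surjective _ M.hk P
    exact ⟨Q, hQ, fun h' => absurd h' h⟩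

theorem r_sum {ι : Type*} (j : J) (s : Finset ι) (f : ι → F) (hf : ∀ i ∈ s, f i ∈ (M.comp j).W) :
    (M.comp j).r (∑ i ∈ s, f i) = ∑ i ∈ s, (M.comp j).r (f i) := by
  classical
  induction s using Finset.induction_on with
  | empty => simp
  | insert a s ha ih =>
    rw [Finset.sum_insert ha, Finset.sum_insert ha, Comp.r_add (hf a (Finset.mem_insert_self _ _))
      (sum_mem fun i hi => hf i (Finset.mem_insert_of_mem hi)),
      ih fun i hi => hf i (Finset.mem_insert_of_mem hi)]

theorem indep_aux (Q : IX I M.e → A[X])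
    (hQ0 : ∀ x, (Q x).map (algebraMap A k) = 0 → Q x = 0) (w : F) (hw : w ∈ M.W0)
    (h : ∑ x, aeval M.t (Q x) * M.y x = algebraMap A F M.p * w) (j : J) (n : ℕ) (hn : n < M.e j) :
    ∀ i : I, (Q ⟨j, ⟨n, hn⟩, i⟩).map (algebraMap A k) = 0 := by
  classical
  induction n using Nat.strong_induction_on with
  | _ n ih =>
    let em : I ↪ IX I M.e := ⟨fun i => ⟨j, ⟨n, hn⟩, i⟩, fun a b hab => by
      have h1 := congrArg (fun x : IX I M.e => x.2.2) hab
      exact h1⟩
    set S : Finset (IX I M.e) := Finset.univ.map em with hS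
    have h1 : (M.comp j).Ge ((n : ℤ) + 1) (∑ x ∈ Finset.univ \ S, aeval M.t (Q x) * M.y x) := by
      refine Comp.Ge.sum fun x hx => ?_
      have hxS : x ∉ S := (Finset.mem_sdiff.1 hx).2
      have hae : (M.comp j).Ge 0 (aeval M.t (Q x)) := Comp.ge_of_mem (M.aeval_mem _ j)
      obtain ⟨j', ⟨s, hs⟩, i⟩ := x
      by_cases hj : j' = j
      · subst hj
        rcases lt_trichotomy s n with h2 | h2 | h2
        · have h3 := hQ0 _ (ih s h2 hs i)
          rw [h3, map_zero, zero_mul]
          exact Comp.ge_zero _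
        · exfalso
          apply hxS
          rw [hS, Finset.mem_map]
          subst h2
          exact ⟨i, Finset.mem_univ _, rfl⟩
        · have h3 : (M.comp j').Ge 1 (M.ϖ j') := Comp.ge_of_le (M.v_ϖ j').ge
          have h4 := h3.pow s
          have h5 : (M.comp j').Ge 0 (M.c j') := Comp.ge_of_mem (M.hc _ _)
          have h6 : (M.comp j').Ge 0 (M.b j' i) := Comp.ge_of_mem (M.hb _ _ _)
          refine (hae.mul ((h5.mul h4).mul h6)).mono ?_
          have : (n : ℤ) + 1 ≤ s := by exact_mod_cast h2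
          linarith
      · have h3 := M.c_ge j' j hj
        have h4 : (M.comp j).Ge 0 (M.ϖ j' ^ s) := Comp.ge_of_mem (pow_mem (M.hϖ _ _) _)
        have h6 : (M.comp j).Ge 0 (M.b j' i) := Comp.ge_of_mem (M.hb _ _ _)
        refine (hae.mul ((h3.mul h4).mul h6)).mono ?_
        have : (n : ℤ) + 1 ≤ M.e j := by exact_mod_cast hn
        linarith
    have h2 : (M.comp j).Ge ((n : ℤ) + 1) (algebraMap A F M.p * w) := by
      have h3 : (M.comp j).Ge (M.e j) (algebraMap A F M.p) := Comp.ge_of_le (M.v_p j).ge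
      have h4 : (M.comp j).Ge 0 w := Comp.ge_of_mem (hw j)
      refine (h3.mul h4).mono ?_
      have : (n : ℤ) + 1 ≤ M.e j := by exact_mod_cast hn
      linarith
    have h3 : ∑ x ∈ S, aeval M.t (Q x) * M.y x =
        algebraMap A F M.p * w - ∑ x ∈ Finset.univ \ S, aeval M.t (Q x) * M.y x := by
      rw [← h, ← Finset.sum_sdiff (Finset.subset_univ S)]
      ring
    set T : F := ∑ i : I, aeval M.t (Q ⟨j, ⟨n, hn⟩, i⟩) * M.b j i with hT
    have h4 : ∑ x ∈ S, aeval M.t (Q x) * M.y x = M.ϖ j ^ n * (M.c j * T) := by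
      rw [hS, Finset.sum_map, hT, Finset.mul_sum, Finset.mul_sum]
      refine Finset.sum_congr rfl fun i _ => ?_
      change aeval M.t (Q ⟨j, ⟨n, hn⟩, i⟩) * (M.c j * M.ϖ j ^ n * M.b j i) = _
      ring
    have hTm : T ∈ (M.comp j).W := sum_mem fun i _ => mul_mem (M.aeval_mem _ j) (M.hb _ _ _)
    have h5 : (M.comp j).Ge ((n : ℤ) + 1) (M.ϖ j ^ n * (M.c j * T)) := by
      rw [← h4, h3]
      exact h2.sub h1
    have hϖ0 : M.ϖ j ≠ 0 := by
      intro h0
      have := M.v_ϖ j
      rw [h0, Comp.v_zero] at this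
      exact zero_ne_one this
    have h6 : (M.comp j).Ge 1 (M.c j * T) := by
      have h7 : (M.comp j).Ge (-(n : ℤ)) (M.ϖ j ^ (-(n : ℤ))) :=
        Comp.ge_of_le (by rw [Comp.v_zpow, M.v_ϖ, mul_one])
      have h8 := h7.mul h5
      rw [← mul_assoc, zpow_neg, zpow_natCast, inv_mul_cancel₀ (pow_ne_zero _ hϖ0), one_mul] at h8
      refine h8.mono ?_
      linarith
    have h7 : (M.comp j).r (M.c j * T) = 0 := (Comp.r_eq_zero_iff (mul_mem (M.hc _ _) hTm)).2 h6
    rw [Comp.r_mul (M.hc _ _) hTm] at h7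
    have h8 : (M.comp j).r T = 0 := (mul_eq_zero.1 h7).resolve_left (M.r_c j)
    have h9 := M.indep j (fun i => (Q ⟨j, ⟨n, hn⟩, i⟩).map (algebraMap A k)) (by
      rw [← h8, hT, M.r_sum j _ _ (fun i _ => mul_mem (M.aeval_mem _ j) (M.hb _ _ _))]
      refine Finset.sum_congr rfl fun i _ => ?_
      rw [Comp.r_mul (M.aeval_mem _ j) (M.hb _ _ _), M.r_aeval])
    exact fun i => congrFun h9 i

theorem aeval_qt (P : A[X]) : aeval (M.qt M.tW) (P.map (algebraMap A k)) = M.qt (aeval M.tW P) := by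
  rw [aeval_map_algebraMap, aeval_algHom_apply]

/-- the Gauss data -/
def gauss (K : Type*) [Field K] [Nonempty J] : GaussData A K F k M.R (IX I M.e) where
  W := M.W0
  π := M.qt
  t := M.t
  ht := M.ht
  y := M.y
  hy := M.y_mem
  isUnit_of x hx := by
    obtain ⟨z, hz⟩ := hx.exists_right_inv
    obtain ⟨z, rfl⟩ := M.qt_surjective z
    refine M.isUnit_of_res fun j h0 => ?_
    have h1 := congrArg (M.ρ j) hz
    rw [map_mul, ρ_qt, h0, zero_mul, map_one] at h1
    exact zero_ne_one h1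
  indep P hP := by
    choose Q hQ hQ0 using M.exists_lift
    rw [finsum_eq_sum_of_fintype] at hP
    have h1 : M.qt (∑ x, aeval M.tW (Q (P x)) * ⟨M.y x, M.y_mem x⟩) = 0 := by
      rw [map_sum, ← hP]
      refine Finset.sum_congr rfl fun x _ => ?_
      rw [map_mul, ← M.aeval_qt, hQ]
      rfl
    obtain ⟨w, hw⟩ := M.qt_eq_zero_iff.1 h1
    have h2 := congrArg Subtype.val hw
    have h3 : ∑ x, aeval M.t (Q (P x)) * M.y x = algebraMap A F M.p * (w : F) := by
      refine Eq.trans ?_ h2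
      push_cast
      refine Finset.sum_congr rfl fun x _ => ?_
      rfl
    funext x
    obtain ⟨j, ⟨s, hs⟩, i⟩ := x
    have h4 := M.indep_aux (fun x => Q (P x)) (fun x hx => hQ0 _ (by rw [← hQ (P x)]; exact hx))
      w w.2 h3 j s hs i
    rw [hQ] at h4
    exact h4
  isUnit_t q hq := by
    obtain ⟨Q, hQ⟩ := Polynomial.map_surjective _ M.hk q
    have h1 : IsUnit (aeval M.tW Q) := by
      refine M.isUnit_of_res fun j => ?_
      rw [M.coe_aeval, M.r_aeval, hQ]
      intro h0
      exact hq ((transcendental_iff.1 (M.trans j)) q h0)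
    have h2 := h1.map M.qt
    rw [← M.aeval_qt, hQ] at h2
    exact h2

theorem card_IX (I : Type*) {J : Type*} [Fintype I] [Fintype J] (e : J → ℕ) :
    Fintype.card (IX I e) = ∑ j, e j * Fintype.card I := by
  rw [Fintype.card_sigma]
  refine Finset.sum_congr rfl fun j _ => ?_
  rw [Fintype.card_prod, Fintype.card_fin]

end PreM

section ToC

variable {A K F k κ Ω L : Type*} [CommRing A] [IsDomain A] [IsDiscreteValuationRing A]
    [Field K] [Algebra A K] [IsFractionRing A K] [Field F] [Algebra K F] [Algebra A F]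
    [IsScalarTower A K F] [Field k] [Algebra A k]
    [Field κ] [Algebra k κ] [Field Ω] [Field L] [Algebra Ω L] [Algebra K Ω]
    {I J : Type*} [Fintype I] [Fintype J] [Nonempty J] (M : PreM A F k κ I J)
    (D : Desc K F Ω L)
    (hspan : ∀ x : F, ∃ q : K[X], q ≠ 0 ∧ ∃ P : PreM.IX I M.e → K[X],
      aeval M.t q * x = (M.gauss K).comb P)

/-- **the model** -/
def PreM.toCModel : CModel A K F k M.R κ Ω L (PreM.IX I M.e) J where
  toDesc := D
  G := M.gauss K
  hk := M.hk
  hspan := hspan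
  comp := M.comp
  mem_W _ := Iff.rfl
  p := M.p
  p_ne := M.p_ne
  hp := M.hp
  e := M.e
  e_pos := M.e_pos
  v_p := M.v_p
  ρ := M.ρ
  ρ_π j x hx := M.ρ_qt j ⟨x, hx⟩
  π_surj := M.qt_surjective
  ker_π x hx h := by
    have hpF : algebraMap A F M.p ≠ 0 := by
      obtain ⟨j⟩ := ‹Nonempty J›
      intro h0
      have h1 := M.v_p j
      rw [h0, Comp.v_zero] at h1
      have := M.e_pos j
      omega
    refine M.qt_eq_zero_iff.2 ⟨⟨(algebraMap A F M.p)⁻¹ * x, fun j => ?_⟩, ?_⟩
    · have h1 : (M.comp j).Ge (-(M.e j)) (algebraMap A F M.p)⁻¹ :=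
        Comp.ge_of_le (by rw [Comp.v_inv, M.v_p])
      refine Comp.ge_zero_iff.1 ((h1.mul (h j)).mono ?_)
      rw [neg_add_cancel]
    · apply Subtype.ext
      change x = algebraMap A F M.p * ((algebraMap A F M.p)⁻¹ * x)
      rw [← mul_assoc, mul_inv_cancel₀ hpF, one_mul]
  sep j := ⟨M.c j, M.hc j, M.r_c j, fun i hi => (M.c_ge j i hi.symm).mono (by
    exact_mod_cast M.e_pos i)⟩

end ToC

end Fermat.Agent.CarE
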