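import Fermat.Agent.CarE.Nm4
import Fermat.Agent.CarM.CuspT

/-!
# Cusp cutters on the curve of level `q ^ 2 M`
-/

set_option autoImplicit false
set_option linter.style.haveILetI false
set_option linter.unusedSectionVars false

noncomputable section

namespace Fermat.Agent.CarE

open Module ModularCurve Polynomial IntermediateField Fermat.Agent.ModPoly Fermat.Agent.Cusp
open Fermat.Agent.SemiSt Fermat.Agent.RedMod Fermat.Agent.Car Fermat.Agent.Red Fermat.Agent.CarM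
open Fermat.Agent.HeckeProd Fermat.Agent.Nod Fermat.Agent.RR AlgebraicCurve Fermat.Agent.Spec
open Fermat.Agent.Curve

section Def

variable (K : Type*) [Field K] (q M : ℕ) [hq : Fact q.Prime] [NeZero M]

/-- the first quotient -/
def s1 : FF K (q ^ 2 * M) := jC K q M * (tt K q M)⁻¹ ^ q

/-- the second quotient -/
def s3 : FF K (q ^ 2 * M) := j1 K q M * (tt K q M)⁻¹ ^ q

/-- the middle cutter -/
def s2 : FF K (q ^ 2 * M) :=
  1 - (s1 K q M + s3 K q M) ^ q + 2 ^ q * (tt K q M)⁻¹ ^ (q ^ 2 - 1)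

end Def

section Geo

variable {Ω : Type*} [Field Ω] [IsAlgClosed Ω] [CharZero Ω] {q M : ℕ} [hq : Fact q.Prime]
  [NeZero M]

theorem tt_ne : tt Ω q M ≠ 0 := by
  intro h0
  have h1 : (Jc 1 (pp q * 1) : LaurentSeries Ω) = 0 := by
    have := congrArg Subtype.val h0
    exact this
  have h2 := order_Jc (k := Ω) 1 (pp q * 1)
  rw [h1, HahnSeries.order_zero] at h2
  have := (pp q * 1).pos
  omega

theorem ge_inv_pow {F : Type*} [Field F] [Algebra Ω F] (v : Place Ω F) (t : F) (n : ℕ) :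
    Ge v (-(n * v.ord t)) (t⁻¹ ^ n) := by
  refine Ge.of_le ?_
  rw [ord_pow, v.ord_inv]
  linarith

theorem ge_natCast {F : Type*} [Field F] [Algebra Ω F] (v : Place Ω F) (n : ℕ) :
    Ge v 0 ((n : F)) := by
  have := Ge.algebraMap (F := F) v (n : Ω)
  rwa [map_natCast] at this

/-- orders of the two quotients -/
theorem ge_s1 (v : Place Ω (FF Ω (q ^ 2 * M))) :
    Ge v (v.ord (jC Ω q M) - q * v.ord (tt Ω q M)) (s1 Ω q M) := by
  refine ((Ge.of_le (le_refl (v.ord (jC Ω q M)))).mul (ge_inv_pow v (tt Ω q M) q)).mono ?_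
  linarith

theorem ge_s3 (v : Place Ω (FF Ω (q ^ 2 * M))) :
    Ge v (v.ord (j1 Ω q M) - q * v.ord (tt Ω q M)) (s3 Ω q M) := by
  refine ((Ge.of_le (le_refl (v.ord (j1 Ω q M)))).mul (ge_inv_pow v (tt Ω q M) q)).mono ?_
  linarith

theorem up_quot {v : Place Ω (FF Ω (q ^ 2 * M))} {y : FF Ω (q ^ 2 * M)}
    (h : Up v (tt Ω q M) y q) : Ge v (-v.ord (tt Ω q M)) (1 - y * (tt Ω q M)⁻¹ ^ q) := by
  have h0 : tt Ω q M ≠ 0 := tt_ne
  have e : 1 - y * (tt Ω q M)⁻¹ ^ q = (tt Ω q M ^ q - y) * (tt Ω q M)⁻¹ ^ q := by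
    rw [sub_mul, ← mul_pow, mul_inv_cancel₀ h0, one_pow]
  rw [e]
  refine (h.2.mul (ge_inv_pow v (tt Ω q M) q)).mono ?_
  linarith

theorem noncusp (v : Place Ω (FF Ω (q ^ 2 * M))) (hv : v.ord (tt Ω q M) = 0) :
    0 ≤ v.ord (j1 Ω q M) ∧ 0 ≤ v.ord (jC Ω q M) :=
  ⟨(j0_of_t0 v).1 hv.ge, j2_of_t0 v hv.ge⟩

/-- powers of elements congruent to one -/
theorem ge_one_sub_pow {F : Type*} [Field F] [Algebra Ω F] {v : Place Ω F} {u : F} {n : ℤ}
    (hn : 0 ≤ n) (h : Ge v n (1 - u)) (m : ℕ) : Ge v n (1 - u ^ m) := by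
  have hu : Ge v 0 u := by
    have : u = 1 - (1 - u) := by ring
    rw [this]
    exact (Ge.one v).sub (h.mono hn)
  have e : 1 - u ^ m = (1 - u) * ∑ i ∈ Finset.range m, u ^ i := by
    rw [mul_comm, geom_sum_mul_neg]
  rw [e]
  refine (h.mul (Ge.sum (n := 0) _ fun i _ => (hu.pow i).mono (by simp))).mono ?_
  linarith

/-- **the cutters at the places where the parameter is not zero** -/
theorem cut (v : Place Ω (FF Ω (q ^ 2 * M))) (hv : v.ord (tt Ω q M) ≤ 0) :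
    (v.ord (tt Ω q M) = 0 ∧ 0 ≤ v.ord (j1 Ω q M) ∧ Ge v 0 (s1 Ω q M) ∧ Ge v 0 (s2 Ω q M)) ∨
    (v.ord (tt Ω q M) = q * v.ord (j1 Ω q M) ∧ v.ord (j1 Ω q M) < 0 ∧
      Ge v 0 (s1 Ω q M) ∧ Ge v 0 (s2 Ω q M)) ∨
    (v.ord (j1 Ω q M) = q * v.ord (tt Ω q M) ∧ v.ord (tt Ω q M) < 0 ∧
      Ge v (-v.ord (tt Ω q M)) (s1 Ω q M) ∧ Ge v (-v.ord (tt Ω q M)) (s2 Ω q M)) := by
  have hq2 : (2 : ℤ) ≤ q := by exact_mod_cast hq.out.two_le
  have h2 : ∀ n : ℤ, n ≤ -v.ord (tt Ω q M) →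
      Ge v n (2 ^ q * (tt Ω q M)⁻¹ ^ (q ^ 2 - 1) : FF Ω (q ^ 2 * M)) := by
    intro n hn
    have h3 : Ge v 0 ((2 : FF Ω (q ^ 2 * M)) ^ q) := by
      have := (ge_natCast (F := FF Ω (q ^ 2 * M)) v 2).pow q
      rw [Nat.cast_ofNat] at this
      exact this.mono (by simp)
    refine (h3.mul (ge_inv_pow v (tt Ω q M) (q ^ 2 - 1))).mono ?_
    have h4 : 1 ≤ q ^ 2 := Nat.one_le_pow _ _ hq.out.pos
    push_cast [h4]
    have h5 : 0 ≤ ((q : ℤ) ^ 2 - 2) * -v.ord (tt Ω q M) :=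
      mul_nonneg (by nlinarith) (by omega)
    linarith
  rcases hv.lt_or_eq with hlt | h0
  · -- cusps
    have hc : v.ord (j0 Ω q M) < 0 := by
      by_contra hcon
      push Not at hcon
      have := (j0_of_t0 v).2 hcon
      change v.ord (tt Ω q M) < 0 at hlt
      change 0 ≤ v.ord (tt Ω q M) at this
      omega
    rcases types v hc with ⟨u1, u2⟩ | ⟨u1, u2⟩ | ⟨u1, u2⟩
    · -- type 1
      have e1 : v.ord (tt Ω q M) = q * v.ord (j1 Ω q M) := u1.1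
      have e2 : v.ord (jC Ω q M) = q * v.ord (tt Ω q M) := u2.1
      have hc' : v.ord (j1 Ω q M) < 0 := hc
      right; left
      have g1 : Ge v 0 (s1 Ω q M) := (ge_s1 v).mono (by rw [e2]; linarith)
      refine ⟨e1, hc', g1, ?_⟩
      have g3 : Ge v 0 (s3 Ω q M) := (ge_s3 v).mono (by rw [e1]; nlinarith)
      exact ((Ge.one v).sub (((g1.add g3).pow q).mono (by simp))).add (h2 0 (by omega))
    · -- type 2
      have e1 : v.ord (tt Ω q M) = q * v.ord (j1 Ω q M) := u1.1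
      have e2 : v.ord (tt Ω q M) = q * v.ord (jC Ω q M) := u2.1
      have hc' : v.ord (j1 Ω q M) < 0 := hc
      right; left
      have hC : v.ord (jC Ω q M) < 0 := by
        rw [e2] at hlt
        by_contra hcon
        push Not at hcon
        nlinarith
      have g1 : Ge v 0 (s1 Ω q M) := (ge_s1 v).mono (by
        rw [e2]
        have h5 : 0 ≤ ((q : ℤ) ^ 2 - 1) * -v.ord (jC Ω q M) :=
          mul_nonneg (by nlinarith) (by omega)
        linarith)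
      refine ⟨e1, hc', g1, ?_⟩
      have g3 : Ge v 0 (s3 Ω q M) := (ge_s3 v).mono (by rw [e1]; nlinarith)
      exact ((Ge.one v).sub (((g1.add g3).pow q).mono (by simp))).add (h2 0 (by omega))
    · -- type 3
      have e1 : v.ord (tt Ω q M) = q * v.ord (jC Ω q M) := u1.1
      have e2 : v.ord (j1 Ω q M) = q * v.ord (tt Ω q M) := u2.1
      right; right
      have hC : v.ord (jC Ω q M) < 0 := by
        rw [e1] at hlt
        by_contra hcon
        push Not at hcon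
        nlinarith
      have g1 : Ge v (-v.ord (tt Ω q M)) (s1 Ω q M) := (ge_s1 v).mono (by
        rw [e1]
        have h5 : 0 ≤ ((q : ℤ) ^ 2 - q - 1) * -v.ord (jC Ω q M) :=
          mul_nonneg (by nlinarith) (by omega)
        linarith)
      refine ⟨e2, hlt, g1, ?_⟩
      have g3 : Ge v (-v.ord (tt Ω q M)) (1 - s3 Ω q M) := up_quot u2
      have g4 : Ge v (-v.ord (tt Ω q M)) (1 - (s1 Ω q M + s3 Ω q M)) := by
        have e : 1 - (s1 Ω q M + s3 Ω q M) = (1 - s3 Ω q M) - s1 Ω q M := by ring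
        rw [e]
        exact g3.sub g1
      exact (ge_one_sub_pow (by omega) g4 q).add (h2 _ le_rfl)
  · left
    obtain ⟨c1, c2⟩ := noncusp v h0
    have g1 : Ge v 0 (s1 Ω q M) := (ge_s1 v).mono (by rw [h0]; linarith)
    have g3 : Ge v 0 (s3 Ω q M) := (ge_s3 v).mono (by rw [h0]; linarith)
    exact ⟨h0, c1, g1, ((Ge.one v).sub (((g1.add g3).pow q).mono (by simp))).add (h2 0 (by omega))⟩

/-- functions of level `M` with poles bounded by those of `j` -/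
theorem ge_incl {f : FF Ω M} {a : ℕ} (hf : ∀ v : Place Ω (FF Ω M), Ge v (-(a * max (-v.ord (jF' Ω M)) 0)) f)
    (h : M ∣ q ^ 2 * M) (v : Place Ω (FF Ω (q ^ 2 * M))) :
    Ge v (-(a * max (-v.ord (j1 Ω q M)) 0)) (incl Ω h f) := by
  haveI := funField_FF (k := Ω) (M := M) (natCast_ne_zero_K Ω M)
  haveI := funField_FF (k := Ω) (M := q ^ 2 * M) (natCast_ne_zero_K Ω (q ^ 2 * M))
  rcases hf (MW.rs (incl Ω h) v) with rfl | h1
  · rw [map_zero]; exact Ge.zero v _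
  refine Ge.of_le ?_
  have e1 : j1 Ω q M = incl Ω h (jF' Ω M) := (incl_jF h).symm
  rw [e1, MW.ord_map, MW.ord_map]
  have hc := MW.re_pos (incl Ω h) v
  have h4 : max (-(MW.re (incl Ω h) v * (MW.rs (incl Ω h) v).ord (jF' Ω M))) 0 =
      MW.re (incl Ω h) v * max (-(MW.rs (incl Ω h) v).ord (jF' Ω M)) 0 := by
    rw [mul_max_of_nonneg _ _ hc.le, mul_zero, mul_neg]
  rw [h4]
  have := mul_le_mul_of_nonneg_left h1 hc.le
  linarith [mul_left_comm (a : ℤ) (MW.re (incl Ω h) v) (max (-(MW.rs (incl Ω h) v).ord (jF' Ω M)) 0)]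

/-- **regularity of the cut functions** -/
theorem reg_cut {f : FF Ω M} {n : ℕ}
    (hf : ∀ v : Place Ω (FF Ω M), Ge v (-((q * n : ℕ) * max (-v.ord (jF' Ω M)) 0)) f)
    (h : M ∣ q ^ 2 * M) {s : FF Ω (q ^ 2 * M)} (hs : s = s1 Ω q M ∨ s = s2 Ω q M) :
    Reg Ω (tt Ω q M)⁻¹ (incl Ω h f * (tt Ω q M)⁻¹ ^ n * s ^ (q ^ 2 * n)) := by
  intro v hv
  rw [v.ord_inv] at hv
  have hq2 : (2 : ℤ) ≤ q := by exact_mod_cast hq.out.two_le
  have hn : (0 : ℤ) ≤ n := Int.natCast_nonneg _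
  have g1 := ge_incl hf h v
  have g2 := ge_inv_pow v (tt Ω q M) n
  have key : (v.ord (tt Ω q M) = 0 ∧ 0 ≤ v.ord (j1 Ω q M) ∧ Ge v 0 s) ∨
    (v.ord (tt Ω q M) = q * v.ord (j1 Ω q M) ∧ v.ord (j1 Ω q M) < 0 ∧ Ge v 0 s) ∨
    (v.ord (j1 Ω q M) = q * v.ord (tt Ω q M) ∧ v.ord (tt Ω q M) < 0 ∧
      Ge v (-v.ord (tt Ω q M)) s) := by
    rcases cut v (by omega) with ⟨c1, c2, c3, c4⟩ | ⟨c1, c2, c3, c4⟩ | ⟨c1, c2, c3, c4⟩
    · left
      refine ⟨c1, c2, ?_⟩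
      rcases hs with rfl | rfl
      exacts [c3, c4]
    · right; left
      refine ⟨c1, c2, ?_⟩
      rcases hs with rfl | rfl
      exacts [c3, c4]
    · right; right
      refine ⟨c1, c2, ?_⟩
      rcases hs with rfl | rfl
      exacts [c3, c4]
  rcases key with ⟨c1, c2, c3⟩ | ⟨c1, c2, c3⟩ | ⟨c1, c2, c3⟩
  · refine ((g1.mul g2).mul (c3.pow (q ^ 2 * n))).mono ?_
    rw [c1, max_eq_right (by omega)]
    simp
  · refine ((g1.mul g2).mul (c3.pow (q ^ 2 * n))).mono ?_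
    rw [c1, max_eq_left (by omega)]
    push_cast
    nlinarith
  · refine ((g1.mul g2).mul (c3.pow (q ^ 2 * n))).mono ?_
    rw [c1, max_eq_left (by nlinarith)]
    push_cast
    have h5 : 0 ≤ (n : ℤ) * -v.ord (tt Ω q M) := mul_nonneg hn (by omega)
    nlinarith
end Geo

end Fermat.Agent.CarE
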