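import Fermat.Agent.CarE.Sinf1
import Fermat.Agent.ThmC.LiftK0

/-!
# Lifting functions with bounded poles
-/

set_option autoImplicit false
set_option linter.style.haveILetI false
set_option linter.unusedSectionVars false

noncomputable section

namespace Fermat.Agent.ThmC

open ModularCurve Polynomial IntermediateField Fermat.Agent.ModPoly Fermat.Agent.Red AlgebraicCurve
open Fermat.Agent.RR Fermat.Agent.Cusp Fermat.Agent.RedMod Fermat.Agent.Spec Fermat.Agent.Curve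

attribute [local instance] algFF

theorem mem_LL_iff_ge {K : Type*} [Field K] [IsAlgClosed K] {M : ℕ} [NeZero M]
    [FunField K (FF K M)] (a : ℕ) (x : FF K M) :
    x ∈ LL (poleDiv K (jF' K M)) (zeroDiv K (jF' K M)) 0 a 0 ↔
      ∀ v : Place K (FF K M), Ge v (-(a * max (-v.ord (jF' K M)) 0)) x := by
  rw [mem_LL]
  refine forall_congr' fun v => ?_
  simp only [Nat.cast_zero, zero_mul, add_zero, Finsupp.coe_zero, Pi.zero_apply]
  rw [poleDiv_apply]
  rfl

section Lift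

variable {A₀ K₀ A K k : Type*} [CommRing A₀] [IsDomain A₀] [ValuationRing A₀] [Field K₀]
  [Algebra A₀ K₀] [IsFractionRing A₀ K₀] [CommRing A] [IsDomain A] [ValuationRing A]
  [Field K] [IsAlgClosed K] [Algebra A K] [IsFractionRing A K] [Field k] [IsAlgClosed k]
  [Algebra A k] [Algebra A₀ k] [Algebra K₀ K] [Algebra.IsAlgebraic K₀ K] {N : ℕ} [NeZero N]


theorem exists_lift_bdd [CharZero K] [Algebra ℚ K] (ι : K →+* ℂ)
    (hfix : ∀ x : K, (∀ σ : K ≃ₐ[K₀] K, σ x = x) → x ∈ Set.range (algebraMap K₀ K))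
    (j : A₀ →+* A) (hj1 : ∀ a, algebraMap K₀ K (algebraMap A₀ K₀ a) = algebraMap A K (j a))
    (hj2 : ∀ a, algebraMap A₀ k a = algebraMap A k (j a))
    (hk₀ : Function.Surjective (algebraMap A₀ k)) (hN : (N : k) ≠ 0) :
    ∃ n0 : ℕ, ∀ a : ℕ, n0 ≤ a →
    ∀ z : FF k N, (∀ Q : Place k (FF k N), Ge Q (-(a * max (-Q.ord (jF' k N)) 0)) z) →
    ∃ (y : FF K₀ N) (h : (CarE.emb K₀ K N y : LaurentSeries K) ∈ WL A K k),
      πL A K k ⟨CarE.emb K₀ K N y, h⟩ = z ∧
      ∀ v : Place K (FF K N), Ge v (-(a * max (-v.ord (jF' K N)) 0)) (CarE.emb K₀ K N y) := by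
  have hk : Function.Surjective (algebraMap A k) := by
    intro c
    obtain ⟨a, ha⟩ := hk₀ c
    exact ⟨j a, by rw [← hj2, ha]⟩
  have hNK := natCast_K (A := A) (K := K) hN
  haveI := funField_FF (k := K) (M := N) hNK
  haveI := funField_FF (k := k) (M := N) hN
  have H := fibreHyp (K := K) (N := N) hk hN
  rw [rrGenus_eq_level ι hk hN] at H
  obtain ⟨n0, hn0⟩ := rd_eq_LL H
  refine ⟨n0 + 1, fun a ha z hza => ?_⟩
  rw [← mem_LL_iff_ge, ← hn0 a 0 (by omega)] at hza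
  let V : Submodule K (FF K N) := LL (poleDiv K (jF' K N)) (zeroDiv K (jF' K N)) 0 a 0
  haveI hVfin : FiniteDimensional K V := H.finiteDimensional_LL 0 a 0
  let D := CarE.desc N hfix
  have hst : D.Stable V := by
    rintro _ ⟨σ, rfl⟩ x hx
    exact gal_mem_LL σ hx
  haveI := Car.Desc.finite_low hst
  have hdim := Car.Desc.finrank_low hst
  -- the model over the small ring
  let M₀ : RedModel A₀ K₀ (FF K₀ N) k (FF k N) :=
    (gaussFF K₀ hk₀ hN).toRedModel hk₀ (gaussFF_span hk₀ hN)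
  have hd1 := M₀.finrank_rd hk₀ (D.low V)
  have hd2 := H.M.finrank_rd H.hk V
  have hle : M₀.rd hk₀ (D.low V) ≤ H.M.rd H.hk V := by
    rintro _ ⟨x, ⟨hxW, hxV⟩, rfl⟩
    obtain ⟨h1, h2⟩ := emb_mem_WL (A := A) (k := k) j hj1 hj2 (x := x) hxW
    refine ⟨CarE.emb K₀ K N x, ⟨h1, hxV⟩, ?_⟩
    exact Subtype.ext h2
  haveI := H.M.finiteDimensional_rd H.hk V
  have heq := Submodule.eq_of_le_of_finrank_eq hle (by rw [hd1, hd2, hdim])
  have hz2 : z ∈ M₀.rd hk₀ (D.low V) := by rw [heq]; exact hza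
  obtain ⟨y, ⟨hyW, hyV⟩, hyz⟩ := hz2
  obtain ⟨h1, h2⟩ := emb_mem_WL (A := A) (k := k) j hj1 hj2 (x := y) hyW
  exact ⟨y, h1, h2.trans (congrArg Subtype.val hyz), (mem_LL_iff_ge a _).1 hyV⟩

end Lift

end Fermat.Agent.ThmC

namespace Fermat.Agent.CarE

open Module ModularCurve Polynomial IntermediateField Fermat.Agent.ModPoly Fermat.Agent.Cusp
open Fermat.Agent.SemiSt Fermat.Agent.RedMod Fermat.Agent.Car Fermat.Agent.Red Fermat.Agent.CarM
open Fermat.Agent.HeckeProd Fermat.Agent.Nod Fermat.Agent.RR AlgebraicCurve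
open Fermat.Agent.Curve

variable {R0 K0 A Ω k : Type*} [CommRing R0] [IsDomain R0] [IsDiscreteValuationRing R0]
  [Field K0] [Algebra R0 K0]
  [IsFractionRing R0 K0] [CommRing A] [IsDomain A] [ValuationRing A] [Field Ω]
  [IsAlgClosed Ω] [CharZero Ω]
  [Algebra A Ω] [IsFractionRing A Ω] [Field k] [IsAlgClosed k] [Algebra A k] [Algebra K0 Ω]
  [Algebra R0 A]
  [Algebra R0 k] {q M : ℕ} [hq : Fact q.Prime] [NeZero M] [CharP k q]
  (B : Base q R0 K0 A Ω k) (hM : (M : k) ≠ 0) (ι : Ω →+* ℂ)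

include B hM ι in
theorem exists_lift_LL : ∃ n0 : ℕ, ∀ a : ℕ, n0 ≤ a →
    ∀ z' : FF k M, (∀ Q : Place k (FF k M), Ge Q (-(a * max (-Q.ord (jF' k M)) 0)) z') →
    ∃ (y : FF K0 M) (h : (emb K0 Ω M y : LaurentSeries Ω) ∈ WL A Ω k),
      πL A Ω k ⟨emb K0 Ω M y, h⟩ = z' ∧
      ∀ v : Place Ω (FF Ω M), Ge v (-(a * max (-v.ord (jF' Ω M)) 0)) (emb K0 Ω M y) := by
  haveI := B.alg
  exact ThmC.exists_lift_bdd ι B.fixed (algebraMap R0 A) (fun a => (B.comm a).symm) B.commk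
    B.surj hM

end Fermat.Agent.CarE
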