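import Fermat.Agent.CarE.Lam

/-!
# The three Gauss valuations on the modular function field of level `q ^ 2 M`
-/

set_option autoImplicit false
set_option linter.style.haveILetI false
set_option linter.unusedSectionVars false

noncomputable section

namespace Fermat.Agent.CarE

open ModularCurve Polynomial IntermediateField Fermat.Agent.ModPoly Fermat.Agent.Cusp
open Fermat.Agent.SemiSt Fermat.Agent.RedMod

section JA

variable {A B : Type*} [CommRing A] [CommRing B]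

/-- `j (c q ^ e)` over a ring -/
def JA (c : Aˣ) (e : ℕ+) : LaurentSeries A :=
  haveI : NeZero (e : ℕ) := ⟨e.ne_zero⟩
  qExpand A (e : ℕ) (twist c (jqModC A))

theorem JA_coeff_mul (c : Aˣ) (e : ℕ+) (n : ℤ) :
    (JA c e).coeff ((e : ℕ) * n) = ((c ^ n : Aˣ) : A) * (jqModC A).coeff n := by
  haveI : NeZero (e : ℕ) := ⟨e.ne_zero⟩
  rw [JA, qExpand_coeff_mul, twist_coeff]

theorem JA_coeff_of_not_dvd (c : Aˣ) (e : ℕ+) {n : ℤ} (hn : ¬ ((e : ℕ) : ℤ) ∣ n) :
    (JA c e).coeff n = 0 := by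
  haveI : NeZero (e : ℕ) := ⟨e.ne_zero⟩
  rw [JA, qExpand_coeff_of_not_dvd _ _ hn]

theorem coeffMap_JA (f : A →+* B) (c : Aˣ) (e : ℕ+) :
    coeffMap f (JA c e) = JA (Units.map (f : A →* B) c) e := by
  ext n
  rw [coeffMap_coeff]
  by_cases hn : ((e : ℕ) : ℤ) ∣ n
  · obtain ⟨m, rfl⟩ := hn
    rw [JA_coeff_mul, JA_coeff_mul, map_mul]
    congr 1
    · rw [← map_zpow]
      rfl
    · have := congrArg (fun x => HahnSeries.coeff x m) (coeffMap_jqModC f)
      simpa [coeffMap_coeff] using this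
  · rw [JA_coeff_of_not_dvd _ _ hn, JA_coeff_of_not_dvd _ _ hn, map_zero]

theorem JA_field {K : Type*} [Field K] (c : Kˣ) (e : ℕ+) : JA c e = Jc c e := rfl

theorem jq_coeff_mem (D : Subring A) (n : ℤ) : (jqModC A).coeff n ∈ D := by
  have := congrArg (fun x => HahnSeries.coeff x n) (coeffMap_jqModC D.subtype)
  have h : D.subtype ((jqModC D).coeff n) = (jqModC A).coeff n := this
  rw [← h]
  exact Subtype.prop _

theorem JA_mem_SD (D : Subring A) (c : Aˣ) (hc : ∀ n : ℤ, ((c ^ n : Aˣ) : A) ∈ D) (e : ℕ+) :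
    JA c e ∈ SD D := by
  apply mem_SD_of_coeff
  intro n
  by_cases hn : ((e : ℕ) : ℤ) ∣ n
  · obtain ⟨m, rfl⟩ := hn
    rw [JA_coeff_mul]
    exact mul_mem (hc m) (jq_coeff_mem D m)
  · rw [JA_coeff_of_not_dvd _ _ hn]
    exact zero_mem _

theorem JA_one_mem_SD (D : Subring A) (e : ℕ+) : JA (1 : Aˣ) e ∈ SD D :=
  JA_mem_SD D 1 (fun n => by rw [one_zpow]; exact one_mem _) e

end JA

section Diff

variable {A k : Type*} [CommRing A] [IsDomain A] [Field k] [Algebra A k]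
  {q : ℕ} [hq : Fact q.Prime] [CharP k q] {z : Aˣ} (hz : z ^ q = 1 ∧ z ≠ 1)

include hz in
theorem hz_val : (z : A) ^ q = 1 ∧ (z : A) ≠ 1 :=
  ⟨by rw [← Units.val_pow_eq_pow_val, hz.1, Units.val_one],
    fun h => hz.2 (Units.ext h)⟩

include hz in
/-- `1 - z ^ n` is divisible by `1 - z` with quotient congruent to `n` -/
theorem exists_diff (n : ℤ) : ∃ g : A, 1 - ((z ^ n : Aˣ) : A) = (1 - z) * g ∧
    algebraMap A k g = n := by
  have hnat : ∀ n : ℕ, ∃ g : A, 1 - ((z ^ (n : ℤ) : Aˣ) : A) = (1 - z) * g ∧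
      algebraMap A k g = ((n : ℤ) : k) := by
    intro n
    refine ⟨∑ i ∈ Finset.range n, (z : A) ^ i, ?_, ?_⟩
    · rw [mul_neg_geom_sum, zpow_natCast, Units.val_pow_eq_pow_val]
    · rw [red_geom (hz_val hz), Int.cast_natCast]
  obtain ⟨m, rfl | rfl⟩ := n.eq_nat_or_neg
  · exact hnat m
  · obtain ⟨g, hg, hg'⟩ := hnat m
    refine ⟨-(((z ^ (-(m : ℤ)) : Aˣ) : A) * g), ?_, ?_⟩
    · rw [mul_neg, mul_left_comm, ← hg, mul_sub, mul_one, ← Units.val_mul, ← zpow_add,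
        neg_add_cancel, zpow_zero, Units.val_one]
      ring
    · have h1 : algebraMap A k ((z ^ (-(m : ℤ)) : Aˣ) : A) = 1 := by
        have h2 : Units.map (algebraMap A k : A →* k) z = 1 := by
          apply Units.ext
          exact red_z (hz_val hz)
        have h3 : Units.map (algebraMap A k : A →* k) (z ^ (-(m : ℤ))) = 1 := by
          rw [map_zpow, h2, one_zpow]
        exact congrArg Units.val h3
      rw [map_neg, map_mul, h1, one_mul, hg']
      push_cast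
      ring

variable (z) in
/-- the quotient `(F (q) - F (z q)) / (1 - z)` -/
theorem exists_quot (hz : z ^ q = 1 ∧ z ≠ 1) (F : LaurentSeries A) :
    ∃ G : LaurentSeries A, F - twist z F = HahnSeries.C (1 - (z : A)) * G ∧
      ∀ n, algebraMap A k (G.coeff n) = n * algebraMap A k (F.coeff n) := by
  choose g hg hg' using exists_diff (A := A) (k := k) hz
  refine ⟨⟨fun n => g n * F.coeff n, F.isPWO_support.mono fun n hn => ?_⟩, ?_, ?_⟩
  · rw [Function.mem_support] at hn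
    rw [HahnSeries.mem_support]
    exact right_ne_zero_of_mul hn
  · ext n
    rw [HahnSeries.coeff_sub, twist_coeff, HahnSeries.C_mul_eq_smul, HahnSeries.coeff_smul,
      smul_eq_mul]
    change _ = (1 - (z : A)) * (g n * F.coeff n)
    rw [← mul_assoc, ← hg]
    ring
  · intro n
    change algebraMap A k (g n * F.coeff n) = _
    rw [map_mul, hg']

end Diff

section Base

variable (q : ℕ) (R0 K0 A Ω k : Type*) [CommRing R0] [IsDomain R0] [Field K0] [Algebra R0 K0]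
  [IsFractionRing R0 K0] [CommRing A] [IsDomain A] [ValuationRing A] [Field Ω]
  [Algebra A Ω] [IsFractionRing A Ω] [Field k] [Algebra A k] [Algebra K0 Ω] [Algebra R0 A]
  [Algebra R0 k]

/-- the arithmetic base: `R0` is the strictly henselian discrete valuation ring with uniformiser
`q` and fraction field `K0`, and `A` a valuation ring above it -/
structure Base : Prop where
  comm : ∀ a : R0, algebraMap A Ω (algebraMap R0 A a) = algebraMap K0 Ω (algebraMap R0 K0 a)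
  commk : ∀ a : R0, algebraMap R0 k a = algebraMap A k (algebraMap R0 A a)
  pu : ∀ a : R0, a ≠ 0 → ∃ (n : ℕ) (u : R0), algebraMap R0 k u ≠ 0 ∧ a = (q : R0) ^ n * u
  surj : Function.Surjective (algebraMap R0 k)
  fixed : ∀ x : Ω, (∀ σ : Ω ≃ₐ[K0] Ω, σ x = x) → x ∈ Set.range (algebraMap K0 Ω)
  alg : Algebra.IsAlgebraic K0 Ω
  inert : ∀ (σ : Ω ≃ₐ[K0] Ω) (a : A), ∃ a' : A, σ (algebraMap A Ω a) = algebraMap A Ω a' ∧
    algebraMap A k a' = algebraMap A k a

variable {q R0 K0 A Ω k}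

theorem Base.pu' (B : Base q R0 K0 A Ω k) : ∀ a : R0, a ≠ 0 → ∃ (n : ℕ) (u : R0),
    algebraMap A k (algebraMap R0 A u) ≠ 0 ∧ a = (q : R0) ^ n * u := by
  intro a ha
  obtain ⟨n, u, hu, e⟩ := B.pu a ha
  exact ⟨n, u, by rwa [← B.commk], e⟩

theorem mem_TF_all (B : Base q R0 K0 A Ω k) {N : ℕ} [NeZero N] (φ : FF K0 N →+* LaurentSeries Ω)
    (hc : ∀ c : K0, φ (algebraMap K0 (FF K0 N) c) = HahnSeries.C (algebraMap K0 Ω c))
    (D : Subring A) (hD : ∀ a : R0, algebraMap R0 A a ∈ D)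
    (hj : ∀ (m : ℕ+) (hm : (m : ℕ) ∣ N), ∃ s ∈ SD D, φ (jm K0 m hm) = incL A Ω s)
    (x : FF K0 N) : x ∈ TF φ D := by
  have hCD : ∀ a : R0, HahnSeries.C (algebraMap R0 A a) ∈ SD D := by
    intro a
    apply mem_SD_of_coeff
    intro m
    by_cases hm : m = 0
    · subst hm
      rw [HahnSeries.C_apply, HahnSeries.coeff_single_same]
      exact hD a
    · rw [HahnSeries.C_apply, HahnSeries.coeff_single_of_ne hm]
      exact zero_mem _
  have h4 : x ∈ IntermediateField.adjoin K0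
      {x : FF K0 N | ∃ (m : ℕ+) (hm : (m : ℕ) ∣ N), x = jm K0 m hm} := by
    rw [adjoin_jm_eq_top]; exact IntermediateField.mem_top
  induction h4 using IntermediateField.adjoin_induction with
  | mem x hx =>
    obtain ⟨m, hm, rfl⟩ := hx
    obtain ⟨s, hs, e⟩ := hj m hm
    exact mem_TF_of_eq hs e
  | algebraMap c =>
    obtain ⟨a, b, hb, e⟩ := IsFractionRing.div_surjective (A := R0) c
    have h1 : ∀ a : R0, algebraMap K0 (FF K0 N) (algebraMap R0 K0 a) ∈ TF φ D := by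
      intro a
      apply mem_TF_of_eq (hCD a)
      rw [hc, coeffMap_C, B.comm]
    rw [← e, map_div₀]
    exact div_mem (h1 a) (h1 b)
  | add x y _ _ hx hy => exact add_mem hx hy
  | inv x _ hx => exact inv_mem hx
  | mul x y _ _ hx hy => exact mul_mem hx hy

end Base

section Three

variable {R0 K0 A Ω k : Type*} [CommRing R0] [IsDomain R0] [Field K0] [Algebra R0 K0]
  [IsFractionRing R0 K0] [CommRing A] [IsDomain A] [ValuationRing A] [Field Ω]
  [IsAlgClosed Ω] [CharZero Ω]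
  [Algebra A Ω] [IsFractionRing A Ω] [Field k] [Algebra A k] [Algebra K0 Ω] [Algebra R0 A]
  [Algebra R0 k] {q M : ℕ} [hq : Fact q.Prime] [NeZero M] [CharP k q]
  (B : Base q R0 K0 A Ω k) (hco : q.Coprime M)

theorem JA_incL (c : Aˣ) (e : ℕ+) : incL A Ω (JA c e) =
    Jc (Units.map (algebraMap A Ω : A →* Ω) c) e := coeffMap_JA _ c e

theorem JA_incL_one (e : ℕ+) : incL A Ω (JA 1 e) = Jc 1 e := by
  rw [JA_incL, map_one]

include hq in
theorem q_ne (A Ω : Type*) [CommRing A] [IsDomain A] [Field Ω] [CharZero Ω] [Algebra A Ω]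
    [IsFractionRing A Ω] : (q : A) ≠ 0 := by
  intro h
  have h1 : (q : Ω) = 0 := by rw [← map_natCast (algebraMap A Ω), h, map_zero]
  exact hq.out.ne_zero (by exact_mod_cast h1)

theorem red_q : algebraMap A k (q : A) = 0 := by
  rw [map_natCast, CharP.cast_eq_zero]

/-- the composite with the embedding of the small field -/
def mphi (φ : FF Ω (q ^ 2 * M) →ₐ[Ω] LaurentSeries Ω) :
    FF K0 (q ^ 2 * M) →+* LaurentSeries Ω := (φ : FF Ω (q ^ 2 * M) →+* LaurentSeries Ω).comp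
  (emb K0 Ω (q ^ 2 * M))

theorem mphi_apply (φ : FF Ω (q ^ 2 * M) →ₐ[Ω] LaurentSeries Ω) (x : FF K0 (q ^ 2 * M)) :
    mphi φ x = φ (emb K0 Ω (q ^ 2 * M) x) := rfl

theorem mphi_algebraMap (φ : FF Ω (q ^ 2 * M) →ₐ[Ω] LaurentSeries Ω) (c : K0) :
    mphi φ (algebraMap K0 (FF K0 (q ^ 2 * M)) c) = HahnSeries.C (algebraMap K0 Ω c) := by
  rw [mphi_apply, emb_algebraMap, AlgHom.commutes, algebraMap_eq_C]

theorem mphi_jm (φ : FF Ω (q ^ 2 * M) →ₐ[Ω] LaurentSeries Ω) {m : ℕ+}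
    (hm : (m : ℕ) ∣ q ^ 2 * M) : mphi φ (jm K0 m hm) = φ (jm Ω m hm) := by
  rw [mphi_apply, emb_jm]

include B in
/-- `EData` for an embedding whose generators have coefficients in the image of `R0` -/
theorem exists_scale_of_unram (φ : FF Ω (q ^ 2 * M) →ₐ[Ω] LaurentSeries Ω)
    (hj : ∀ (m : ℕ+) (hm : (m : ℕ) ∣ q ^ 2 * M), ∃ s ∈ SD (D0 A R0), φ (jm Ω m hm) = incL A Ω s)
    (x : FF K0 (q ^ 2 * M)) (hx : x ≠ 0) : ∃ (m : ℤ) (w : LaurentSeries Ω), IsU A Ω k w ∧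
      mphi φ x = HahnSeries.C (algebraMap A Ω (q : A)) ^ m * w := by
  refine exists_scale_of_TF (D := D0 A R0) (q_ne A Ω) (PU_D0 B.pu') ?_ hx
  refine mem_TF_all B (mphi φ) (mphi_algebraMap φ) (D0 A R0) (fun a => ⟨a, rfl⟩) ?_ x
  intro m hm
  obtain ⟨s, hs, e⟩ := hj m hm
  exact ⟨s, hs, by rw [mphi_jm, e]⟩

theorem phi0_jm {m : ℕ+} (hm : (m : ℕ) ∣ q ^ 2 * M) : phi0 Ω (jm Ω m hm) = Jc 1 m := rfl

/-- the first Gauss valuation -/
def E0 : EData A Ω k (FF K0 (q ^ 2 * M)) where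
  φ := mphi (phi0 Ω)
  ϖA := (q : A)
  red := red_q
  neA := q_ne A Ω
  scale := exists_scale_of_unram B (phi0 Ω) fun m hm =>
    ⟨JA 1 m, JA_one_mem_SD _ m, by rw [phi0_jm, JA_incL_one]⟩
  ϖ := (q : FF K0 (q ^ 2 * M))
  hϖ := ⟨1, IsU.one, by rw [map_natCast, map_natCast, map_natCast, mul_one]⟩

theorem exists_phi2_jm {m : ℕ+} (hm : (m : ℕ) ∣ q ^ 2 * M) :
    ∃ m' : ℕ+, phi2 hco (jm Ω m hm) = Jc 1 m' := by
  obtain ⟨d, hd, rfl | rfl | rfl⟩ := div_cases hco hm
  · exact ⟨_, by rw [phi2_apply, w2_a hco hd]; rfl⟩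
  · exact ⟨_, by rw [phi2_apply, w2_b hco hd]; rfl⟩
  · exact ⟨_, by rw [phi2_apply, w2_c hco hd]; rfl⟩

/-- the last Gauss valuation -/
def E2 : EData A Ω k (FF K0 (q ^ 2 * M)) where
  φ := mphi (phi2 hco)
  ϖA := (q : A)
  red := red_q
  neA := q_ne A Ω
  scale := exists_scale_of_unram B (phi2 hco) fun m hm => by
    obtain ⟨m', h⟩ := exists_phi2_jm (Ω := Ω) hco hm
    exact ⟨JA 1 m', JA_one_mem_SD _ m', by rw [h, JA_incL_one]⟩
  ϖ := (q : FF K0 (q ^ 2 * M))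
  hϖ := ⟨1, IsU.one, by rw [map_natCast, map_natCast, map_natCast, mul_one]⟩

variable {z : Aˣ} (hz : z ^ q = 1 ∧ z ≠ 1)

variable (Ω) in
include hz in
theorem hzΩ : (Units.map (algebraMap A Ω : A →* Ω) z) ^ q = 1 ∧
    Units.map (algebraMap A Ω : A →* Ω) z ≠ 1 := by
  refine ⟨by rw [← map_pow, hz.1, map_one], fun h => hz.2 ?_⟩
  apply Units.ext
  apply IsFractionRing.injective A Ω
  have := congrArg (fun u : Ωˣ => (u : Ω)) h
  simpa using this

theorem exists_phi1_jm {m : ℕ+} (hm : (m : ℕ) ∣ q ^ 2 * M) :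
    ∃ s ∈ SD (D1 R0 (z : A)), phi1 hco (hzΩ Ω hz) (jm Ω m hm) = incL A Ω s := by
  obtain ⟨d, hd, rfl | rfl | rfl⟩ := div_cases hco hm
  · exact ⟨JA 1 m, JA_one_mem_SD _ _, by rw [phi1_a hco _ hd, JA_incL_one]⟩
  · exact ⟨JA 1 _, JA_one_mem_SD _ _, by rw [phi1_b hco _ hd, JA_incL_one]⟩
  · refine ⟨JA (z ^ (d : ℕ)) d, JA_mem_SD _ _ (fun n => ?_) _, ?_⟩
    · rw [← zpow_natCast, ← zpow_mul]
      exact unit_zpow_mem_D1 hz.1 _
    · rw [phi1_c hco _ hd, JA_incL, map_pow]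

theorem d1M (M : ℕ) : ((1 : ℕ+) : ℕ) ∣ M := by rw [PNat.one_coe]; exact one_dvd M

/-- the uniformiser at the middle component -/
def uu2 (k : Type*) [Field k] (q M : ℕ) [hq : Fact q.Prime] [NeZero M] : FF k (q ^ 2 * M) :=
  jm k 1 (dvd_a (d1M M)) - jm k (pp q * pp q * 1) (dvd_c (d1M M))

theorem exists_uu : ∃ G : LaurentSeries A,
    mphi (K0 := K0) (phi1 hco (hzΩ Ω hz)) (uu2 K0 q M) =
      HahnSeries.C (algebraMap A Ω (1 - (z : A))) * incL A Ω G ∧
      ∀ n, algebraMap A k (G.coeff n) = n * algebraMap A k ((jqModC A).coeff n) := by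
  obtain ⟨G, hG, hG'⟩ := exists_quot (A := A) (k := k) z hz (jqModC A)
  refine ⟨G, ?_, hG'⟩
  have h1 : HahnSeries.C (algebraMap A Ω (1 - (z : A))) * incL A Ω G =
      incL A Ω (HahnSeries.C (1 - (z : A)) * G) := by rw [map_mul, coeffMap_C]
  have h2 : twist z (jqModC A) = JA z 1 := by
    ext n
    have := JA_coeff_mul z 1 n
    rw [PNat.one_coe, Nat.cast_one, one_mul] at this
    rw [this, twist_coeff]
  have h3 : jqModC A = JA 1 1 := by
    ext n
    have := JA_coeff_mul (1 : Aˣ) 1 n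
    rw [PNat.one_coe, Nat.cast_one, one_mul, one_zpow, Units.val_one, one_mul] at this
    rw [this]
  rw [h1, ← hG, map_sub, h2, h3, JA_incL_one, JA_incL, uu2, map_sub, mphi_jm, mphi_jm,
    phi1_c hco _ (d1M M), phi1_a hco _ (d1M M), PNat.one_coe, pow_one]

theorem quot_ne {G : LaurentSeries A}
    (h : ∀ n, algebraMap A k (G.coeff n) = n * algebraMap A k ((jqModC A).coeff n)) :
    redL A k G ≠ 0 := by
  intro h0
  have h1 := congrArg (fun x => HahnSeries.coeff x (-1)) h0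
  have h2 : algebraMap A k (G.coeff (-1)) = 0 := h1
  rw [h] at h2
  have h3 : algebraMap A k ((jqModC A).coeff (-1)) = (jqModC k).coeff (-1) := by
    have := congrArg (fun x => HahnSeries.coeff x (-1)) (coeffMap_jqModC (algebraMap A k))
    exact this
  rw [h3, coeff_jqModC_neg_one] at h2
  push_cast at h2
  rw [mul_one, neg_eq_zero] at h2
  exact one_ne_zero h2

/-- the middle Gauss valuation -/
def E1 : EData A Ω k (FF K0 (q ^ 2 * M)) where
  φ := mphi (phi1 hco (hzΩ Ω hz))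
  ϖA := 1 - (z : A)
  red := red_lam (hz_val hz)
  neA := lam_ne (hz_val hz)
  scale := fun x hx => by
    refine exists_scale_of_TF (D := D1 R0 (z : A)) (lam_ne (hz_val hz))
      (PU_D1 (hz_val hz) B.pu') ?_ hx
    refine mem_TF_all B _ (mphi_algebraMap _) (D1 R0 (z : A)) (algebraMap_mem_D1 _) ?_ x
    intro m hm
    obtain ⟨s, hs, e⟩ := exists_phi1_jm (R0 := R0) (Ω := Ω) hco hz hm
    exact ⟨s, hs, by rw [mphi_jm, e]⟩
  ϖ := uu2 K0 q M
  hϖ := by
    obtain ⟨G, hG, hG'⟩ := exists_uu (K0 := K0) (Ω := Ω) (k := k) hco hz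
    exact ⟨incL A Ω G, isU_incL (quot_ne hG'), hG⟩

end Three

end Fermat.Agent.CarE
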