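import Fermat.Agent.CarE.CM2

/-!
# The Atkin-Lehner involution permutes the components
-/

set_option autoImplicit false
set_option linter.style.haveILetI false
set_option linter.unusedSectionVars false

noncomputable section

namespace Fermat.Agent.CarE

open Module ModularCurve Polynomial IntermediateField Fermat.Agent.ModPoly Fermat.Agent.Cusp
open Fermat.Agent.SemiSt Fermat.Agent.RedMod Fermat.Agent.Car Fermat.Agent.Red

variable {R0 K0 A Ω k : Type*} [CommRing R0] [IsDomain R0] [IsDiscreteValuationRing R0]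
  [Field K0] [Algebra R0 K0]
  [IsFractionRing R0 K0] [CommRing A] [IsDomain A] [ValuationRing A] [Field Ω]
  [IsAlgClosed Ω] [CharZero Ω]
  [Algebra A Ω] [IsFractionRing A Ω] [Field k] [Algebra A k] [Algebra K0 Ω] [Algebra R0 A]
  [Algebra R0 k] {q M : ℕ} [hq : Fact q.Prime] [NeZero M] [CharP k q]
  (B : Base q R0 K0 A Ω k) (hco : q.Coprime M)
  {z : Aˣ} (hz : z ^ q = 1 ∧ z ≠ 1) (hM : (M : k) ≠ 0)
  (κ : IntermediateField k (LaurentSeries k))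
  (hκ : ∀ j (x : FF K0 (q ^ 2 * M)) (h : x ∈ (E3 B hco hz j).W),
    (E3 B hco hz j).πW ⟨x, h⟩ ∈ κ)

theorem v_w0_2 (x : FF K0 (q ^ 2 * M)) :
    (C3 B hco hz κ hκ 2).v (w0 hco B.alg B.fixed x) = (C3 B hco hz κ hκ 0).v x := by
  rcases eq_or_ne x 0 with rfl | hx
  · rw [map_zero, Comp.v_zero, Comp.v_zero]
  obtain ⟨m, w, hw, h⟩ := (E3 B hco hz 0).scale x hx
  have h1 : (C3 B hco hz κ hκ 0).v x = m := (E3 B hco hz 0).v_eq κ (hκ 0) hw h
  have h2 : (C3 B hco hz κ hκ 2).v (w0 hco B.alg B.fixed x) = m :=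
    (E3 B hco hz 2).v_eq κ (hκ 2) hw ((mphi2_w0 hco B.alg B.fixed x).trans h)
  rw [h1, h2]

theorem v_w0_0 (x : FF K0 (q ^ 2 * M)) :
    (C3 B hco hz κ hκ 0).v (w0 hco B.alg B.fixed x) = (C3 B hco hz κ hκ 2).v x := by
  rw [← v_w0_2, w0_w0]

theorem w0_uu2 : w0 hco B.alg B.fixed (uu2 K0 q M) = -uu2 K0 q M := by
  rw [uu2, map_sub, w0_a hco B.alg B.fixed (d1M M), w0_c hco B.alg B.fixed (d1M M)]
  ring

theorem v_w0_1 (x : FF K0 (q ^ 2 * M)) :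
    (C3 B hco hz κ hκ 1).v (w0 hco B.alg B.fixed x) = (C3 B hco hz κ hκ 1).v x := by
  rcases eq_or_ne x 0 with rfl | hx
  · rw [map_zero]
  obtain ⟨y, hy, h⟩ := (C3 B hco hz κ hκ 1).v_spec hx
  have hϖ : (C3 B hco hz κ hκ 1).ϖ = uu2 K0 q M := rfl
  have hy0 : (y : FF K0 (q ^ 2 * M)) ≠ 0 := (C3 B hco hz κ hκ 1).ne_zero_of_π hy
  have hv1 : (C3 B hco hz κ hκ 1).v (uu2 K0 q M) = 1 := (C3 B hco hz κ hκ 1).v_ϖ
  have hu0 : uu2 K0 q M ≠ 0 := (C3 B hco hz κ hκ 1).ne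
  have h1 : w0 hco B.alg B.fixed x = (-uu2 K0 q M) ^ ((C3 B hco hz κ hκ 1).v x) *
      w0 hco B.alg B.fixed y := by
    conv_lhs => rw [h, map_mul, map_zpow₀, hϖ, w0_uu2 B hco]
  have hry : (C3 B hco hz κ hκ 1).r (y : FF K0 (q ^ 2 * M)) ≠ 0 := by
    rw [Comp.r_eq y.2]; exact hy
  have hwy0 : w0 hco B.alg B.fixed (y : FF K0 (q ^ 2 * M)) ≠ 0 := by
    rw [Ne, EmbeddingLike.map_eq_zero_iff]; exact hy0
  have h2 : (C3 B hco hz κ hκ 1).v (w0 hco B.alg B.fixed y) = 0 := by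
    rw [← Comp.r_ne_zero_iff hwy0, r_w0_1]
    exact hry
  conv_lhs => rw [h1, Comp.v_mul _ (zpow_ne_zero _ (neg_ne_zero.2 hu0)) hwy0, h2,
    Comp.v_zpow, Comp.v_neg, hv1]
  ring

end Fermat.Agent.CarE
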